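import Mathlib.RingTheory.Valuation.RamificationGroup
import Mathlib.FieldTheory.Minpoly.Field
import Mathlib.RingTheory.Algebraic.Basic
import Fermat.Prelude.Def_FLTPrelim_Ramification

set_option autoImplicit false

namespace Fermat.Agent.S05.Inertia

open scoped Pointwise

variable {K L : Type*} [Field K] [Field L] [Algebra K L] (A : ValuationSubring L)

theorem mem_decomp_of_mem_inertiaIn {σ : L ≃ₐ[K] L} (hσ : σ ∈ A.inertiaSubgroupIn K) :
    σ ∈ A.decompositionSubgroup K := by
  obtain ⟨τ, -, rfl⟩ := hσ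
  exact τ.2

theorem apply_mem_of_mem {σ : L ≃ₐ[K] L} (hσ : σ ∈ A.decompositionSubgroup K) {x : L}
    (hx : x ∈ A) : σ x ∈ A := by
  have h : σ • A = A := hσ
  have h1 : σ • x ∈ σ • A := ValuationSubring.smul_mem_pointwise_smul σ x A hx
  rw [h] at h1
  exact h1

theorem apply_mem_iff {σ : L ≃ₐ[K] L} (hσ : σ ∈ A.decompositionSubgroup K) (x : L) :
    σ x ∈ A ↔ x ∈ A := by
  constructor
  · intro hx
    have h := apply_mem_of_mem A (inv_mem hσ) hx
    have h2 : σ⁻¹ (σ x) = x := σ.symm_apply_apply x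
    rwa [h2] at h
  · exact apply_mem_of_mem A hσ

theorem valuation_le_of_le {σ : L ≃ₐ[K] L} (hσ : σ ∈ A.decompositionSubgroup K) {a b : L}
    (h : A.valuation a ≤ A.valuation b) : A.valuation (σ a) ≤ A.valuation (σ b) := by
  rw [ValuationSubring.valuation_le_iff] at h ⊢
  obtain ⟨c, hc⟩ := h
  refine ⟨⟨σ c, apply_mem_of_mem A hσ c.2⟩, ?_⟩
  show σ (c : L) * σ b = σ a
  rw [← map_mul, hc]

theorem valuation_le_iff_apply {σ : L ≃ₐ[K] L} (hσ : σ ∈ A.decompositionSubgroup K) (a b : L) :
    A.valuation (σ a) ≤ A.valuation (σ b) ↔ A.valuation a ≤ A.valuation b := by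
  constructor
  · intro h
    have h1 := valuation_le_of_le A (inv_mem hσ) h
    have ha : σ⁻¹ (σ a) = a := σ.symm_apply_apply a
    have hb : σ⁻¹ (σ b) = b := σ.symm_apply_apply b
    rwa [ha, hb] at h1
  · exact valuation_le_of_le A hσ

theorem valuation_lt_iff_apply {σ : L ≃ₐ[K] L} (hσ : σ ∈ A.decompositionSubgroup K) (a b : L) :
    A.valuation (σ a) < A.valuation (σ b) ↔ A.valuation a < A.valuation b := by
  rw [← not_le, ← not_le, valuation_le_iff_apply A hσ]

theorem not_valuation_apply_lt [Algebra.IsAlgebraic K L] {σ : L ≃ₐ[K] L}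
    (hσ : σ ∈ A.decompositionSubgroup K) (x : L) : ¬ A.valuation (σ x) < A.valuation x := by
  intro h
  have hstep : ∀ k : ℕ, A.valuation ((⇑σ)^[k + 1] x) < A.valuation ((⇑σ)^[k] x) := by
    intro k
    induction k with
    | zero => simpa using h
    | succ n ih =>
      rw [Function.iterate_succ_apply' (⇑σ) (n + 1) x]
      have h0 : A.valuation ((⇑σ)^[n + 1] x) = A.valuation (σ ((⇑σ)^[n] x)) := by
        rw [Function.iterate_succ_apply' (⇑σ) n x]
      rw [h0]
      rw [Function.iterate_succ_apply' (⇑σ) n x] at ih ⊢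
      exact (valuation_lt_iff_apply A hσ _ _).mpr ih
  have hanti : StrictAnti (fun k : ℕ => A.valuation ((⇑σ)^[k] x)) :=
    strictAnti_nat_of_succ_lt hstep
  have hinj : Function.Injective (fun k : ℕ => (⇑σ)^[k] x) := by
    intro i j hij
    exact hanti.injective (congrArg A.valuation hij)
  have hx : IsIntegral K x := (Algebra.IsAlgebraic.isAlgebraic x).isIntegral
  have hmem : ∀ k : ℕ, (⇑σ)^[k] x ∈ (minpoly K x).rootSet L := by
    intro k
    induction k with
    | zero =>
      rw [Function.iterate_zero, id, Polynomial.mem_rootSet]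
      exact ⟨minpoly.ne_zero hx, minpoly.aeval K x⟩
    | succ n ih =>
      rw [Function.iterate_succ_apply' (⇑σ) n x]
      rw [Polynomial.mem_rootSet] at ih ⊢
      refine ⟨ih.1, ?_⟩
      have h1 := Polynomial.aeval_algHom_apply (σ : L →ₐ[K] L) ((⇑σ)^[n] x) (minpoly K x)
      rw [ih.2, map_zero] at h1
      exact h1
  exact (Set.infinite_of_injective_forall_mem hinj hmem) (Polynomial.rootSet_finite _ L)

theorem valuation_apply [Algebra.IsAlgebraic K L] {σ : L ≃ₐ[K] L}
    (hσ : σ ∈ A.decompositionSubgroup K) (x : L) :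
    A.valuation (σ x) = A.valuation x := by
  apply le_antisymm
  · exact not_lt.mp (fun h => by
      have h1 := not_valuation_apply_lt A (inv_mem hσ) (σ x)
      have h2 : σ⁻¹ (σ x) = x := σ.symm_apply_apply x
      rw [h2] at h1
      exact h1 h)
  · exact not_lt.mp (not_valuation_apply_lt A hσ x)

theorem sub_mem_nonunits {σ : L ≃ₐ[K] L} (hσ : σ ∈ A.inertiaSubgroupIn K) {x : L}
    (hx : x ∈ A) : σ x - x ∈ A.nonunits := by
  obtain ⟨τ, hτ, rfl⟩ := hσ
  have h1 : MulSemiringAction.toRingAut (A.decompositionSubgroup K)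
      (IsLocalRing.ResidueField A) τ = 1 := hτ
  have h2 : τ • IsLocalRing.residue A ⟨x, hx⟩ = IsLocalRing.residue A ⟨x, hx⟩ := by
    have := congrArg (fun f => f (IsLocalRing.residue A ⟨x, hx⟩)) h1
    simpa using this
  rw [← IsLocalRing.ResidueField.residue_smul] at h2
  have h3 : τ • (⟨x, hx⟩ : A) - ⟨x, hx⟩ ∈ IsLocalRing.maximalIdeal A := by
    rw [← Ideal.Quotient.eq]
    exact h2
  rw [← ValuationSubring.coe_mem_nonunits_iff] at h3
  exact h3

theorem valuation_sub_lt_one {σ : L ≃ₐ[K] L} (hσ : σ ∈ A.inertiaSubgroupIn K) {x : L}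
    (hx : A.valuation x ≤ 1) : A.valuation (σ x - x) < 1 := by
  rw [← ValuationSubring.mem_nonunits_iff]
  exact sub_mem_nonunits A hσ ((A.valuation_le_one_iff x).mp hx)

/-- if `x` has the same valuation as an element `r ≠ 0` fixed by `σ ∈ I`, then `σ x - x` has
strictly smaller valuation than `x`. -/
theorem valuation_sub_lt {σ : L ≃ₐ[K] L} (hσ : σ ∈ A.inertiaSubgroupIn K) {x r : L}
    (hr : σ r = r) (hr0 : r ≠ 0) (hxr : A.valuation x = A.valuation r) :
    A.valuation (σ x - x) < A.valuation x := by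
  have hv0 : A.valuation r ≠ 0 := (Valuation.ne_zero_iff _).mpr hr0
  have hu : A.valuation (x / r) ≤ 1 := by
    rw [map_div₀, hxr, div_self hv0]
  have h1 := valuation_sub_lt_one A hσ hu
  have h2 : σ x - x = r * (σ (x / r) - x / r) := by
    rw [map_div₀, hr]
    field_simp
  rw [h2, map_mul, hxr]
  calc A.valuation r * A.valuation (σ (x / r) - x / r) < A.valuation r * 1 := by
        exact mul_lt_mul_of_pos_left h1 (zero_lt_iff.mpr hv0)
    _ = A.valuation r := mul_one _

end Fermat.Agent.S05.Inertia
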