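import Mathlib
import Fermat.Prelude.Def_FLTPrelim_Ramification

set_option autoImplicit false

namespace Fermat.Agent.S05

open ValuationSubring
open scoped Pointwise

variable {K : Type*} [Field K] [Algebra ℚ K]

/-- An element of the decomposition group maps `A` onto `A`. -/
theorem Glue.mem_iff_of_mem_decomposition (A : ValuationSubring K) (σ : K ≃ₐ[ℚ] K)
    (hσ : σ ∈ A.decompositionSubgroup ℚ) (x : K) : σ x ∈ A ↔ x ∈ A := by
  have hstab : σ • A = A := MulAction.mem_stabilizer_iff.mp hσ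
  constructor
  · intro h
    have h' : σ x ∈ σ • A := by rw [hstab]; exact h
    have := ValuationSubring.mem_pointwise_smul_iff_inv_smul_mem.mp h'
    simpa [AlgEquiv.smul_def] using this
  · intro h
    have : σ • x ∈ σ • A := ValuationSubring.smul_mem_pointwise_smul σ x A h
    rw [hstab] at this
    simpa [AlgEquiv.smul_def] using this

/-- An element of the decomposition group preserves the order of valuations. -/
theorem Glue.val_le_iff_of_mem_decomposition (A : ValuationSubring K) (σ : K ≃ₐ[ℚ] K)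
    (hσ : σ ∈ A.decompositionSubgroup ℚ) (x y : K) :
    A.valuation (σ x) ≤ A.valuation (σ y) ↔ A.valuation x ≤ A.valuation y := by
  by_cases hy : y = 0
  · subst hy
    simp
  · have hσy : σ y ≠ 0 := by simpa using hy
    have h1 : A.valuation (σ x) ≤ A.valuation (σ y) ↔ σ (x / y) ∈ A := by
      rw [← A.valuation_le_one_iff, map_div₀, map_div₀,
        div_le_one₀ (by simpa [pos_iff_ne_zero] using hσy)]
    have h2 : A.valuation x ≤ A.valuation y ↔ x / y ∈ A := by
      rw [← A.valuation_le_one_iff, map_div₀,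
        div_le_one₀ (by simpa [pos_iff_ne_zero] using hy)]
    rw [h1, h2]
    exact Glue.mem_iff_of_mem_decomposition A σ hσ (x / y)

theorem Glue.val_lt_iff_of_mem_decomposition (A : ValuationSubring K) (σ : K ≃ₐ[ℚ] K)
    (hσ : σ ∈ A.decompositionSubgroup ℚ) (x y : K) :
    A.valuation (σ x) < A.valuation (σ y) ↔ A.valuation x < A.valuation y := by
  rw [← not_le, ← not_le, Glue.val_le_iff_of_mem_decomposition A σ hσ y x]

/-- An algebraic element has a finite orbit under the powers of an automorphism. -/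
theorem Glue.exists_pow_apply_eq [Algebra.IsAlgebraic ℚ K] (σ : K ≃ₐ[ℚ] K) (a : K) :
    ∃ k : ℕ, (σ ^ (k + 1)) a = a := by
  have halg : IsAlgebraic ℚ a := Algebra.IsAlgebraic.isAlgebraic a
  have hfin : (Set.range fun n : ℕ => (σ ^ n) a).Finite := by
    refine Set.Finite.subset ((minpoly ℚ a).rootSet_finite K) ?_
    rintro _ ⟨n, rfl⟩
    rw [Polynomial.mem_rootSet]
    refine ⟨minpoly.ne_zero halg.isIntegral, ?_⟩
    have := Polynomial.aeval_algHom_apply ((σ ^ n : K ≃ₐ[ℚ] K) : K →ₐ[ℚ] K) a (minpoly ℚ a)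
    simpa [minpoly.aeval] using this
  have hninj : ¬ Function.Injective (fun n : ℕ => (σ ^ n) a) := by
    intro hinj
    exact Set.infinite_range_of_injective hinj hfin
  rw [Function.Injective] at hninj
  push Not at hninj
  obtain ⟨m, n, hmn, hne⟩ := hninj
  have key : ∀ m n : ℕ, m < n → (σ ^ m) a = (σ ^ n) a → ∃ k : ℕ, (σ ^ (k + 1)) a = a := by
    intro m n hlt h
    refine ⟨n - m - 1, ?_⟩
    have hn : n = m + (n - m - 1 + 1) := by omega
    rw [hn, pow_add, AlgEquiv.mul_apply] at h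
    exact ((σ ^ m).injective h).symm
  rcases Nat.lt_or_gt_of_ne hne with h | h
  · exact key m n h hmn
  · exact key n m h hmn.symm

/-- C1: inertia elements preserve the valuation (for `K` algebraic over `ℚ`). -/
theorem inertia_val_eq [Algebra.IsAlgebraic ℚ K] (A : ValuationSubring K) (σ : K ≃ₐ[ℚ] K)
    (hσ : σ ∈ A.inertiaSubgroupIn ℚ) (a : K) :
    A.valuation (σ a) = A.valuation a := by
  have hdec : σ ∈ A.decompositionSubgroup ℚ := by
    unfold ValuationSubring.inertiaSubgroupIn at hσ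
    obtain ⟨τ, -, rfl⟩ := hσ
    exact τ.2
  have hlt := Glue.val_lt_iff_of_mem_decomposition A σ hdec
  have hpow : ∀ (n : ℕ) (x y : K), A.valuation x < A.valuation y →
      A.valuation ((σ ^ n) x) < A.valuation ((σ ^ n) y) := by
    intro n
    induction n with
    | zero => intro x y h; simpa using h
    | succ n ih =>
      intro x y h
      rw [pow_succ', AlgEquiv.mul_apply, AlgEquiv.mul_apply]
      exact (hlt _ _).mpr (ih x y h)
  obtain ⟨k, hk⟩ := Glue.exists_pow_apply_eq σ a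
  rcases lt_trichotomy (A.valuation (σ a)) (A.valuation a) with h | h | h
  · exfalso
    have hall : ∀ n : ℕ, A.valuation ((σ ^ (n + 1)) a) < A.valuation a := by
      intro n
      induction n with
      | zero => simpa using h
      | succ n ih =>
        have h1 := hpow (n + 1) (σ a) a h
        have h2 : (σ ^ (n + 1)) (σ a) = (σ ^ (n + 1 + 1)) a := by
          rw [pow_succ (σ) (n + 1), AlgEquiv.mul_apply]
        rw [h2] at h1
        exact h1.trans ih
    have := hall k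
    rw [hk] at this
    exact lt_irrefl _ this
  · exact h
  · exfalso
    have hall : ∀ n : ℕ, A.valuation a < A.valuation ((σ ^ (n + 1)) a) := by
      intro n
      induction n with
      | zero => simpa using h
      | succ n ih =>
        have h1 := hpow (n + 1) a (σ a) h
        have h2 : (σ ^ (n + 1)) (σ a) = (σ ^ (n + 1 + 1)) a := by
          rw [pow_succ (σ) (n + 1), AlgEquiv.mul_apply]
        rw [h2] at h1
        exact ih.trans h1
    have := hall k
    rw [hk] at this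
    exact lt_irrefl _ this

/-- C2: inertia elements act trivially on the residue field. -/
theorem inertia_sub_lt (A : ValuationSubring K) (σ : K ≃ₐ[ℚ] K)
    (hσ : σ ∈ A.inertiaSubgroupIn ℚ) (a : K) (ha : A.valuation a ≤ 1) :
    A.valuation (σ a - a) < 1 := by
  unfold ValuationSubring.inertiaSubgroupIn at hσ
  obtain ⟨τ, hτ, rfl⟩ := hσ
  have haA : a ∈ A := (A.valuation_le_one_iff a).mp ha
  have h1 : MulSemiringAction.toRingAut (A.decompositionSubgroup ℚ)
      (IsLocalRing.ResidueField A) τ = 1 := MonoidHom.mem_ker.mp hτ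
  have h2 : τ • (IsLocalRing.residue A ⟨a, haA⟩) = IsLocalRing.residue A ⟨a, haA⟩ := by
    have := congrArg (fun f => f (IsLocalRing.residue A ⟨a, haA⟩)) h1
    simpa using this
  rw [← IsLocalRing.ResidueField.residue_smul] at h2
  have h3 : τ • (⟨a, haA⟩ : A) - ⟨a, haA⟩ ∈ IsLocalRing.maximalIdeal A := by
    have h2' : Ideal.Quotient.mk (IsLocalRing.maximalIdeal A) (τ • (⟨a, haA⟩ : A)) =
        Ideal.Quotient.mk (IsLocalRing.maximalIdeal A) ⟨a, haA⟩ := h2
    exact Ideal.Quotient.eq.mp h2'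
  have h4 := (A.valuation_lt_one_iff _).mp h3
  have h5 : ((τ • (⟨a, haA⟩ : A) - ⟨a, haA⟩ : A) : K) = (τ : K ≃ₐ[ℚ] K) a - a := rfl
  rw [h5] at h4
  exact h4

/-- C3a: integers are integral. -/
theorem val_intCast_le_one (A : ValuationSubring K) (n : ℤ) : A.valuation (n : K) ≤ 1 :=
  (A.valuation_le_one_iff _).mpr (intCast_mem A n)

/-- C3b: an integer is a unit at a place over `q` iff `q` does not divide it. -/
theorem val_intCast_eq_one_iff (A : ValuationSubring K) {q : ℕ} (hq : q.Prime)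
    (hA : A.LiesOverPrime q) (n : ℤ) :
    A.valuation (n : K) = 1 ↔ ¬ (q : ℤ) ∣ n := by
  have hqv : A.valuation (q : K) < 1 := (A.mem_nonunits_iff).mp hA
  constructor
  · rintro h ⟨m, rfl⟩
    have h1 : A.valuation (((q : ℤ) * m : ℤ) : K) = A.valuation (q : K) * A.valuation (m : K) := by
      push_cast
      rw [map_mul]
    rw [h1] at h
    have h2 : A.valuation (q : K) * A.valuation (m : K) < 1 := by
      calc A.valuation (q : K) * A.valuation (m : K) ≤ A.valuation (q : K) * 1 :=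
            mul_le_mul' le_rfl (val_intCast_le_one A m)
        _ = A.valuation (q : K) := mul_one _
        _ < 1 := hqv
    exact absurd h (ne_of_lt h2)
  · intro h
    have hcop : IsCoprime (q : ℤ) n :=
      (Nat.prime_iff_prime_int.mp hq).irreducible.coprime_iff_not_dvd.mpr h
    obtain ⟨u, w, huw⟩ := hcop
    rcases lt_or_eq_of_le (val_intCast_le_one A n) with hlt | heq
    · exfalso
      have h1 : A.valuation ((u * (q : ℤ) + w * n : ℤ) : K) < 1 := by
        push_cast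
        refine lt_of_le_of_lt (Valuation.map_add _ _ _) (max_lt ?_ ?_)
        · rw [map_mul]
          calc A.valuation (u : K) * A.valuation (q : K) ≤ 1 * A.valuation (q : K) :=
                mul_le_mul' (val_intCast_le_one A u) le_rfl
            _ = A.valuation (q : K) := one_mul _
            _ < 1 := hqv
        · rw [map_mul]
          calc A.valuation (w : K) * A.valuation (n : K) ≤ 1 * A.valuation (n : K) :=
                mul_le_mul' (val_intCast_le_one A w) le_rfl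
            _ = A.valuation (n : K) := one_mul _
            _ < 1 := hlt
      rw [huw] at h1
      simp at h1
    · exact heq

theorem Glue.val_algebraMap_int (A : ValuationSubring K) (r : ℚ) (n : ℤ) (h : r = (n : ℚ)) :
    A.valuation (algebraMap ℚ K r) = A.valuation (n : K) := by
  subst h
  simp

theorem Glue.val_intCast_lt_one_iff (A : ValuationSubring K) {q : ℕ} (hq : q.Prime)
    (hA : A.LiesOverPrime q) (n : ℤ) :
    A.valuation (n : K) < 1 ↔ (q : ℤ) ∣ n := by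
  rw [lt_iff_le_and_ne, ← not_iff_not]
  simp only [not_and, not_not]
  constructor
  · intro h
    exact (val_intCast_eq_one_iff A hq hA n).mp (h (val_intCast_le_one A n))
  · intro h _
    exact (val_intCast_eq_one_iff A hq hA n).mpr h

theorem Glue.not_dvd_both (P : FreyPackage) {q : ℕ} (hq : q.Prime) :
    ¬ ((q : ℤ) ∣ P.a ∧ (q : ℤ) ∣ P.b) ∧ ¬ ((q : ℤ) ∣ P.a ∧ (q : ℤ) ∣ P.c) ∧
      ¬ ((q : ℤ) ∣ P.b ∧ (q : ℤ) ∣ P.c) := by
  have hq' : ¬ IsUnit (q : ℤ) := (Nat.prime_iff_prime_int.mp hq).not_isUnit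
  refine ⟨?_, ?_, ?_⟩
  · rintro ⟨h1, h2⟩
    have := dvd_gcd h1 h2
    rw [P.hgcdab] at this
    exact hq' (isUnit_of_dvd_one this)
  · rintro ⟨h1, h2⟩
    have := dvd_gcd h1 h2
    rw [P.hgcdac] at this
    exact hq' (isUnit_of_dvd_one this)
  · rintro ⟨h1, h2⟩
    have := dvd_gcd h1 h2
    rw [P.hgcdbc] at this
    exact hq' (isUnit_of_dvd_one this)

/-- C4: Frey arithmetic. With `A' = a^p`, `B' = b^p`, there is a rational 2-torsion abscissa `e`
(`e ∈ {0, A'}`) such that the model `y² = x³ + β x² + γ x` (`β = 3e + B' - A'`,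
`γ = 3e² + 2e(B' - A') - A'B'`) is either good at `q` or multiplicative with `v γ = v w ^ p`. -/
theorem frey_case (P : FreyPackage) {q : ℕ} (hq : q.Prime) (hq2 : q ≠ 2)
    (A : ValuationSubring K) (hA : A.LiesOverPrime q) :
    ∃ e w : ℚ,
      e * (e - (P.a : ℚ) ^ P.p) * (e + (P.b : ℚ) ^ P.p) = 0 ∧
      A.valuation (algebraMap ℚ K (3 * e + (P.b : ℚ) ^ P.p - (P.a : ℚ) ^ P.p)) ≤ 1 ∧
      A.valuation (algebraMap ℚ K
        (3 * e ^ 2 + 2 * e * ((P.b : ℚ) ^ P.p - (P.a : ℚ) ^ P.p)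
          - (P.a : ℚ) ^ P.p * (P.b : ℚ) ^ P.p)) ≤ 1 ∧
      A.valuation (algebraMap ℚ K
        ((3 * e + (P.b : ℚ) ^ P.p - (P.a : ℚ) ^ P.p) ^ 2 -
          4 * (3 * e ^ 2 + 2 * e * ((P.b : ℚ) ^ P.p - (P.a : ℚ) ^ P.p)
          - (P.a : ℚ) ^ P.p * (P.b : ℚ) ^ P.p))) = 1 ∧
      (3 * e ^ 2 + 2 * e * ((P.b : ℚ) ^ P.p - (P.a : ℚ) ^ P.p)
          - (P.a : ℚ) ^ P.p * (P.b : ℚ) ^ P.p) ≠ 0 ∧
      (A.valuation (algebraMap ℚ K
        (3 * e ^ 2 + 2 * e * ((P.b : ℚ) ^ P.p - (P.a : ℚ) ^ P.p)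
          - (P.a : ℚ) ^ P.p * (P.b : ℚ) ^ P.p)) = 1 ∨
       (A.valuation (algebraMap ℚ K (3 * e + (P.b : ℚ) ^ P.p - (P.a : ℚ) ^ P.p)) = 1 ∧
        A.valuation (algebraMap ℚ K
          (3 * e ^ 2 + 2 * e * ((P.b : ℚ) ^ P.p - (P.a : ℚ) ^ P.p)
            - (P.a : ℚ) ^ P.p * (P.b : ℚ) ^ P.p)) < 1 ∧
        A.valuation (algebraMap ℚ K
          (3 * e ^ 2 + 2 * e * ((P.b : ℚ) ^ P.p - (P.a : ℚ) ^ P.p)
            - (P.a : ℚ) ^ P.p * (P.b : ℚ) ^ P.p)) = A.valuation (algebraMap ℚ K w) ^ P.p)) := by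
  obtain ⟨hab, hac, hbc⟩ := Glue.not_dvd_both P hq
  have hqp : Prime (q : ℤ) := Nat.prime_iff_prime_int.mp hq
  have hFLT := P.hFLT
  have hp0 : P.p ≠ 0 := P.hp0
  have hone := fun n => val_intCast_eq_one_iff A hq hA n
  have hlt := fun n => Glue.val_intCast_lt_one_iff A hq hA n
  by_cases hc : (q : ℤ) ∣ P.c
  · -- q ∣ c : use the 2-torsion point with abscissa a^p
    have ha : ¬ (q : ℤ) ∣ P.a := fun h => hac ⟨h, hc⟩
    have hb : ¬ (q : ℤ) ∣ P.b := fun h => hbc ⟨h, hc⟩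
    have hβ : (3 * (P.a : ℚ) ^ P.p + (P.b : ℚ) ^ P.p - (P.a : ℚ) ^ P.p) =
        ((P.a ^ P.p + P.c ^ P.p : ℤ) : ℚ) := by
      rw [← hFLT]; push_cast; ring
    have hγ : (3 * ((P.a : ℚ) ^ P.p) ^ 2 + 2 * (P.a : ℚ) ^ P.p * ((P.b : ℚ) ^ P.p - (P.a : ℚ) ^ P.p)
          - (P.a : ℚ) ^ P.p * (P.b : ℚ) ^ P.p) = (((P.a * P.c) ^ P.p : ℤ) : ℚ) := by
      rw [mul_pow, ← hFLT]; push_cast; ring
    have hδ : ((3 * (P.a : ℚ) ^ P.p + (P.b : ℚ) ^ P.p - (P.a : ℚ) ^ P.p) ^ 2 -
          4 * (3 * ((P.a : ℚ) ^ P.p) ^ 2 + 2 * (P.a : ℚ) ^ P.p * ((P.b : ℚ) ^ P.p - (P.a : ℚ) ^ P.p)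
          - (P.a : ℚ) ^ P.p * (P.b : ℚ) ^ P.p)) = (((P.b ^ P.p) ^ 2 : ℤ) : ℚ) := by
      push_cast; ring
    have hw : ((P.a : ℚ) * (P.c : ℚ)) = ((P.a * P.c : ℤ) : ℚ) := by push_cast; ring
    have hγv : A.valuation (((P.a * P.c) ^ P.p : ℤ) : K) = A.valuation ((P.a * P.c : ℤ) : K) ^ P.p := by
      rw [Int.cast_pow, map_pow]
    refine ⟨(P.a : ℚ) ^ P.p, (P.a : ℚ) * (P.c : ℚ), by ring, ?_, ?_, ?_, ?_, Or.inr ⟨?_, ?_, ?_⟩⟩
    · rw [Glue.val_algebraMap_int A _ _ hβ]; exact val_intCast_le_one A _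
    · rw [Glue.val_algebraMap_int A _ _ hγ]; exact val_intCast_le_one A _
    · rw [Glue.val_algebraMap_int A _ _ hδ, hone]
      intro h
      exact hb (hqp.dvd_of_dvd_pow (hqp.dvd_of_dvd_pow h))
    · rw [hγ]
      have : (P.a * P.c) ^ P.p ≠ 0 := pow_ne_zero _ (mul_ne_zero P.ha0 P.hc0)
      exact_mod_cast this
    · rw [Glue.val_algebraMap_int A _ _ hβ, hone]
      intro h
      have h2 : (q : ℤ) ∣ P.a ^ P.p := by
        have h3 : (q : ℤ) ∣ P.c ^ P.p := dvd_pow hc hp0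
        exact (dvd_add_left h3).mp h
      exact ha (hqp.dvd_of_dvd_pow h2)
    · rw [Glue.val_algebraMap_int A _ _ hγ, hlt]
      exact dvd_pow (dvd_mul_of_dvd_right hc _) hp0
    · rw [Glue.val_algebraMap_int A _ _ hγ, Glue.val_algebraMap_int A _ _ hw, hγv]
  · -- q ∤ c : use the 2-torsion point with abscissa 0
    have hβ : (3 * (0 : ℚ) + (P.b : ℚ) ^ P.p - (P.a : ℚ) ^ P.p) =
        ((P.b ^ P.p - P.a ^ P.p : ℤ) : ℚ) := by
      push_cast; ring
    have hγ : (3 * (0 : ℚ) ^ 2 + 2 * 0 * ((P.b : ℚ) ^ P.p - (P.a : ℚ) ^ P.p)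
          - (P.a : ℚ) ^ P.p * (P.b : ℚ) ^ P.p) = ((-(P.a * P.b) ^ P.p : ℤ) : ℚ) := by
      push_cast; ring
    have hδ : ((3 * (0 : ℚ) + (P.b : ℚ) ^ P.p - (P.a : ℚ) ^ P.p) ^ 2 -
          4 * (3 * (0 : ℚ) ^ 2 + 2 * 0 * ((P.b : ℚ) ^ P.p - (P.a : ℚ) ^ P.p)
          - (P.a : ℚ) ^ P.p * (P.b : ℚ) ^ P.p)) = (((P.c ^ P.p) ^ 2 : ℤ) : ℚ) := by
      rw [← hFLT]; push_cast; ring
    have hw : ((P.a : ℚ) * (P.b : ℚ)) = ((P.a * P.b : ℤ) : ℚ) := by push_cast; ring
    have hγv : A.valuation ((-(P.a * P.b) ^ P.p : ℤ) : K) = A.valuation ((P.a * P.b : ℤ) : K) ^ P.p := by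
      rw [Int.cast_neg, Valuation.map_neg, Int.cast_pow, map_pow]
    refine ⟨0, (P.a : ℚ) * (P.b : ℚ), by ring, ?_, ?_, ?_, ?_, ?_⟩
    · rw [Glue.val_algebraMap_int A _ _ hβ]; exact val_intCast_le_one A _
    · rw [Glue.val_algebraMap_int A _ _ hγ]; exact val_intCast_le_one A _
    · rw [Glue.val_algebraMap_int A _ _ hδ, hone]
      intro h
      exact hc (hqp.dvd_of_dvd_pow (hqp.dvd_of_dvd_pow h))
    · rw [hγ]
      have : -(P.a * P.b) ^ P.p ≠ 0 := neg_ne_zero.mpr (pow_ne_zero _ (mul_ne_zero P.ha0 P.hb0))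
      exact_mod_cast this
    · by_cases hab' : (q : ℤ) ∣ P.a * P.b
      · right
        refine ⟨?_, ?_, ?_⟩
        · rw [Glue.val_algebraMap_int A _ _ hβ, hone]
          intro h
          rcases hqp.dvd_or_dvd hab' with ha | hb
          · have h3 : (q : ℤ) ∣ P.a ^ P.p := dvd_pow ha hp0
            have h2 : (q : ℤ) ∣ P.b ^ P.p := (dvd_sub_left h3).mp h
            exact hab ⟨ha, hqp.dvd_of_dvd_pow h2⟩
          · have h3 : (q : ℤ) ∣ P.b ^ P.p := dvd_pow hb hp0
            have h2 : (q : ℤ) ∣ P.a ^ P.p := (dvd_sub_right h3).mp h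
            exact hab ⟨hqp.dvd_of_dvd_pow h2, hb⟩
        · rw [Glue.val_algebraMap_int A _ _ hγ, hlt]
          exact (dvd_neg).mpr (dvd_pow hab' hp0)
        · rw [Glue.val_algebraMap_int A _ _ hγ, Glue.val_algebraMap_int A _ _ hw, hγv]
      · left
        rw [Glue.val_algebraMap_int A _ _ hγ, hone]
        intro h
        exact hab' (hqp.dvd_of_dvd_pow ((dvd_neg).mp h))

end Fermat.Agent.S05
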