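import Mathlib

set_option autoImplicit false

namespace Fermat.Agent.S05

/-- Abstract coordinate data on an abelian group `G` modelling the nonzero points of the curve
`y ^ 2 = x ^ 3 + β * x ^ 2 + γ * x` (values at `0 : G` are junk). -/
structure KummerData (G : Type*) [AddCommGroup G] (K : Type*) [Field K] where
  β : K
  γ : K
  x : G → K
  y : G → K
  eqn : ∀ P : G, P ≠ 0 → y P ^ 2 = x P ^ 3 + β * x P ^ 2 + γ * x P
  x_neg : ∀ P : G, x (-P) = x P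
  y_neg : ∀ P : G, y (-P) = -y P
  inj : ∀ P Q : G, P ≠ 0 → Q ≠ 0 → x P = x Q → y P = y Q → P = Q
  sub_x : ∀ P Q : G, P ≠ 0 → Q ≠ 0 → x P ≠ x Q →
    x (P - Q) * (x P - x Q) ^ 2 = (y P + y Q) ^ 2 - (β + x P + x Q) * (x P - x Q) ^ 2
  dbl_x : ∀ P : G, P ≠ 0 → y P ≠ 0 → x (P + P) * (4 * y P ^ 2) = (x P ^ 2 - γ) ^ 2

end Fermat.Agent.S05
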