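import Mathlib.AlgebraicGeometry.EllipticCurve.Affine.Point
import Fermat.Prelude.Def_FLTPrelim_GaloisRep

set_option autoImplicit false

namespace Fermat.Agent.S05.PointAlg

open WeierstrassCurve WeierstrassCurve.Affine WeierstrassCurve.Affine.Point

section Defs

variable {K : Type*} [Field K]

/-- scaled and shifted abscissa `4 (X - e)` (junk value `0` at the point at infinity). -/
def px (W : WeierstrassCurve K) (e : K) : W.toAffine.Point → K
  | .zero => 0
  | .some x _ _ => 4 * (x - e)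

/-- scaled ordinate `4 (2 Y + a₁ X + a₃)` (junk value `0` at the point at infinity). -/
def py (W : WeierstrassCurve K) : W.toAffine.Point → K
  | .zero => 0
  | .some x y _ => 4 * (2 * y + W.a₁ * x + W.a₃)

/-- `β = b₂ + 12 e`. -/
def beta (W : WeierstrassCurve K) (e : K) : K := W.b₂ + 12 * e

/-- `γ = 8 (6 e² + b₂ e + b₄)`. -/
def gamma (W : WeierstrassCurve K) (e : K) : K := 8 * (6 * e ^ 2 + W.b₂ * e + W.b₄)

/-- `e` is the abscissa of a 2-torsion point. -/
def IsTwoTorsX (W : WeierstrassCurve K) (e : K) : Prop :=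
  4 * e ^ 3 + W.b₂ * e ^ 2 + 2 * W.b₄ * e + W.b₆ = 0

variable {W : WeierstrassCurve K} {e : K}

lemma px_zero : px W e 0 = 0 := rfl
lemma py_zero : py W 0 = 0 := rfl

lemma px_some {x y : K} (h : W.toAffine.Nonsingular x y) :
    px W e (.some x y h) = 4 * (x - e) := rfl

lemma py_some {x y : K} (h : W.toAffine.Nonsingular x y) :
    py W (.some x y h) = 4 * (2 * y + W.a₁ * x + W.a₃) := rfl

/-- (I.1) the curve relation in the coordinates `(px, py)`. -/
theorem curve_rel (he : IsTwoTorsX W e) {P : W.toAffine.Point} (hP : P ≠ 0) :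
    py W P ^ 2 = px W e P ^ 3 + beta W e * px W e P ^ 2 + gamma W e * px W e P := by
  rcases P with _ | ⟨x, y, h⟩
  · exact absurd rfl hP
  · have heq := (W.toAffine.equation_iff x y).mp h.1
    simp only [px, py, beta, gamma, WeierstrassCurve.b₂, WeierstrassCurve.b₄, WeierstrassCurve.b₆,
      IsTwoTorsX] at *
    linear_combination 64 * heq + 16 * he

/-- (I.2) negation. -/
theorem px_neg (P : W.toAffine.Point) : px W e (-P) = px W e P := by
  rcases P with _ | ⟨x, y, h⟩
  · rfl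
  · rfl

theorem py_neg (P : W.toAffine.Point) : py W (-P) = -py W P := by
  rcases P with _ | ⟨x, y, h⟩
  · show py W 0 = -py W 0
    rw [py_zero, _root_.neg_zero]
  · simp only [neg_some, py, negY]
    ring

/-- (I.4) a point is determined by its coordinates. -/
theorem eq_of_px_py (h2 : (2 : K) ≠ 0) {P Q : W.toAffine.Point} (hP : P ≠ 0) (hQ : Q ≠ 0)
    (hx : px W e P = px W e Q) (hy : py W P = py W Q) : P = Q := by
  rcases P with _ | ⟨x₁, y₁, h₁⟩
  · exact absurd rfl hP
  rcases Q with _ | ⟨x₂, y₂, h₂⟩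
  · exact absurd rfl hQ
  have h4 : (4 : K) ≠ 0 := by
    have : (4 : K) = 2 * 2 := by norm_num
    rw [this]; exact mul_ne_zero h2 h2
  simp only [px, py] at hx hy
  have hx' : x₁ = x₂ := by
    have := mul_left_cancel₀ h4 hx
    linear_combination this
  subst hx'
  have hy' : y₁ = y₂ := by
    have := mul_left_cancel₀ h4 hy
    have h3 : 2 * y₁ = 2 * y₂ := by linear_combination this
    exact mul_left_cancel₀ h2 h3
  subst hy'
  rfl

theorem eq_or_eq_neg_of_px (h2 : (2 : K) ≠ 0) {P Q : W.toAffine.Point} (hP : P ≠ 0) (hQ : Q ≠ 0)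
    (hx : px W e P = px W e Q) : P = Q ∨ P = -Q := by
  rcases P with _ | ⟨x₁, y₁, h₁⟩
  · exact absurd rfl hP
  rcases Q with _ | ⟨x₂, y₂, h₂⟩
  · exact absurd rfl hQ
  have h4 : (4 : K) ≠ 0 := by
    have : (4 : K) = 2 * 2 := by norm_num
    rw [this]; exact mul_ne_zero h2 h2
  simp only [px] at hx
  have hx' : x₁ = x₂ := by
    have := mul_left_cancel₀ h4 hx
    linear_combination this
  exact X_eq_iff.mp hx'

theorem px_ne_zero_imp (P : W.toAffine.Point) (h : px W e P ≠ 0) : P ≠ 0 := by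
  rintro rfl; exact h rfl

theorem py_ne_zero_imp (P : W.toAffine.Point) (h : py W P ≠ 0) : P ≠ 0 := by
  rintro rfl; exact h rfl

/-- a nonzero point with `py = 0` is its own negative. -/
theorem neg_eq_self_of_py_eq_zero (h2 : (2 : K) ≠ 0) {P : W.toAffine.Point}
    (hy : py W P = 0) : -P = P := by
  rcases P with _ | ⟨x, y, h⟩
  · rfl
  · have h4 : (4 : K) ≠ 0 := by
      have : (4 : K) = 2 * 2 := by norm_num
      rw [this]; exact mul_ne_zero h2 h2
    simp only [py] at hy
    have hy' : 2 * y + W.a₁ * x + W.a₃ = 0 := by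
      rcases mul_eq_zero.mp hy with h | h
      · exact absurd h h4
      · exact h
    simp only [neg_some, negY]
    congr 1
    linear_combination -hy'

end Defs

section Add

variable {K : Type*} [Field K] [DecidableEq K] {W : WeierstrassCurve K} {e : K}

/-- (I.3) addition of two affine points with distinct abscissae. -/
theorem add_rel {P Q : W.toAffine.Point} (hP : P ≠ 0) (hQ : Q ≠ 0)
    (hx : px W e P ≠ px W e Q) :
    P + Q ≠ 0 ∧
    px W e (P + Q) * (px W e P - px W e Q) ^ 2 =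
      (py W P - py W Q) ^ 2 - (beta W e + px W e P + px W e Q) * (px W e P - px W e Q) ^ 2 ∧
    py W (P + Q) * (px W e P - px W e Q) =
      -(py W P - py W Q) * (px W e (P + Q) - px W e P) - py W P * (px W e P - px W e Q) := by
  rcases P with _ | ⟨x₁, y₁, h₁⟩
  · exact absurd rfl hP
  rcases Q with _ | ⟨x₂, y₂, h₂⟩
  · exact absurd rfl hQ
  have hx' : x₁ ≠ x₂ := by
    rintro rfl; exact hx rfl
  have hsub : x₁ - x₂ ≠ 0 := sub_ne_zero.mpr hx'
  rw [add_of_X_ne hx']
  refine ⟨some_ne_zero _, ?_, ?_⟩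
  · simp only [px, py, beta, WeierstrassCurve.b₂, addX, slope_of_X_ne hx']
    field_simp
    ring
  · simp only [px, py, addX, addY, negAddY, negY, slope_of_X_ne hx']
    field_simp
    ring

/-- (I.3') subtraction of two affine points with distinct abscissae. -/
theorem sub_rel {P Q : W.toAffine.Point} (hP : P ≠ 0) (hQ : Q ≠ 0)
    (hx : px W e P ≠ px W e Q) :
    P - Q ≠ 0 ∧
    px W e (P - Q) * (px W e P - px W e Q) ^ 2 =
      (py W P + py W Q) ^ 2 - (beta W e + px W e P + px W e Q) * (px W e P - px W e Q) ^ 2 := by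
  have hQ' : -Q ≠ 0 := by
    intro h; exact hQ (neg_eq_zero.mp h)
  have hx' : px W e P ≠ px W e (-Q) := by rwa [px_neg]
  obtain ⟨h0, h1, -⟩ := add_rel (e := e) hP hQ' hx'
  rw [sub_eq_add_neg]
  refine ⟨h0, ?_⟩
  rw [px_neg, py_neg] at h1
  rw [h1]; ring

/-- (I.5) duplication. -/
theorem dbl_rel (he : IsTwoTorsX W e) {P : W.toAffine.Point} (hy : py W P ≠ 0) :
    P + P ≠ 0 ∧
    px W e (P + P) * (4 * py W P ^ 2) = (px W e P ^ 2 - gamma W e) ^ 2 := by
  rcases P with _ | ⟨x, y, h⟩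
  · exact absurd rfl hy
  have heq := (W.toAffine.equation_iff x y).mp h.1
  simp only [py] at hy
  have hy2 : 2 * y + W.a₁ * x + W.a₃ ≠ 0 := fun h0 => hy (by rw [h0, mul_zero])
  have hne : y ≠ W.toAffine.negY x y := by
    intro h0
    apply hy2
    simp only [negY] at h0
    linear_combination h0
  have hd : y - W.toAffine.negY x y ≠ 0 := sub_ne_zero.mpr hne
  rw [add_self_of_Y_ne hne]
  refine ⟨some_ne_zero _, ?_⟩
  have hsl : W.toAffine.slope x x y y
      = (3 * x ^ 2 + 2 * W.a₂ * x + W.a₄ - W.a₁ * y) / (2 * y + W.a₁ * x + W.a₃) := by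
    rw [slope_of_Y_ne rfl hne]
    congr 1
    simp only [negY]
    ring
  have key0 : ∀ N η : K, η ≠ 0 →
      ((N / η) ^ 2 + W.a₁ * (N / η) - W.a₂ - x - x - e) * η ^ 2
        = N ^ 2 + W.a₁ * N * η - (W.a₂ + 2 * x + e) * η ^ 2 := by
    intro N η hη
    field_simp
    ring
  have key := key0 (3 * x ^ 2 + 2 * W.a₂ * x + W.a₄ - W.a₁ * y) (2 * y + W.a₁ * x + W.a₃) hy2
  simp only [px, py, gamma, WeierstrassCurve.b₂, WeierstrassCurve.b₄, WeierstrassCurve.b₆, addX,
    hsl, IsTwoTorsX] at he ⊢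
  linear_combination (256 : K) * key
    + (-256 * (W.a₁ ^ 2 + 4 * W.a₂ + 4 * e + 8 * x)) * heq
    + (-64 * (W.a₁ ^ 2 + 4 * W.a₂ + 4 * e + 8 * x)) * he

theorem dbl_eq_zero (h2 : (2 : K) ≠ 0) {P : W.toAffine.Point} (hy : py W P = 0) : P + P = 0 := by
  have h := neg_eq_self_of_py_eq_zero h2 hy
  calc P + P = P + -P := by rw [h]
    _ = 0 := add_neg_cancel P

end Add

section Galois

variable {R : Type*} {S : Type*} {K : Type*} [CommRing R] [CommRing S] [Field K]
  [DecidableEq K] {W' : Affine R} [Algebra R S] [Algebra R K] [Algebra S K]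
  [IsScalarTower R S K]

omit [DecidableEq K] in
theorem algEquiv_algebraMap (σ : K ≃ₐ[S] K) (r : R) :
    σ (algebraMap R K r) = algebraMap R K r := by
  rw [IsScalarTower.algebraMap_apply R S K, σ.commutes]

/-- (I.6) Galois action and the point at infinity. -/
theorem smul_eq_zero_iff (σ : K ≃ₐ[S] K) (P : (W'⁄K).Point) : σ • P = 0 ↔ P = 0 := by
  constructor
  · intro h
    have h1 : σ⁻¹ • (σ • P) = σ⁻¹ • (0 : (W'⁄K).Point) := by rw [h]
    rwa [inv_smul_smul, smul_zero] at h1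
  · rintro rfl
    exact smul_zero σ

theorem smul_ne_zero_iff (σ : K ≃ₐ[S] K) (P : (W'⁄K).Point) : σ • P ≠ 0 ↔ P ≠ 0 :=
  not_congr (smul_eq_zero_iff σ P)

/-- (I.6) Galois action on the abscissa. -/
theorem px_smul (σ : K ≃ₐ[S] K) {e : K} (he : σ e = e) (P : (W'⁄K).Point) :
    px (W'⁄K) e (σ • P) = σ (px (W'⁄K) e P) := by
  rcases P with _ | ⟨x, y, h⟩
  · show px (W'⁄K) e (σ • (0 : (W'⁄K).Point)) = σ (px (W'⁄K) e 0)
    rw [smul_zero, px_zero, _root_.map_zero]
  · rw [algEquiv_smul_def, map_some]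
    show 4 * (σ x - e) = σ (4 * (x - e))
    rw [map_mul, map_sub, he, map_ofNat]

/-- (I.6) Galois action on the ordinate. -/
theorem py_smul (σ : K ≃ₐ[S] K) (P : (W'⁄K).Point) :
    py (W'⁄K) (σ • P) = σ (py (W'⁄K) P) := by
  rcases P with _ | ⟨x, y, h⟩
  · show py (W'⁄K) (σ • (0 : (W'⁄K).Point)) = σ (py (W'⁄K) 0)
    rw [smul_zero, py_zero, _root_.map_zero]
  · rw [algEquiv_smul_def, map_some]
    have h1 : σ (W'⁄K).a₁ = (W'⁄K).a₁ := by
      show σ (algebraMap R K W'.a₁) = algebraMap R K W'.a₁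
      exact algEquiv_algebraMap σ _
    have h3 : σ (W'⁄K).a₃ = (W'⁄K).a₃ := by
      show σ (algebraMap R K W'.a₃) = algebraMap R K W'.a₃
      exact algEquiv_algebraMap σ _
    show 4 * (2 * σ y + (W'⁄K).a₁ * σ x + (W'⁄K).a₃) = σ (4 * (2 * y + (W'⁄K).a₁ * x + (W'⁄K).a₃))
    rw [map_mul, map_add, map_add, map_mul, map_mul, h1, h3, map_ofNat, map_ofNat]

end Galois

end Fermat.Agent.S05.PointAlg
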