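import Mathlib
import Fermat.Agent.S05.Defs
import Fermat.Agent.S05.PointAlg

set_option autoImplicit false

namespace Fermat.Agent.S05

open WeierstrassCurve

variable {K : Type*} [Field K] [DecidableEq K]

/-- shifted, rescaled x-coordinate `4 * X - e` (junk `0` at the point at infinity). -/
def freyX (W : Affine K) (e : K) : W.Point → K
  | .zero => 0
  | .some X _ _ => 4 * X - e

/-- rescaled y-coordinate `8 * Y + 4 * X` (junk `0` at the point at infinity). -/
def freyY (W : Affine K) : W.Point → K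
  | .zero => 0
  | .some X Y _ => 8 * Y + 4 * X

omit [DecidableEq K] in
theorem FreyKummer.freyX_eq (W : Affine K) (e : K) (h2 : (2 : K) ≠ 0) (P : W.Point) :
    freyX W e P = PointAlg.px W (e / 4) P := by
  have h4 : (4 : K) ≠ 0 := by
    have : (4 : K) = 2 * 2 := by norm_num
    rw [this]; exact mul_ne_zero h2 h2
  rcases P with _ | ⟨X, Y, h⟩
  · rfl
  · show 4 * X - e = 4 * (X - e / 4)
    field_simp

omit [DecidableEq K] in
theorem FreyKummer.freyY_eq (W : Affine K) (h₁ : W.a₁ = 1) (h₃ : W.a₃ = 0) (P : W.Point) :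
    freyY W P = PointAlg.py W P := by
  rcases P with _ | ⟨X, Y, h⟩
  · rfl
  · show 8 * Y + 4 * X = 4 * (2 * Y + W.a₁ * X + W.a₃)
    rw [h₁, h₃]; ring

omit [DecidableEq K] in
theorem FreyKummer.beta_eq (W : Affine K) (A B e : K) (h2 : (2 : K) ≠ 0) (h₁ : W.a₁ = 1)
    (h₂ : 4 * W.a₂ = B - 1 - A) :
    PointAlg.beta W (e / 4) = 3 * e + B - A := by
  have h4 : (4 : K) ≠ 0 := by
    have : (4 : K) = 2 * 2 := by norm_num
    rw [this]; exact mul_ne_zero h2 h2
  simp only [PointAlg.beta, WeierstrassCurve.b₂, h₁]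
  field_simp
  linear_combination 4 * h₂

omit [DecidableEq K] in
theorem FreyKummer.gamma_eq (W : Affine K) (A B e : K) (h2 : (2 : K) ≠ 0) (h₁ : W.a₁ = 1)
    (h₃ : W.a₃ = 0) (h₂ : 4 * W.a₂ = B - 1 - A) (h₄ : 16 * W.a₄ = -(A * B)) :
    PointAlg.gamma W (e / 4) = 3 * e ^ 2 + 2 * e * (B - A) - A * B := by
  have h4 : (4 : K) ≠ 0 := by
    have : (4 : K) = 2 * 2 := by norm_num
    rw [this]; exact mul_ne_zero h2 h2
  simp only [PointAlg.gamma, WeierstrassCurve.b₂, WeierstrassCurve.b₄, h₁, h₃]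
  field_simp
  linear_combination (32 * e) * h₂ + 16 * h₄

omit [DecidableEq K] in
theorem FreyKummer.isTwoTorsX (W : Affine K) (A B e : K) (h2 : (2 : K) ≠ 0) (h₁ : W.a₁ = 1)
    (h₃ : W.a₃ = 0) (h₆ : W.a₆ = 0) (h₂ : 4 * W.a₂ = B - 1 - A) (h₄ : 16 * W.a₄ = -(A * B))
    (he : e * (e - A) * (e + B) = 0) : PointAlg.IsTwoTorsX W (e / 4) := by
  have h4 : (4 : K) ≠ 0 := by
    have : (4 : K) = 2 * 2 := by norm_num
    rw [this]; exact mul_ne_zero h2 h2
  simp only [PointAlg.IsTwoTorsX, WeierstrassCurve.b₂, WeierstrassCurve.b₄, WeierstrassCurve.b₆,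
    h₁, h₃, h₆]
  field_simp
  linear_combination he + (e ^ 2) * h₂ + e * h₄

/-- Layer A: Kummer data of a curve `Y² + XY = X³ + ((B-1-A)/4) X² - (AB/16) X` relative to the
2-torsion point with `4X = e`, `e ∈ {0, A, -B}`. -/
noncomputable def freyKummer (W : Affine K) (A B e : K) (h2 : (2 : K) ≠ 0)
    (h₁ : W.a₁ = 1) (h₃ : W.a₃ = 0) (h₆ : W.a₆ = 0)
    (h₂ : 4 * W.a₂ = B - 1 - A) (h₄ : 16 * W.a₄ = -(A * B))
    (he : e * (e - A) * (e + B) = 0) : KummerData W.Point K where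
  β := 3 * e + B - A
  γ := 3 * e ^ 2 + 2 * e * (B - A) - A * B
  x := freyX W e
  y := freyY W
  eqn := by
    intro P hP
    rw [FreyKummer.freyX_eq W e h2, FreyKummer.freyY_eq W h₁ h₃,
      ← FreyKummer.beta_eq W A B e h2 h₁ h₂, ← FreyKummer.gamma_eq W A B e h2 h₁ h₃ h₂ h₄]
    exact PointAlg.curve_rel (FreyKummer.isTwoTorsX W A B e h2 h₁ h₃ h₆ h₂ h₄ he) hP
  x_neg := by
    intro P
    rw [FreyKummer.freyX_eq W e h2, FreyKummer.freyX_eq W e h2]
    exact PointAlg.px_neg P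
  y_neg := by
    intro P
    rw [FreyKummer.freyY_eq W h₁ h₃, FreyKummer.freyY_eq W h₁ h₃]
    exact PointAlg.py_neg P
  inj := by
    intro P Q hP hQ hx hy
    rw [FreyKummer.freyX_eq W e h2, FreyKummer.freyX_eq W e h2] at hx
    rw [FreyKummer.freyY_eq W h₁ h₃, FreyKummer.freyY_eq W h₁ h₃] at hy
    exact PointAlg.eq_of_px_py h2 hP hQ hx hy
  sub_x := by
    intro P Q hP hQ hx
    rw [FreyKummer.freyX_eq W e h2, FreyKummer.freyX_eq W e h2] at hx
    rw [FreyKummer.freyX_eq W e h2, FreyKummer.freyX_eq W e h2, FreyKummer.freyX_eq W e h2,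
      FreyKummer.freyY_eq W h₁ h₃, FreyKummer.freyY_eq W h₁ h₃,
      ← FreyKummer.beta_eq W A B e h2 h₁ h₂]
    exact (PointAlg.sub_rel hP hQ hx).2
  dbl_x := by
    intro P _ hy
    rw [FreyKummer.freyY_eq W h₁ h₃] at hy
    rw [FreyKummer.freyX_eq W e h2, FreyKummer.freyX_eq W e h2,
      FreyKummer.freyY_eq W h₁ h₃, ← FreyKummer.gamma_eq W A B e h2 h₁ h₃ h₂ h₄]
    exact (PointAlg.dbl_rel (FreyKummer.isTwoTorsX W A B e h2 h₁ h₃ h₆ h₂ h₄ he) hy).2

section Galois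

open WeierstrassCurve.Affine WeierstrassCurve.Affine.Point

variable {R : Type*} {S : Type*} {L : Type*} [CommRing R] [CommRing S] [Field L]
  [DecidableEq L] {W' : Affine R} [Algebra R S] [Algebra R L] [Algebra S L]
  [IsScalarTower R S L]

/-- Galois action on the coordinate `freyX` (for a Galois-fixed shift `e`). -/
theorem FreyKummer.freyX_smul (σ : L ≃ₐ[S] L) {e : L} (he : σ e = e) (P : (W'⁄L).Point) :
    freyX (W'⁄L) e (σ • P) = σ (freyX (W'⁄L) e P) := by
  rcases P with _ | ⟨x, y, h⟩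
  · show freyX (W'⁄L) e (σ • (0 : (W'⁄L).Point)) = σ (0 : L)
    rw [smul_zero, _root_.map_zero]; rfl
  · rw [algEquiv_smul_def, map_some]
    show 4 * σ x - e = σ (4 * x - e)
    rw [map_sub, map_mul, he, map_ofNat]

/-- Galois action on the coordinate `freyY`. -/
theorem FreyKummer.freyY_smul (σ : L ≃ₐ[S] L) (P : (W'⁄L).Point) :
    freyY (W'⁄L) (σ • P) = σ (freyY (W'⁄L) P) := by
  rcases P with _ | ⟨x, y, h⟩
  · show freyY (W'⁄L) (σ • (0 : (W'⁄L).Point)) = σ (0 : L)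
    rw [smul_zero, _root_.map_zero]; rfl
  · rw [algEquiv_smul_def, map_some]
    show 8 * σ y + 4 * σ x = σ (8 * y + 4 * x)
    rw [map_add, map_mul, map_mul, map_ofNat, map_ofNat]

/-- the Galois action as an additive endomorphism of the point group. -/
noncomputable def FreyKummer.galAddHom (σ : L ≃ₐ[S] L) : (W'⁄L).Point →+ (W'⁄L).Point :=
  Point.map σ.toAlgHom

theorem FreyKummer.galAddHom_apply (σ : L ≃ₐ[S] L) (P : (W'⁄L).Point) :
    FreyKummer.galAddHom σ P = σ • P := rfl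

end Galois

end Fermat.Agent.S05
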