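import Mathlib
import Fermat.Prelude.Def_FLTPrelim_Ramification
import Fermat.Agent.S05.FreyKummer

set_option autoImplicit false

namespace Fermat.Agent.S05

open WeierstrassCurve WeierstrassCurve.Affine WeierstrassCurve.Affine.Point

section General

variable {K : Type*} [Field K] [Algebra ℚ K]

theorem FreyInst.a₁_eq (P : FreyPackage) : (P.freyCurve⁄K).a₁ = 1 := by
  show algebraMap ℚ K P.freyCurve.a₁ = 1
  simp [FreyPackage.freyCurve]

theorem FreyInst.a₃_eq (P : FreyPackage) : (P.freyCurve⁄K).a₃ = 0 := by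
  show algebraMap ℚ K P.freyCurve.a₃ = 0
  simp [FreyPackage.freyCurve]

theorem FreyInst.a₆_eq (P : FreyPackage) : (P.freyCurve⁄K).a₆ = 0 := by
  show algebraMap ℚ K P.freyCurve.a₆ = 0
  simp [FreyPackage.freyCurve]

theorem FreyInst.a₂_eq (P : FreyPackage) :
    4 * (P.freyCurve⁄K).a₂ =
      algebraMap ℚ K ((P.b : ℚ) ^ P.p) - 1 - algebraMap ℚ K ((P.a : ℚ) ^ P.p) := by
  show 4 * algebraMap ℚ K P.freyCurve.a₂ = _
  have h : (4 : K) = algebraMap ℚ K 4 := by simp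
  rw [h, ← map_mul, ← map_one (algebraMap ℚ K), ← map_sub, ← map_sub]
  congr 1
  simp only [FreyPackage.freyCurve]
  ring

theorem FreyInst.a₄_eq (P : FreyPackage) :
    16 * (P.freyCurve⁄K).a₄ =
      -(algebraMap ℚ K ((P.a : ℚ) ^ P.p) * algebraMap ℚ K ((P.b : ℚ) ^ P.p)) := by
  show 16 * algebraMap ℚ K P.freyCurve.a₄ = _
  have h : (16 : K) = algebraMap ℚ K 16 := by simp
  rw [h, ← map_mul, ← map_mul, ← map_neg]
  congr 1
  simp only [FreyPackage.freyCurve]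
  ring

variable [DecidableEq K]

/-- The Kummer data of the Frey curve over `K`, relative to a rational 2-torsion abscissa `e`. -/
noncomputable def FreyInst.kummer (P : FreyPackage) (h2 : (2 : K) ≠ 0) (e : ℚ)
    (he : e * (e - (P.a : ℚ) ^ P.p) * (e + (P.b : ℚ) ^ P.p) = 0) :
    KummerData (P.freyCurve⁄K).Point K :=
  freyKummer (P.freyCurve⁄K) (algebraMap ℚ K ((P.a : ℚ) ^ P.p)) (algebraMap ℚ K ((P.b : ℚ) ^ P.p))
    (algebraMap ℚ K e) h2 (FreyInst.a₁_eq P) (FreyInst.a₃_eq P) (FreyInst.a₆_eq P)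
    (FreyInst.a₂_eq P) (FreyInst.a₄_eq P)
    (by rw [← map_sub, ← map_add, ← map_mul, ← map_mul, he, _root_.map_zero])

theorem FreyInst.kummer_β (P : FreyPackage) (h2 : (2 : K) ≠ 0) (e : ℚ)
    (he : e * (e - (P.a : ℚ) ^ P.p) * (e + (P.b : ℚ) ^ P.p) = 0) :
    (FreyInst.kummer (K := K) P h2 e he).β =
      algebraMap ℚ K (3 * e + (P.b : ℚ) ^ P.p - (P.a : ℚ) ^ P.p) := by
  show 3 * algebraMap ℚ K e + algebraMap ℚ K ((P.b : ℚ) ^ P.p) - algebraMap ℚ K ((P.a : ℚ) ^ P.p)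
    = _
  simp only [map_sub, map_add, map_mul, map_ofNat]

theorem FreyInst.kummer_γ (P : FreyPackage) (h2 : (2 : K) ≠ 0) (e : ℚ)
    (he : e * (e - (P.a : ℚ) ^ P.p) * (e + (P.b : ℚ) ^ P.p) = 0) :
    (FreyInst.kummer (K := K) P h2 e he).γ =
      algebraMap ℚ K (3 * e ^ 2 + 2 * e * ((P.b : ℚ) ^ P.p - (P.a : ℚ) ^ P.p)
        - (P.a : ℚ) ^ P.p * (P.b : ℚ) ^ P.p) := by
  show 3 * algebraMap ℚ K e ^ 2 + 2 * algebraMap ℚ K e *
      (algebraMap ℚ K ((P.b : ℚ) ^ P.p) - algebraMap ℚ K ((P.a : ℚ) ^ P.p))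
      - algebraMap ℚ K ((P.a : ℚ) ^ P.p) * algebraMap ℚ K ((P.b : ℚ) ^ P.p) = _
  simp only [map_sub, map_add, map_mul, map_ofNat, map_pow]

theorem FreyInst.kummer_x_smul (P : FreyPackage) (h2 : (2 : K) ≠ 0) (e : ℚ)
    (he : e * (e - (P.a : ℚ) ^ P.p) * (e + (P.b : ℚ) ^ P.p) = 0)
    (σ : K ≃ₐ[ℚ] K) (T : (P.freyCurve⁄K).Point) :
    (FreyInst.kummer (K := K) P h2 e he).x (σ • T) =
      σ ((FreyInst.kummer (K := K) P h2 e he).x T) :=
  FreyKummer.freyX_smul σ (σ.commutes e) T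

theorem FreyInst.kummer_y_smul (P : FreyPackage) (h2 : (2 : K) ≠ 0) (e : ℚ)
    (he : e * (e - (P.a : ℚ) ^ P.p) * (e + (P.b : ℚ) ^ P.p) = 0)
    (σ : K ≃ₐ[ℚ] K) (T : (P.freyCurve⁄K).Point) :
    (FreyInst.kummer (K := K) P h2 e he).y (σ • T) =
      σ ((FreyInst.kummer (K := K) P h2 e he).y T) :=
  FreyKummer.freyY_smul σ T

end General

/-- Reduction of `S05` to a statement about points: it suffices that every inertia element fixes
every point killed by `p`. -/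
theorem FreyInst.unramified_of (P : FreyPackage) {q : ℕ}
    (H : ∀ A : ValuationSubring (AlgebraicClosure ℚ), A.LiesOverPrime q →
      ∀ σ ∈ A.inertiaSubgroupIn ℚ, ∀ T : (P.freyCurve⁄(AlgebraicClosure ℚ)).Point,
        P.p • T = 0 → σ • T = T) :
    P.GaloisRepUnramifiedAt q := by
  intro A hA σ hσ x
  apply Subtype.ext
  have hx : (P.p : ℤ) • x.1 = 0 := (Submodule.mem_torsionBy_iff _ _).mp x.2
  rw [natCast_zsmul] at hx
  exact H A hA σ hσ x.1 hx

end Fermat.Agent.S05
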