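import Mathlib.RingTheory.Valuation.Basic
import Mathlib.GroupTheory.QuotientGroup.Basic
import Mathlib.Tactic

set_option autoImplicit false

namespace Fermat.Agent.S05.MultSeq

open Valuation

variable {K : Type*} [Field K] {Γ₀ : Type*} [LinearOrderedCommGroupWithZero Γ₀]
  (v : Valuation K Γ₀)

theorem pos_of_ne {a : Γ₀} (h : a ≠ 0) : 0 < a := zero_lt_iff.mpr h

/-- equal roots -/
theorem root_eq {U V : K} {m : Γ₀} (hm : m ≠ 0) (hP : v (U * V) = m * m)
    (hS : v (U + V) ≤ m) : v U = m ∧ v V = m := by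
  have hm0 : 0 < m := pos_of_ne hm
  rw [map_mul] at hP
  have hU0 : v U ≠ 0 := by
    intro h; rw [h, zero_mul] at hP; exact (mul_ne_zero hm hm) hP.symm
  have hV0 : v V ≠ 0 := by
    intro h; rw [h, mul_zero] at hP; exact (mul_ne_zero hm hm) hP.symm
  have hU : v U ≤ m := by
    by_contra h
    rw [not_le] at h
    have hV : v V < m := by
      by_contra h2
      rw [not_lt] at h2
      have : m * m < v U * v V := mul_lt_mul h h2 hm0 zero_le
      exact absurd hP (ne_of_gt this)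
    have h3 : v (U + V) = v U := v.map_add_eq_of_lt_left (hV.trans h)
    rw [h3] at hS
    exact absurd hS (not_le.mpr h)
  have hV : v V ≤ m := by
    by_contra h
    rw [not_le] at h
    have hU' : v U < m := by
      by_contra h2
      rw [not_lt] at h2
      have : m * m < v U * v V := by
        calc m * m < m * v V := by gcongr
          _ ≤ v U * v V := by gcongr
      exact absurd hP (ne_of_gt this)
    have h3 : v (U + V) = v V := v.map_add_eq_of_lt_right (hU'.trans h)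
    rw [h3] at hS
    exact absurd hS (not_le.mpr h)
  constructor
  · by_contra h
    have h1 : v U < m := lt_of_le_of_ne hU h
    have : v U * v V < m * m := mul_lt_mul h1 hV (pos_of_ne hV0) zero_le
    exact absurd hP (ne_of_lt this)
  · by_contra h
    have h1 : v V < m := lt_of_le_of_ne hV h
    have : v U * v V < m * m := by
      calc v U * v V < v U * m := by
            have := pos_of_ne hU0
            gcongr
        _ ≤ m * m := by gcongr
    exact absurd hP (ne_of_lt this)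

/-- distinct roots, inequality version -/
theorem root_split {U V : K} {s r : Γ₀} (hrs : r < s) (hS : v (U + V) = s)
    (hP : v (U * V) ≤ s * r) : (v U = s ∧ v V ≤ r) ∨ (v V = s ∧ v U ≤ r) := by
  have hs0 : 0 < s := lt_of_le_of_lt zero_le hrs
  rw [map_mul] at hP
  rcases lt_trichotomy (v V) (v U) with h | h | h
  · left
    have h3 : v (U + V) = v U := v.map_add_eq_of_lt_left h
    rw [hS] at h3
    refine ⟨h3.symm, ?_⟩
    rw [← h3] at hP
    exact le_of_mul_le_mul_left hP hs0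
  · exfalso
    rw [h] at hP
    have hw : v U < s := by
      by_contra h2
      rw [not_lt] at h2
      have : s * r < v U * v U := by
        calc s * r < s * s := by gcongr
          _ ≤ v U * v U := by gcongr
      exact absurd hP (not_le.mpr this)
    have h4 : v (U + V) ≤ max (v U) (v V) := v.map_add U V
    rw [h, max_self, hS] at h4
    exact absurd h4 (not_le.mpr hw)
  · right
    have h3 : v (U + V) = v V := v.map_add_eq_of_lt_right h
    rw [hS] at h3
    refine ⟨h3.symm, ?_⟩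
    rw [← h3, mul_comm] at hP
    exact le_of_mul_le_mul_left hP hs0

/-- distinct roots, equality version -/
theorem root_split_eq {U V : K} {s r : Γ₀} (hrs : r < s) (hS : v (U + V) = s)
    (hP : v (U * V) = s * r) : (v U = s ∧ v V = r) ∨ (v V = s ∧ v U = r) := by
  have hs0 : 0 < s := lt_of_le_of_lt zero_le hrs
  rcases root_split v hrs hS (le_of_eq hP) with ⟨h1, _⟩ | ⟨h1, _⟩
  · left
    refine ⟨h1, ?_⟩
    rw [map_mul, h1] at hP
    exact mul_left_cancel₀ (ne_of_gt hs0) hP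
  · right
    refine ⟨h1, ?_⟩
    rw [map_mul, h1, mul_comm] at hP
    exact mul_left_cancel₀ (ne_of_gt hs0) hP


section Pair

variable {β γ X Y U V : K}

theorem val_prod (hP : U * V * (X - Y) ^ 2 = (X * Y - γ) ^ 2) :
    v (U * V) * v (X - Y) ^ 2 = v (X * Y - γ) ^ 2 := by
  rw [← map_pow, ← map_mul, hP, map_pow]

theorem val_sum (h2 : v 2 = 1)
    (hS : (U + V) * (X - Y) ^ 2 = 2 * ((X + Y) * (X * Y + γ) + 2 * β * X * Y)) :
    v (U + V) * v (X - Y) ^ 2 = v ((X + Y) * (X * Y + γ) + 2 * β * X * Y) := by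
  rw [← map_pow, ← map_mul, hS, map_mul, h2, one_mul]

theorem val_second (hβ : v β = 1) (h2 : v 2 = 1) : v (2 * β * X * Y) = v X * v Y := by
  rw [map_mul, map_mul, map_mul, h2, hβ, one_mul, one_mul]

/-- Case A: `X` in the identity component, `Y` interior. -/
theorem caseA (hβ : v β = 1) (h2 : v 2 = 1) (hγt : v γ < v Y) (ht1 : v Y < 1)
    (ha : 1 ≤ v X)
    (hP : U * V * (X - Y) ^ 2 = (X * Y - γ) ^ 2)
    (hS : (U + V) * (X - Y) ^ 2 = 2 * ((X + Y) * (X * Y + γ) + 2 * β * X * Y)) :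
    v U = v Y ∧ v V = v Y := by
  have hta : v Y < v X := lt_of_lt_of_le ht1 ha
  have ha0 : v X ≠ 0 := ne_of_gt (lt_of_lt_of_le zero_lt_one ha)
  have ht0 : v Y ≠ 0 := ne_of_gt (lt_of_le_of_lt zero_le hγt)
  have hD : v (X - Y) = v X := v.map_sub_eq_of_lt_left hta
  have hXY : v (X * Y) = v X * v Y := map_mul v X Y
  have hgXY : v γ < v (X * Y) := by
    rw [hXY]
    calc v γ < v Y := hγt
      _ = 1 * v Y := (one_mul _).symm
      _ ≤ v X * v Y := by gcongr
  have hE : v (X * Y - γ) = v X * v Y := by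
    rw [v.map_sub_eq_of_lt_left hgXY, hXY]
  have hE' : v (X * Y + γ) = v X * v Y := by
    rw [v.map_add_eq_of_lt_left hgXY, hXY]
  have hprod : v (U * V) = v Y * v Y := by
    have h := val_prod v hP
    rw [hD, hE] at h
    apply mul_right_cancel₀ (pow_ne_zero 2 ha0)
    rw [h, mul_pow, pow_two, pow_two]
    ac_rfl
  have hN : v ((X + Y) * (X * Y + γ) + 2 * β * X * Y) ≤ v Y * v X ^ 2 := by
    refine le_trans (v.map_add _ _) (max_le ?_ ?_)
    · rw [map_mul, hE', v.map_add_eq_of_lt_left hta, pow_two]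
      apply le_of_eq
      ac_rfl
    · rw [val_second v hβ h2, pow_two]
      calc v X * v Y = v Y * (1 * v X) := by rw [one_mul, mul_comm]
        _ ≤ v Y * (v X * v X) := by gcongr
  have hsum : v (U + V) ≤ v Y := by
    have h := val_sum v h2 hS
    rw [hD] at h
    rw [← h] at hN
    exact le_of_mul_le_mul_right hN (pos_of_ne (pow_ne_zero 2 ha0))
  exact root_eq v ht0 hprod hsum

/-- Case C: `X` in the component of the node, `Y` interior. -/
theorem caseC (hβ : v β = 1) (h2 : v 2 = 1) (hγ0 : γ ≠ 0) (hγt : v γ < v Y) (ht1 : v Y < 1)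
    (ha : v X ≤ v γ)
    (hP : U * V * (X - Y) ^ 2 = (X * Y - γ) ^ 2)
    (hS : (U + V) * (X - Y) ^ 2 = 2 * ((X + Y) * (X * Y + γ) + 2 * β * X * Y)) :
    v U = v γ / v Y ∧ v V = v γ / v Y := by
  have hg0 : v γ ≠ 0 := (Valuation.ne_zero_iff v).mpr hγ0
  have hat : v X < v Y := lt_of_le_of_lt ha hγt
  have ht0 : v Y ≠ 0 := ne_of_gt (lt_of_le_of_lt zero_le hγt)
  have hD : v (X - Y) = v Y := v.map_sub_eq_of_lt_right hat
  have hXY : v (X * Y) = v X * v Y := map_mul v X Y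
  have hXYg : v (X * Y) < v γ := by
    rw [hXY]
    calc v X * v Y ≤ v γ * v Y := by gcongr
      _ < v γ * 1 := by
        have := pos_of_ne hg0
        gcongr
      _ = v γ := mul_one _
  have hE : v (X * Y - γ) = v γ := v.map_sub_eq_of_lt_right hXYg
  have hE' : v (X * Y + γ) = v γ := v.map_add_eq_of_lt_right hXYg
  have hprod : v (U * V) = v γ / v Y * (v γ / v Y) := by
    have h := val_prod v hP
    rw [hD, hE] at h
    apply mul_right_cancel₀ (pow_ne_zero 2 ht0)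
    rw [h]
    field_simp
  have hN : v ((X + Y) * (X * Y + γ) + 2 * β * X * Y) ≤ v γ * v Y := by
    refine le_trans (v.map_add _ _) (max_le ?_ ?_)
    · rw [map_mul, hE', v.map_add_eq_of_lt_right hat, mul_comm]
    · rw [val_second v hβ h2]
      gcongr
  have hsum : v (U + V) ≤ v γ / v Y := by
    have h := val_sum v h2 hS
    rw [hD] at h
    rw [← h] at hN
    rw [le_div_iff₀ (pos_of_ne ht0)]
    have h3 : v (U + V) * v Y * v Y ≤ v γ * v Y := by
      calc v (U + V) * v Y * v Y = v (U + V) * v Y ^ 2 := by rw [pow_two, mul_assoc]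
        _ ≤ v γ * v Y := hN
    exact le_of_mul_le_mul_right h3 (pos_of_ne ht0)
  exact root_eq v (div_ne_zero hg0 ht0) hprod hsum


/-- Case B1 (both interior, `v X < v Y`): the valuation of the sum. -/
theorem caseB1_sum (hβ : v β = 1) (h2 : v 2 = 1) (hga : v γ < v X) (hat : v X < v Y)
    (ht1 : v Y < 1)
    (hS : (U + V) * (X - Y) ^ 2 = 2 * ((X + Y) * (X * Y + γ) + 2 * β * X * Y)) :
    v (U + V) = v X / v Y := by
  have ha0 : v X ≠ 0 := ne_of_gt (lt_of_le_of_lt zero_le hga)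
  have ht0 : v Y ≠ 0 := ne_of_gt (lt_of_le_of_lt zero_le hat)
  have hD : v (X - Y) = v Y := v.map_sub_eq_of_lt_right hat
  have hXY : v (X * Y) = v X * v Y := map_mul v X Y
  have hE' : v (X * Y + γ) ≤ max (v X * v Y) (v γ) := by
    rw [← hXY]; exact v.map_add _ _
  have h1 : v ((X + Y) * (X * Y + γ)) < v (2 * β * X * Y) := by
    rw [val_second v hβ h2, map_mul, v.map_add_eq_of_lt_right hat]
    calc v Y * v (X * Y + γ) ≤ v Y * max (v X * v Y) (v γ) := by gcongr
      _ < v X * v Y := by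
        rcases le_total (v X * v Y) (v γ) with h | h
        · rw [max_eq_right h, mul_comm]
          have := pos_of_ne ht0
          gcongr
        · rw [max_eq_left h]
          calc v Y * (v X * v Y) < 1 * (v X * v Y) := by
                have := pos_of_ne (mul_ne_zero ha0 ht0)
                gcongr
            _ = v X * v Y := one_mul _
  have hN : v ((X + Y) * (X * Y + γ) + 2 * β * X * Y) = v X * v Y := by
    rw [v.map_add_eq_of_lt_right h1, val_second v hβ h2]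
  have h := val_sum v h2 hS
  rw [hD, hN] at h
  rw [eq_div_iff ht0]
  apply mul_right_cancel₀ ht0
  rw [← h, pow_two, mul_assoc]

theorem caseB1a (hβ : v β = 1) (h2 : v 2 = 1) (hga : v γ < v X) (hat : v X < v Y)
    (ht1 : v Y < 1) (hgat : v γ < v X * v Y)
    (hP : U * V * (X - Y) ^ 2 = (X * Y - γ) ^ 2)
    (hS : (U + V) * (X - Y) ^ 2 = 2 * ((X + Y) * (X * Y + γ) + 2 * β * X * Y)) :
    (v U = v X / v Y ∧ v V = v X * v Y) ∨ (v V = v X / v Y ∧ v U = v X * v Y) := by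
  have ha0 : v X ≠ 0 := ne_of_gt (lt_of_le_of_lt zero_le hga)
  have ht0 : v Y ≠ 0 := ne_of_gt (lt_of_le_of_lt zero_le hat)
  have hD : v (X - Y) = v Y := v.map_sub_eq_of_lt_right hat
  have hXY : v (X * Y) = v X * v Y := map_mul v X Y
  have hE : v (X * Y - γ) = v X * v Y := by
    rw [v.map_sub_eq_of_lt_left (by rw [hXY]; exact hgat), hXY]
  have hsum := caseB1_sum v hβ h2 hga hat ht1 hS
  have hprod : v (U * V) = v X / v Y * (v X * v Y) := by
    have h := val_prod v hP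
    rw [hD, hE] at h
    apply mul_right_cancel₀ (pow_ne_zero 2 ht0)
    rw [h]
    field_simp
  refine root_split_eq v ?_ hsum hprod
  rw [lt_div_iff₀ (pos_of_ne ht0)]
  calc v X * v Y * v Y < v X * 1 * 1 := by
        have := pos_of_ne ha0
        have := pos_of_ne ht0
        gcongr
    _ = v X := by rw [mul_one, mul_one]

theorem caseB1b (hβ : v β = 1) (h2 : v 2 = 1) (hga : v γ < v X) (hat : v X < v Y)
    (ht1 : v Y < 1) (hgat : v X * v Y < v γ)
    (hP : U * V * (X - Y) ^ 2 = (X * Y - γ) ^ 2)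
    (hS : (U + V) * (X - Y) ^ 2 = 2 * ((X + Y) * (X * Y + γ) + 2 * β * X * Y)) :
    (v U = v X / v Y ∧ v V = v γ * v γ / (v X * v Y)) ∨
      (v V = v X / v Y ∧ v U = v γ * v γ / (v X * v Y)) := by
  have ha0 : v X ≠ 0 := ne_of_gt (lt_of_le_of_lt zero_le hga)
  have ht0 : v Y ≠ 0 := ne_of_gt (lt_of_le_of_lt zero_le hat)
  have hD : v (X - Y) = v Y := v.map_sub_eq_of_lt_right hat
  have hXY : v (X * Y) = v X * v Y := map_mul v X Y
  have hE : v (X * Y - γ) = v γ := by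
    rw [v.map_sub_eq_of_lt_right (by rw [hXY]; exact hgat)]
  have hsum := caseB1_sum v hβ h2 hga hat ht1 hS
  have hprod : v (U * V) = v X / v Y * (v γ * v γ / (v X * v Y)) := by
    have h := val_prod v hP
    rw [hD, hE] at h
    apply mul_right_cancel₀ (pow_ne_zero 2 ht0)
    rw [h]
    field_simp
  refine root_split_eq v ?_ hsum hprod
  rw [div_lt_div_iff₀ (pos_of_ne (mul_ne_zero ha0 ht0)) (pos_of_ne ht0)]
  have hg0 : 0 ≤ v γ := zero_le
  calc v γ * v γ * v Y < v X * v X * v Y := by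
        have := pos_of_ne ht0
        have := pos_of_ne ha0
        have h1 : v γ * v γ < v X * v X := by
          calc v γ * v γ ≤ v γ * v X := by gcongr
            _ < v X * v X := by gcongr
        gcongr
    _ = v X * (v X * v Y) := by rw [mul_assoc]

theorem caseB1c (hβ : v β = 1) (h2 : v 2 = 1) (hga : v γ < v X) (hat : v X < v Y)
    (ht1 : v Y < 1) (hgat : v X * v Y = v γ)
    (hP : U * V * (X - Y) ^ 2 = (X * Y - γ) ^ 2)
    (hS : (U + V) * (X - Y) ^ 2 = 2 * ((X + Y) * (X * Y + γ) + 2 * β * X * Y)) :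
    (v U = v X / v Y ∧ v V ≤ v γ) ∨ (v V = v X / v Y ∧ v U ≤ v γ) := by
  have ha0 : v X ≠ 0 := ne_of_gt (lt_of_le_of_lt zero_le hga)
  have ht0 : v Y ≠ 0 := ne_of_gt (lt_of_le_of_lt zero_le hat)
  have hD : v (X - Y) = v Y := v.map_sub_eq_of_lt_right hat
  have hXY : v (X * Y) = v X * v Y := map_mul v X Y
  have hE : v (X * Y - γ) ≤ v γ := by
    refine le_trans (v.map_sub _ _) (max_le ?_ le_rfl)
    rw [hXY, hgat]
  have hsum := caseB1_sum v hβ h2 hga hat ht1 hS
  have hprod : v (U * V) ≤ v X / v Y * v γ := by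
    have h := val_prod v hP
    rw [hD] at h
    have h3 : v (U * V) * v Y ^ 2 ≤ v X / v Y * v γ * v Y ^ 2 := by
      rw [h]
      calc v (X * Y - γ) ^ 2 ≤ v γ ^ 2 := pow_le_pow_left₀ zero_le hE 2
        _ = v X / v Y * v γ * v Y ^ 2 := by
          rw [← hgat]
          field_simp
    exact le_of_mul_le_mul_right h3 (pos_of_ne (pow_ne_zero 2 ht0))
  refine root_split v ?_ hsum hprod
  calc v γ < v X := hga
    _ = v X / 1 := (div_one _).symm
    _ ≤ v X / v Y := by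
      apply div_le_div_of_nonneg_left zero_le (pos_of_ne ht0) ht1.le


/-- Case B2 (both interior, equal valuations): the valuation of the sum. -/
theorem caseB2_sum (hβ : v β = 1) (h2 : v 2 = 1) (hga : v γ < v Y) (hat : v X = v Y)
    (ht1 : v Y < 1)
    (hS : (U + V) * (X - Y) ^ 2 = 2 * ((X + Y) * (X * Y + γ) + 2 * β * X * Y)) :
    v (U + V) * v (X - Y) ^ 2 = v Y * v Y := by
  have ht0 : v Y ≠ 0 := ne_of_gt (lt_of_le_of_lt zero_le hga)
  have hXY : v (X * Y) = v Y * v Y := by rw [map_mul, hat]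
  have hE' : v (X * Y + γ) ≤ max (v Y * v Y) (v γ) := by
    rw [← hXY]; exact v.map_add _ _
  have hXpY : v (X + Y) ≤ v Y := by
    refine le_trans (v.map_add _ _) (max_le (le_of_eq hat) le_rfl)
  have h1 : v ((X + Y) * (X * Y + γ)) < v (2 * β * X * Y) := by
    rw [val_second v hβ h2, map_mul, hat]
    calc v (X + Y) * v (X * Y + γ) ≤ v Y * max (v Y * v Y) (v γ) := by gcongr
      _ < v Y * v Y := by
        rcases le_total (v Y * v Y) (v γ) with h | h
        · rw [max_eq_right h]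
          have := pos_of_ne ht0
          gcongr
        · rw [max_eq_left h]
          calc v Y * (v Y * v Y) < 1 * (v Y * v Y) := by
                have := pos_of_ne (mul_ne_zero ht0 ht0)
                gcongr
            _ = v Y * v Y := one_mul _
  have hN : v ((X + Y) * (X * Y + γ) + 2 * β * X * Y) = v Y * v Y := by
    rw [v.map_add_eq_of_lt_right h1, val_second v hβ h2, hat]
  have h := val_sum v h2 hS
  rw [hN] at h
  exact h

theorem caseB2_D (hne : X ≠ Y) (hat : v X = v Y) (ht1 : v Y < 1) :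
    v (X - Y) ≠ 0 ∧ v (X - Y) ≤ v Y ∧ v (X - Y) ^ 2 < 1 ∧ v (X - Y) ^ 2 ≤ v Y * v Y := by
  have hD0 : v (X - Y) ≠ 0 := (Valuation.ne_zero_iff v).mpr (sub_ne_zero.mpr hne)
  have hD : v (X - Y) ≤ v Y :=
    le_trans (v.map_sub _ _) (max_le (le_of_eq hat) le_rfl)
  refine ⟨hD0, hD, ?_, ?_⟩
  · have h1 : v (X - Y) < 1 := lt_of_le_of_lt hD ht1
    calc v (X - Y) ^ 2 = v (X - Y) * v (X - Y) := pow_two _
      _ < 1 * 1 := by
        have := pos_of_ne hD0
        gcongr
      _ = 1 := one_mul _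
  · rw [pow_two]
    gcongr

theorem caseB2a (hβ : v β = 1) (h2 : v 2 = 1) (hne : X ≠ Y) (hga : v γ < v Y)
    (hat : v X = v Y) (ht1 : v Y < 1) (hgtt : v γ < v Y * v Y)
    (hP : U * V * (X - Y) ^ 2 = (X * Y - γ) ^ 2)
    (hS : (U + V) * (X - Y) ^ 2 = 2 * ((X + Y) * (X * Y + γ) + 2 * β * X * Y)) :
    (1 ≤ v U ∧ v V = v Y * v Y) ∨ (1 ≤ v V ∧ v U = v Y * v Y) := by
  have ht0 : v Y ≠ 0 := ne_of_gt (lt_of_le_of_lt zero_le hga)
  obtain ⟨hD0, hD, hD1, hD2⟩ := caseB2_D v hne hat ht1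
  have hD20 : v (X - Y) ^ 2 ≠ 0 := pow_ne_zero 2 hD0
  have hXY : v (X * Y) = v Y * v Y := by rw [map_mul, hat]
  have hE : v (X * Y - γ) = v Y * v Y := by
    rw [v.map_sub_eq_of_lt_left (by rw [hXY]; exact hgtt), hXY]
  have hsum : v (U + V) = v Y * v Y / v (X - Y) ^ 2 := by
    rw [eq_div_iff hD20]; exact caseB2_sum v hβ h2 hga hat ht1 hS
  have hprod : v (U * V) = v Y * v Y / v (X - Y) ^ 2 * (v Y * v Y) := by
    have h := val_prod v hP
    rw [hE] at h
    apply mul_right_cancel₀ hD20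
    rw [h]
    field_simp
  have hs1 : 1 ≤ v Y * v Y / v (X - Y) ^ 2 := by
    rw [le_div_iff₀ (pos_of_ne hD20), one_mul]; exact hD2
  have hrs : v Y * v Y < v Y * v Y / v (X - Y) ^ 2 := by
    rw [lt_div_iff₀ (pos_of_ne hD20)]
    calc v Y * v Y * v (X - Y) ^ 2 < v Y * v Y * 1 := by
          have := pos_of_ne (mul_ne_zero ht0 ht0)
          gcongr
      _ = v Y * v Y := mul_one _
  rcases root_split_eq v hrs hsum hprod with ⟨h1, h3⟩ | ⟨h1, h3⟩
  · left; exact ⟨by rw [h1]; exact hs1, h3⟩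
  · right; exact ⟨by rw [h1]; exact hs1, h3⟩

theorem caseB2b (hβ : v β = 1) (h2 : v 2 = 1) (hne : X ≠ Y) (hga : v γ < v Y)
    (hat : v X = v Y) (ht1 : v Y < 1) (hgtt : v Y * v Y < v γ)
    (hP : U * V * (X - Y) ^ 2 = (X * Y - γ) ^ 2)
    (hS : (U + V) * (X - Y) ^ 2 = 2 * ((X + Y) * (X * Y + γ) + 2 * β * X * Y)) :
    (1 ≤ v U ∧ v V = v γ * v γ / (v Y * v Y)) ∨ (1 ≤ v V ∧ v U = v γ * v γ / (v Y * v Y)) := by
  have ht0 : v Y ≠ 0 := ne_of_gt (lt_of_le_of_lt zero_le hga)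
  obtain ⟨hD0, hD, hD1, hD2⟩ := caseB2_D v hne hat ht1
  have hD20 : v (X - Y) ^ 2 ≠ 0 := pow_ne_zero 2 hD0
  have hXY : v (X * Y) = v Y * v Y := by rw [map_mul, hat]
  have hE : v (X * Y - γ) = v γ := by
    rw [v.map_sub_eq_of_lt_right (by rw [hXY]; exact hgtt)]
  have hsum : v (U + V) = v Y * v Y / v (X - Y) ^ 2 := by
    rw [eq_div_iff hD20]; exact caseB2_sum v hβ h2 hga hat ht1 hS
  have hprod : v (U * V) = v Y * v Y / v (X - Y) ^ 2 * (v γ * v γ / (v Y * v Y)) := by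
    have h := val_prod v hP
    rw [hE] at h
    apply mul_right_cancel₀ hD20
    rw [h]
    field_simp
  have hs1 : 1 ≤ v Y * v Y / v (X - Y) ^ 2 := by
    rw [le_div_iff₀ (pos_of_ne hD20), one_mul]; exact hD2
  have hr1 : v γ * v γ / (v Y * v Y) < 1 := by
    rw [div_lt_iff₀ (pos_of_ne (mul_ne_zero ht0 ht0)), one_mul]
    calc v γ * v γ ≤ v γ * v Y := by gcongr
      _ < v Y * v Y := by
        have := pos_of_ne ht0
        gcongr
  rcases root_split_eq v (lt_of_lt_of_le hr1 hs1) hsum hprod with ⟨h1, h3⟩ | ⟨h1, h3⟩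
  · left; exact ⟨by rw [h1]; exact hs1, h3⟩
  · right; exact ⟨by rw [h1]; exact hs1, h3⟩

theorem caseB2c (hβ : v β = 1) (h2 : v 2 = 1) (hne : X ≠ Y) (hga : v γ < v Y)
    (hat : v X = v Y) (ht1 : v Y < 1) (hgtt : v Y * v Y = v γ)
    (hP : U * V * (X - Y) ^ 2 = (X * Y - γ) ^ 2)
    (hS : (U + V) * (X - Y) ^ 2 = 2 * ((X + Y) * (X * Y + γ) + 2 * β * X * Y)) :
    (1 ≤ v U ∧ v V ≤ v γ) ∨ (1 ≤ v V ∧ v U ≤ v γ) := by
  have ht0 : v Y ≠ 0 := ne_of_gt (lt_of_le_of_lt zero_le hga)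
  have hg0 : v γ ≠ 0 := by rw [← hgtt]; exact mul_ne_zero ht0 ht0
  obtain ⟨hD0, hD, hD1, hD2⟩ := caseB2_D v hne hat ht1
  have hD20 : v (X - Y) ^ 2 ≠ 0 := pow_ne_zero 2 hD0
  have hXY : v (X * Y) = v Y * v Y := by rw [map_mul, hat]
  have hE : v (X * Y - γ) ≤ v γ := by
    refine le_trans (v.map_sub _ _) (max_le ?_ le_rfl)
    rw [hXY, hgtt]
  have hsum : v (U + V) = v γ / v (X - Y) ^ 2 := by
    rw [eq_div_iff hD20, ← hgtt]; exact caseB2_sum v hβ h2 hga hat ht1 hS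
  have hprod : v (U * V) ≤ v γ / v (X - Y) ^ 2 * v γ := by
    have h := val_prod v hP
    have h3 : v (U * V) * v (X - Y) ^ 2 ≤ v γ / v (X - Y) ^ 2 * v γ * v (X - Y) ^ 2 := by
      rw [h]
      calc v (X * Y - γ) ^ 2 ≤ v γ ^ 2 := pow_le_pow_left₀ zero_le hE 2
        _ = v γ / v (X - Y) ^ 2 * v γ * v (X - Y) ^ 2 := by
          field_simp
    exact le_of_mul_le_mul_right h3 (pos_of_ne hD20)
  have hs1 : 1 ≤ v γ / v (X - Y) ^ 2 := by
    rw [le_div_iff₀ (pos_of_ne hD20), one_mul, ← hgtt]; exact hD2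
  have hrs : v γ < v γ / v (X - Y) ^ 2 := by
    rw [lt_div_iff₀ (pos_of_ne hD20)]
    calc v γ * v (X - Y) ^ 2 < v γ * 1 := by
          have := pos_of_ne hg0
          gcongr
      _ = v γ := mul_one _
  rcases root_split v hrs hsum hprod with ⟨h1, h3⟩ | ⟨h1, h3⟩
  · left; exact ⟨by rw [h1]; exact hs1, h3⟩
  · right; exact ⟨by rw [h1]; exact hs1, h3⟩


end Pair

/-- clipped valuation: `1` on the identity component, `g` on the component of the node -/
def clip (g x : Γ₀) : Γ₀ := max g (min x 1)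

theorem clip_of_one_le {g x : Γ₀} (hg : g ≤ 1) (hx : 1 ≤ x) : clip g x = 1 := by
  unfold clip
  rw [min_eq_right hx, max_eq_right hg]

theorem clip_of_le {g x : Γ₀} (hg : g ≤ 1) (hx : x ≤ g) : clip g x = g := by
  unfold clip
  rw [min_eq_left (hx.trans hg), max_eq_left hx]

theorem clip_of_mem {g x : Γ₀} (hx : g ≤ x) (hx1 : x ≤ 1) : clip g x = x := by
  unfold clip
  rw [min_eq_left hx1, max_eq_right hx]

theorem clip_ne_zero {g x : Γ₀} (hg : g ≠ 0) : clip g x ≠ 0 := by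
  unfold clip
  exact ne_of_gt (lt_of_lt_of_le (pos_of_ne hg) (le_max_left _ _))

section Step

variable {β γ X Y U V : K}

/-- The component rule for `P ± Q` with `Q` interior. -/
theorem hstep (hβ : v β = 1) (h2 : v 2 = 1) (hγ0 : γ ≠ 0) (hγt : v γ < v Y) (ht1 : v Y < 1)
    (hne : X ≠ Y)
    (hP : U * V * (X - Y) ^ 2 = (X * Y - γ) ^ 2)
    (hS : (U + V) * (X - Y) ^ 2 = 2 * ((X + Y) * (X * Y + γ) + 2 * β * X * Y)) :
    ∃ e₁ e₂ : Γ₀,
      (e₁ = clip (v γ) (v X) * v Y ∨ e₁ = v γ * v γ / (clip (v γ) (v X) * v Y)) ∧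
      (e₂ = clip (v γ) (v X) / v Y ∨ e₂ = v Y / clip (v γ) (v X)) ∧
      ((clip (v γ) (v U) = e₁ ∧ clip (v γ) (v V) = e₂) ∨
        (clip (v γ) (v U) = e₂ ∧ clip (v γ) (v V) = e₁)) := by
  have hg0 : v γ ≠ 0 := (Valuation.ne_zero_iff v).mpr hγ0
  have ht0 : v Y ≠ 0 := ne_of_gt (lt_of_le_of_lt zero_le hγt)
  have hg1 : v γ ≤ 1 := (hγt.trans ht1).le
  have hclipY : clip (v γ) (v Y) = v Y := clip_of_mem hγt.le ht1.le
  rcases le_or_gt 1 (v X) with ha | ha
  · -- case A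
    obtain ⟨hU, hV⟩ := caseA v hβ h2 hγt ht1 ha hP hS
    rw [clip_of_one_le hg1 ha, hU, hV, hclipY]
    exact ⟨v Y, v Y, Or.inl (one_mul _).symm, Or.inr (div_one _).symm, Or.inl ⟨rfl, rfl⟩⟩
  rcases le_or_gt (v X) (v γ) with hag | hag
  · -- case C
    obtain ⟨hU, hV⟩ := caseC v hβ h2 hγ0 hγt ht1 hag hP hS
    have hc : clip (v γ) (v γ / v Y) = v γ / v Y := by
      apply clip_of_mem
      · rw [le_div_iff₀ (pos_of_ne ht0)]
        calc v γ * v Y ≤ v γ * 1 := by gcongr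
          _ = v γ := mul_one _
      · rw [div_le_iff₀ (pos_of_ne ht0), one_mul]; exact hγt.le
    rw [clip_of_le hg1 hag, hU, hV, hc]
    refine ⟨v γ / v Y, v γ / v Y, Or.inr ?_, Or.inl rfl, Or.inl ⟨rfl, rfl⟩⟩
    field_simp
  -- case B : interior
  have ha0 : v X ≠ 0 := ne_of_gt (lt_of_le_of_lt zero_le hag)
  rw [clip_of_mem hag.le ha.le]
  have hdivlt : ∀ {a t : Γ₀}, a ≠ 0 → t ≠ 0 → v γ < a → a < t → t < 1 →
      clip (v γ) (a / t) = a / t := by
    intro a t _ ht0 hga hat ht1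
    apply clip_of_mem
    · calc v γ ≤ a := hga.le
        _ = a / 1 := (div_one _).symm
        _ ≤ a / t := div_le_div_of_nonneg_left zero_le (pos_of_ne ht0) ht1.le
    · rw [div_le_iff₀ (pos_of_ne ht0), one_mul]; exact hat.le
  -- general facts for a pair of interior points with `a < t`
  have key : ∀ {X Y U V : K}, v γ < v X → v X < v Y → v Y < 1 →
      U * V * (X - Y) ^ 2 = (X * Y - γ) ^ 2 →
      (U + V) * (X - Y) ^ 2 = 2 * ((X + Y) * (X * Y + γ) + 2 * β * X * Y) →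
      ∃ e₁ : Γ₀, (e₁ = v X * v Y ∨ e₁ = v γ * v γ / (v X * v Y)) ∧
        ((clip (v γ) (v U) = e₁ ∧ clip (v γ) (v V) = v X / v Y) ∨
          (clip (v γ) (v U) = v X / v Y ∧ clip (v γ) (v V) = e₁)) := by
    intro X Y U V hga hat ht1 hP hS
    have ha0 : v X ≠ 0 := ne_of_gt (lt_of_le_of_lt zero_le hga)
    have ht0 : v Y ≠ 0 := ne_of_gt (lt_of_le_of_lt zero_le hat)
    have hd := hdivlt ha0 ht0 hga hat ht1
    have hat1 : v X * v Y ≤ 1 := by
      calc v X * v Y ≤ 1 * 1 := by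
            have h1 : v X ≤ 1 := (hat.trans ht1).le
            have h3 : v Y ≤ 1 := ht1.le
            gcongr
        _ = 1 := one_mul _
    rcases lt_trichotomy (v γ) (v X * v Y) with h | h | h
    · rcases caseB1a v hβ h2 hga hat ht1 h hP hS with ⟨hU, hV⟩ | ⟨hV, hU⟩
      · refine ⟨v X * v Y, Or.inl rfl, Or.inr ?_⟩
        rw [hU, hV, hd, clip_of_mem h.le hat1]
        exact ⟨rfl, rfl⟩
      · refine ⟨v X * v Y, Or.inl rfl, Or.inl ?_⟩
        rw [hU, hV, hd, clip_of_mem h.le hat1]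
        exact ⟨rfl, rfl⟩
    · have hcg : ∀ {z : Γ₀}, z ≤ v γ → clip (v γ) z = v X * v Y := by
        intro z hz
        rw [clip_of_le hg1 hz, h]
      rcases caseB1c v hβ h2 hga hat ht1 h.symm hP hS with ⟨hU, hV⟩ | ⟨hV, hU⟩
      · refine ⟨v X * v Y, Or.inl rfl, Or.inr ?_⟩
        rw [hU, hd, hcg hV]
        exact ⟨rfl, rfl⟩
      · refine ⟨v X * v Y, Or.inl rfl, Or.inl ?_⟩
        rw [hV, hd, hcg hU]
        exact ⟨rfl, rfl⟩
    · have hc2 : clip (v γ) (v γ * v γ / (v X * v Y)) = v γ * v γ / (v X * v Y) := by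
        have hpos := pos_of_ne (mul_ne_zero ha0 ht0)
        apply clip_of_mem
        · rw [le_div_iff₀ hpos]
          have := pos_of_ne hg0
          gcongr
        · rw [div_le_iff₀ hpos, one_mul]
          have h1 : v γ ≤ v X := hga.le
          have h3 : v γ ≤ v Y := (hga.trans hat).le
          gcongr
      rcases caseB1b v hβ h2 hga hat ht1 h hP hS with ⟨hU, hV⟩ | ⟨hV, hU⟩
      · refine ⟨v γ * v γ / (v X * v Y), Or.inr rfl, Or.inr ?_⟩
        rw [hU, hV, hd, hc2]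
        exact ⟨rfl, rfl⟩
      · refine ⟨v γ * v γ / (v X * v Y), Or.inr rfl, Or.inl ?_⟩
        rw [hU, hV, hd, hc2]
        exact ⟨rfl, rfl⟩
  rcases lt_trichotomy (v X) (v Y) with hat | hat | hat
  · obtain ⟨e₁, he₁, h⟩ := key hag hat ht1 hP hS
    refine ⟨e₁, v X / v Y, he₁, Or.inl rfl, h⟩
  · -- B2
    have h1t : (1 : Γ₀) = v X / v Y := by rw [hat, div_self ht0]
    have htt1 : v Y * v Y ≤ 1 := by
      calc v Y * v Y ≤ 1 * 1 := by
            have h3 : v Y ≤ 1 := ht1.le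
            gcongr
        _ = 1 := one_mul _
    rcases lt_trichotomy (v γ) (v Y * v Y) with h | h | h
    · rcases caseB2a v hβ h2 hne hγt hat ht1 h hP hS with ⟨hU, hV⟩ | ⟨hV, hU⟩
      · refine ⟨v X * v Y, v X / v Y, Or.inl rfl, Or.inl rfl, Or.inr ?_⟩
        rw [clip_of_one_le hg1 hU, hV, clip_of_mem h.le htt1, hat]
        exact ⟨by rw [div_self ht0], rfl⟩
      · refine ⟨v X * v Y, v X / v Y, Or.inl rfl, Or.inl rfl, Or.inl ?_⟩
        rw [clip_of_one_le hg1 hV, hU, clip_of_mem h.le htt1, hat]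
        exact ⟨rfl, by rw [div_self ht0]⟩
    · rcases caseB2c v hβ h2 hne hγt hat ht1 h.symm hP hS with ⟨hU, hV⟩ | ⟨hV, hU⟩
      · refine ⟨v X * v Y, v X / v Y, Or.inl rfl, Or.inl rfl, Or.inr ?_⟩
        rw [clip_of_one_le hg1 hU, clip_of_le hg1 hV, hat]
        exact ⟨by rw [div_self ht0], h⟩
      · refine ⟨v X * v Y, v X / v Y, Or.inl rfl, Or.inl rfl, Or.inl ?_⟩
        rw [clip_of_one_le hg1 hV, clip_of_le hg1 hU, hat]
        exact ⟨h, by rw [div_self ht0]⟩
    · have hc2 : clip (v γ) (v γ * v γ / (v Y * v Y)) = v γ * v γ / (v Y * v Y) := by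
        have hpos := pos_of_ne (mul_ne_zero ht0 ht0)
        apply clip_of_mem
        · rw [le_div_iff₀ hpos]
          have := pos_of_ne hg0
          gcongr
        · rw [div_le_iff₀ hpos, one_mul]
          have h3 : v γ ≤ v Y := hγt.le
          gcongr
      rcases caseB2b v hβ h2 hne hγt hat ht1 h hP hS with ⟨hU, hV⟩ | ⟨hV, hU⟩
      · refine ⟨v γ * v γ / (v X * v Y), v X / v Y, Or.inr rfl, Or.inl rfl, Or.inr ?_⟩
        rw [clip_of_one_le hg1 hU, hV, hc2, hat]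
        exact ⟨by rw [div_self ht0], rfl⟩
      · refine ⟨v γ * v γ / (v X * v Y), v X / v Y, Or.inr rfl, Or.inl rfl, Or.inl ?_⟩
        rw [clip_of_one_le hg1 hV, hU, hc2, hat]
        exact ⟨rfl, by rw [div_self ht0]⟩
  · -- symmetric case
    have hP' : U * V * (Y - X) ^ 2 = (Y * X - γ) ^ 2 := by linear_combination hP
    have hS' : (U + V) * (Y - X) ^ 2 = 2 * ((Y + X) * (Y * X + γ) + 2 * β * Y * X) := by
      linear_combination hS
    obtain ⟨e₁, he₁, h⟩ := key hγt hat ha hP' hS'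
    refine ⟨e₁, v Y / v X, ?_, Or.inr rfl, h⟩
    rw [mul_comm (v X) (v Y)]
    exact he₁

end Step

section Classes

/-- `a` equals `b` or its inverse -/
def pm {Q : Type*} [CommGroup Q] (a b : Q) : Prop := a = b ∨ a = b⁻¹

theorem pm_symm {Q : Type*} [CommGroup Q] {a b : Q} (h : pm a b) : pm b a := by
  rcases h with h | h
  · exact Or.inl h.symm
  · exact Or.inr (by rw [h, inv_inv])

theorem pm_trans {Q : Type*} [CommGroup Q] {a b c : Q} (h1 : pm a b) (h2 : pm b c) :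
    pm a c := by
  rcases h1 with h1 | h1 <;> rcases h2 with h2 | h2
  · exact Or.inl (h1.trans h2)
  · exact Or.inr (h1.trans h2)
  · exact Or.inr (by rw [h1, h2])
  · exact Or.inl (by rw [h1, h2, inv_inv])

theorem pm_step {Q : Type*} [CommGroup Q] {θ κ₀ κ₁ κ₂ ε₁ ε₂ : Q} {k : ℕ}
    (h1 : pm κ₁ (θ ^ (k + 1))) (h0 : pm κ₀ (θ ^ k))
    (he1 : pm ε₁ (κ₁ * θ)) (he2 : pm ε₂ (κ₁ / θ))
    (h : (κ₂ = ε₁ ∧ κ₀ = ε₂) ∨ (κ₂ = ε₂ ∧ κ₀ = ε₁)) : pm κ₂ (θ ^ (k + 2)) := by
  have hA : (pm ε₁ (θ ^ (k + 2)) ∧ pm ε₂ (θ ^ k)) ∨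
      (pm ε₁ (θ ^ k) ∧ pm ε₂ (θ ^ (k + 2))) := by
    rcases h1 with h1 | h1
    · left
      refine ⟨pm_trans he1 (Or.inl ?_), pm_trans he2 (Or.inl ?_)⟩
      · rw [h1, pow_succ θ (k + 1)]
      · rw [h1, pow_succ θ k, mul_div_cancel_right]
    · right
      refine ⟨pm_trans he1 (Or.inr ?_), pm_trans he2 (Or.inr ?_)⟩
      · rw [h1, pow_succ θ k, mul_inv, inv_mul_cancel_right]
      · rw [h1, pow_succ θ (k + 1), mul_inv, div_eq_mul_inv]
  rcases h with ⟨h2, h0'⟩ | ⟨h2, h0'⟩ <;> rcases hA with ⟨hA1, hA2⟩ | ⟨hA1, hA2⟩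
  · rw [h2]; exact hA1
  · rw [h2]; rw [h0'] at h0
    exact pm_trans hA1 (pm_trans (pm_symm h0) hA2)
  · rw [h2]; rw [h0'] at h0
    exact pm_trans hA2 (pm_trans (pm_symm h0) hA1)
  · rw [h2]; exact hA2

/-- the unit group of the value group modulo the powers of `g * g` -/
abbrev QG (g : Γ₀) (hg : g ≠ 0) : Type _ :=
  Γ₀ˣ ⧸ Subgroup.zpowers (Units.mk0 (g * g) (mul_ne_zero hg hg))

/-- class of a nonzero element of the value group modulo powers of `g * g` (junk `1` at `0`) -/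
noncomputable def cl (g : Γ₀) (hg : g ≠ 0) (u : Γ₀) : QG g hg :=
  if h : u = 0 then 1 else QuotientGroup.mk (Units.mk0 u h)

theorem cl_mul (g : Γ₀) (hg : g ≠ 0) {u w : Γ₀} (hu : u ≠ 0) (hw : w ≠ 0) :
    cl g hg (u * w) = cl g hg u * cl g hg w := by
  unfold cl
  rw [dif_neg hu, dif_neg hw, dif_neg (mul_ne_zero hu hw), ← QuotientGroup.mk_mul]
  congr 1
  exact Units.ext rfl

theorem cl_inv (g : Γ₀) (hg : g ≠ 0) {u : Γ₀} (hu : u ≠ 0) :
    cl g hg u⁻¹ = (cl g hg u)⁻¹ := by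
  unfold cl
  rw [dif_neg hu, dif_neg (inv_ne_zero hu), ← QuotientGroup.mk_inv]
  congr 1
  exact Units.ext rfl

theorem cl_div (g : Γ₀) (hg : g ≠ 0) {u w : Γ₀} (hu : u ≠ 0) (hw : w ≠ 0) :
    cl g hg (u / w) = cl g hg u / cl g hg w := by
  rw [div_eq_mul_inv, cl_mul g hg hu (inv_ne_zero hw), cl_inv g hg hw, div_eq_mul_inv]

theorem cl_pow (g : Γ₀) (hg : g ≠ 0) {u : Γ₀} (hu : u ≠ 0) (n : ℕ) :
    cl g hg (u ^ n) = cl g hg u ^ n := by
  induction n with
  | zero =>
    rw [pow_zero, pow_zero]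
    unfold cl
    rw [dif_neg one_ne_zero]
    have : Units.mk0 (1 : Γ₀) one_ne_zero = 1 := Units.ext rfl
    rw [this]
    rfl
  | succ n ih =>
    rw [pow_succ, pow_succ, cl_mul g hg (pow_ne_zero n hu) hu, ih]

theorem cl_gg (g : Γ₀) (hg : g ≠ 0) : cl g hg (g * g) = 1 := by
  unfold cl
  rw [dif_neg (mul_ne_zero hg hg)]
  exact (QuotientGroup.eq_one_iff _).mpr (Subgroup.mem_zpowers _)

theorem exists_zpow_of_cl_eq_one (g : Γ₀) (hg : g ≠ 0) {u : Γ₀} (hu : u ≠ 0)
    (h : cl g hg u = 1) : ∃ m : ℤ, u = (g * g) ^ m := by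
  unfold cl at h
  rw [dif_neg hu] at h
  have h2 := (QuotientGroup.eq_one_iff _).mp h
  obtain ⟨m, hm⟩ := Subgroup.mem_zpowers_iff.mp h2
  refine ⟨m, ?_⟩
  have h3 := congrArg Units.val hm
  rw [Units.val_zpow_eq_zpow_val] at h3
  exact h3.symm

/-- powers of `g * g` avoid the open interval `(g, 1)` -/
theorem zpow_not_mem {g : Γ₀} (hg : g ≠ 0) (hg1 : g < 1) {u : Γ₀} (hgu : g < u) (hu1 : u < 1)
    (m : ℤ) : u ≠ (g * g) ^ m := by
  have hgg1 : g * g < 1 := by
    calc g * g < 1 * 1 := by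
          have := pos_of_ne hg
          gcongr
      _ = 1 := one_mul _
  have hgg0 : 0 < g * g := pos_of_ne (mul_ne_zero hg hg)
  intro h
  rcases le_or_gt m 0 with hm | hm
  · have : 1 ≤ (g * g) ^ m := by
      obtain ⟨n, rfl⟩ : ∃ n : ℕ, m = -(n : ℤ) := ⟨(-m).toNat, by omega⟩
      rw [zpow_neg, zpow_natCast]
      exact (one_le_inv₀ (pow_pos hgg0 n)).mpr (pow_le_one₀ zero_le hgg1.le)
    rw [← h] at this
    exact absurd hu1 (not_lt.mpr this)
  · have : (g * g) ^ m ≤ g * g := by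
      obtain ⟨n, rfl⟩ : ∃ n : ℕ, m = (n : ℤ) + 1 := ⟨(m - 1).toNat, by omega⟩
      rw [zpow_add_one₀ (ne_of_gt hgg0), zpow_natCast]
      calc (g * g) ^ n * (g * g) ≤ 1 * (g * g) := by
            have := pow_le_one₀ (n := n) zero_le hgg1.le
            gcongr
        _ = g * g := one_mul _
    rw [← h] at this
    have h4 : g * g < g := by
      calc g * g < g * 1 := by
            have := pos_of_ne hg
            gcongr
        _ = g := mul_one _
    exact absurd (lt_of_le_of_lt this h4) (not_lt.mpr hgu.le)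

end Classes

end Fermat.Agent.S05.MultSeq
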