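import Mathlib
import Fermat.Agent.S05.Defs

set_option autoImplicit false

namespace Fermat.Agent.S05

namespace KummerData

variable {G K : Type*} [AddCommGroup G] [Field K] (D : KummerData G K)

lemma y_sq_eq_of_x_eq {P Q : G} (hP : P ≠ 0) (hQ : Q ≠ 0) (h : D.x P = D.x Q) :
    D.y P ^ 2 = D.y Q ^ 2 := by
  rw [D.eqn P hP, D.eqn Q hQ, h]

lemma eq_or_eq_neg_of_x_eq {P Q : G} (hP : P ≠ 0) (hQ : Q ≠ 0) (h : D.x P = D.x Q) :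
    P = Q ∨ P = -Q := by
  have h2 := D.y_sq_eq_of_x_eq hP hQ h
  rcases sq_eq_sq_iff_eq_or_eq_neg.mp h2 with h3 | h3
  · exact Or.inl (D.inj P Q hP hQ h h3)
  · right
    refine D.inj P (-Q) hP (neg_ne_zero.mpr hQ) ?_ ?_
    · rw [D.x_neg]; exact h
    · rw [D.y_neg]; exact h3

lemma add_x {P Q : G} (hP : P ≠ 0) (hQ : Q ≠ 0) (h : D.x P ≠ D.x Q) :
    D.x (P + Q) * (D.x P - D.x Q) ^ 2 =
      (D.y P - D.y Q) ^ 2 - (D.β + D.x P + D.x Q) * (D.x P - D.x Q) ^ 2 := by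
  have := D.sub_x P (-Q) hP (neg_ne_zero.mpr hQ) (by rwa [D.x_neg])
  rw [D.x_neg, D.y_neg, sub_neg_eq_add] at this
  rw [this]; ring

lemma sum_x {P Q : G} (hP : P ≠ 0) (hQ : Q ≠ 0) (h : D.x P ≠ D.x Q) :
    (D.x (P + Q) + D.x (P - Q)) * (D.x P - D.x Q) ^ 2 =
      2 * ((D.x P + D.x Q) * (D.x P * D.x Q + D.γ) + 2 * D.β * (D.x P * D.x Q)) := by
  have h1 := D.add_x hP hQ h
  have h2 := D.sub_x P Q hP hQ h
  have e1 := D.eqn P hP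
  have e2 := D.eqn Q hQ
  linear_combination h1 + h2 + 2 * e1 + 2 * e2

lemma prod_x {P Q : G} (hP : P ≠ 0) (hQ : Q ≠ 0) (h : D.x P ≠ D.x Q) :
    D.x (P + Q) * D.x (P - Q) * (D.x P - D.x Q) ^ 2 = (D.x P * D.x Q - D.γ) ^ 2 := by
  have hδ : (D.x P - D.x Q) ^ 2 ≠ 0 := pow_ne_zero 2 (sub_ne_zero.mpr h)
  apply mul_right_cancel₀ hδ
  have h1 := D.add_x hP hQ h
  have h2 := D.sub_x P Q hP hQ h
  have e1 := D.eqn P hP
  have e2 := D.eqn Q hQ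
  calc D.x (P + Q) * D.x (P - Q) * (D.x P - D.x Q) ^ 2 * (D.x P - D.x Q) ^ 2
      = (D.x (P + Q) * (D.x P - D.x Q) ^ 2) * (D.x (P - Q) * (D.x P - D.x Q) ^ 2) := by ring
    _ = ((D.y P - D.y Q) ^ 2 - (D.β + D.x P + D.x Q) * (D.x P - D.x Q) ^ 2) *
        ((D.y P + D.y Q) ^ 2 - (D.β + D.x P + D.x Q) * (D.x P - D.x Q) ^ 2) := by rw [h1, h2]
    _ = (D.x P * D.x Q - D.γ) ^ 2 * (D.x P - D.x Q) ^ 2 := by
      linear_combination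
        (D.y P ^ 2 - D.y Q ^ 2 + (D.x P ^ 3 + D.β * D.x P ^ 2 + D.γ * D.x P)
          - (D.x Q ^ 3 + D.β * D.x Q ^ 2 + D.γ * D.x Q)
          - 2 * ((D.β + D.x P + D.x Q) * (D.x P - D.x Q) ^ 2)) * e1 +
        (-(D.y P ^ 2 - D.y Q ^ 2 + (D.x P ^ 3 + D.β * D.x P ^ 2 + D.γ * D.x P)
          - (D.x Q ^ 3 + D.β * D.x Q ^ 2 + D.γ * D.x Q))
          - 2 * ((D.β + D.x P + D.x Q) * (D.x P - D.x Q) ^ 2)) * e2

end KummerData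

end Fermat.Agent.S05
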