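import Mathlib
import Fermat.Agent.S05.ValF1

set_option autoImplicit false

namespace Fermat.Agent.S05

section ordered
variable {Γ₀ : Type*} [LinearOrderedCommGroupWithZero Γ₀]

lemma one_lt_of_mul_eq {X d n : Γ₀} (h : X * d = n) (hd : d < n) : 1 < X := by
  by_contra hX
  rw [not_lt] at hX
  have : X * d ≤ 1 * d := by gcongr
  rw [one_mul, h] at this
  exact absurd this (not_le.mpr hd)

end ordered

section
variable {G K Γ₀ : Type*} [AddCommGroup G] [Field K] [LinearOrderedCommGroupWithZero Γ₀]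
  (D : KummerData G K) (v : Valuation K Γ₀)

lemma sub_x_big {P Q : G} (hP : P ≠ 0) (hQ : Q ≠ 0) (hne : D.x P ≠ D.x Q)
    (hint : v (D.β + D.x P + D.x Q) ≤ 1) (hbig : v (D.x P - D.x Q) < v (D.y P + D.y Q)) :
    1 < v (D.x (P - Q)) := by
  have h := D.sub_x P Q hP hQ hne
  have hsq : v (D.x P - D.x Q) ^ 2 < v (D.y P + D.y Q) ^ 2 :=
    pow_lt_pow_left₀ hbig zero_le (by norm_num)
  have h1 : v ((D.β + D.x P + D.x Q) * (D.x P - D.x Q) ^ 2) < v ((D.y P + D.y Q) ^ 2) := by
    rw [map_mul, map_pow, map_pow]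
    calc v (D.β + D.x P + D.x Q) * v (D.x P - D.x Q) ^ 2
        ≤ 1 * v (D.x P - D.x Q) ^ 2 := by gcongr
      _ = v (D.x P - D.x Q) ^ 2 := one_mul _
      _ < _ := hsq
  have h2 := congrArg v h
  rw [v.map_sub_eq_of_lt_left h1, map_mul, map_pow, map_pow] at h2
  exact one_lt_of_mul_eq h2 hsq

/-- (F2) two integral points with the same nonsingular reduction differ by a point in the
kernel of reduction. -/
theorem f2 (h2 : v 2 = 1) (hβ : v D.β ≤ 1)
    {P Q : G} (hP : P ≠ 0) (hQ : Q ≠ 0)
    (hxP : v (D.x P) ≤ 1) (hxQ : v (D.x Q) ≤ 1)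
    (hx : v (D.x P - D.x Q) < 1) (hy : v (D.y P - D.y Q) < 1)
    (hns : v (D.y P + D.y Q) = 1 ∨
      v (D.x P ^ 2 + D.x P * D.x Q + D.x Q ^ 2 + D.β * (D.x P + D.x Q) + D.γ) = 1) :
    P = Q ∨ 1 < v (D.x (P - Q)) := by
  have eP := D.eqn P hP
  have eQ := D.eqn Q hQ
  have hint : v (D.β + D.x P + D.x Q) ≤ 1 := v.map_add_le (v.map_add_le hβ hxP) hxQ
  by_cases hne : D.x P = D.x Q
  · rcases sq_eq_sq_iff_eq_or_eq_neg.mp (D.y_sq_eq_of_x_eq hP hQ hne) with h | h
    · exact Or.inl (D.inj P Q hP hQ hne h)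
    · by_cases hy0 : D.y P = 0
      · left
        refine D.inj P Q hP hQ hne ?_
        rw [hy0] at h
        rw [hy0]; exact (neg_eq_zero.mp h.symm).symm
      · right
        have hQP : Q = -P := by
          refine D.inj Q (-P) hQ (neg_ne_zero.mpr hP) ?_ ?_
          · rw [D.x_neg]; exact hne.symm
          · rw [D.y_neg, h, neg_neg]
        have hPQ : P - Q = P + P := by rw [hQP]; abel
        rw [hPQ]
        have hyv : v (D.y P) < 1 := by
          have : D.y P - D.y Q = 2 * D.y P := by rw [h]; ring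
          rw [this, map_mul, h2, one_mul] at hy
          exact hy
        have hg : v (3 * D.x P ^ 2 + 2 * D.β * D.x P + D.γ) = 1 := by
          rcases hns with h' | h'
          · rw [h] at h'; simp at h'
          · rw [← hne] at h'
            rw [← h']; congr 1; ring
        have hd := D.dbl_x P hP hy0
        have h4 : v (4 : K) = 1 := by
          have : (4 : K) = 2 * 2 := by norm_num
          rw [this, map_mul, h2, one_mul]
        have hnum : v ((D.x P ^ 2 - D.γ) ^ 2) = 1 := by
          have : (D.x P ^ 2 - D.γ) ^ 2 = (3 * D.x P ^ 2 + 2 * D.β * D.x P + D.γ) ^ 2 -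
              4 * D.y P ^ 2 * (2 * D.x P + D.β) := by
            rw [eP]; ring
          rw [this]
          have hlt : v (4 * D.y P ^ 2 * (2 * D.x P + D.β)) <
              v ((3 * D.x P ^ 2 + 2 * D.β * D.x P + D.γ) ^ 2) := by
            rw [map_pow, hg, one_pow, map_mul, map_mul, map_pow, h4, one_mul]
            have h3 : v (2 * D.x P + D.β) ≤ 1 := by
              refine v.map_add_le ?_ hβ
              rw [map_mul, h2, one_mul]; exact hxP
            calc v (D.y P) ^ 2 * v (2 * D.x P + D.β) ≤ v (D.y P) ^ 2 * 1 := by gcongr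
              _ = v (D.y P) ^ 2 := mul_one _
              _ < 1 := pow_lt_one₀ zero_le hyv (by norm_num)
          rw [v.map_sub_eq_of_lt_left hlt, map_pow, hg, one_pow]
        have h5 := congrArg v hd
        rw [hnum, map_mul, map_mul, h4, one_mul, map_pow] at h5
        exact one_lt_of_mul_eq h5 (pow_lt_one₀ zero_le hyv (by norm_num))
  · right
    apply sub_x_big D v hP hQ hne hint
    rcases hns with h | h
    · rw [h]; exact hx
    · have hid : (D.y P - D.y Q) * (D.y P + D.y Q) = (D.x P - D.x Q) *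
          (D.x P ^ 2 + D.x P * D.x Q + D.x Q ^ 2 + D.β * (D.x P + D.x Q) + D.γ) := by
        linear_combination eP - eQ
      have h6 := congrArg v hid
      rw [map_mul, map_mul, h, mul_one] at h6
      have hδ0 : 0 < v (D.x P - D.x Q) := v.pos_iff.mpr (sub_ne_zero.mpr hne)
      rw [← h6] at hδ0 ⊢
      have hpos : 0 < v (D.y P + D.y Q) := by
        by_contra h0
        have : v (D.y P + D.y Q) = 0 := le_antisymm (not_lt.mp h0) zero_le
        rw [this, mul_zero] at hδ0
        exact lt_irrefl _ hδ0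
      calc v (D.y P - D.y Q) * v (D.y P + D.y Q) < 1 * v (D.y P + D.y Q) :=
            mul_lt_mul_of_pos_right hy hpos
        _ = v (D.y P + D.y Q) := one_mul _

/-- (F2) on a non-identity component. -/
theorem f2_comp (h2 : v 2 = 1) (hβ : v D.β ≤ 1)
    {P Q : G} (hP : P ≠ 0) (hQ : Q ≠ 0) (hxP : v (D.x P) ≤ 1)
    (hyx : v (D.y P) = v (D.x P))
    (hx : v (D.x P - D.x Q) < v (D.x P)) (hy : v (D.y P - D.y Q) < v (D.x P)) :
    P = Q ∨ 1 < v (D.x (P - Q)) := by
  have hxQ : v (D.x Q) ≤ 1 := by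
    have : D.x Q = D.x P - (D.x P - D.x Q) := by ring
    rw [this]; exact v.map_sub_le hxP (le_trans hx.le hxP)
  have hint : v (D.β + D.x P + D.x Q) ≤ 1 := v.map_add_le (v.map_add_le hβ hxP) hxQ
  have h2y : v (2 * D.y P) = v (D.x P) := by rw [map_mul, h2, one_mul, hyx]
  by_cases hne : D.x P = D.x Q
  · rcases sq_eq_sq_iff_eq_or_eq_neg.mp (D.y_sq_eq_of_x_eq hP hQ hne) with h | h
    · exact Or.inl (D.inj P Q hP hQ hne h)
    · exfalso
      have : D.y P - D.y Q = 2 * D.y P := by rw [h]; ring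
      rw [this, h2y] at hy
      exact lt_irrefl _ hy
  · right
    apply sub_x_big D v hP hQ hne hint
    have hyy : v (D.y P + D.y Q) = v (D.x P) := by
      have : D.y P + D.y Q = 2 * D.y P - (D.y P - D.y Q) := by ring
      rw [this]
      exact (v.map_sub_eq_of_lt_left (x := 2 * D.y P) (y := D.y P - D.y Q)
        (by rw [h2y]; exact hy)).trans h2y
    rw [hyy]; exact hx

/-- the derivative of the cubic is a unit at a nonsingular integral point with `y ≡ 0`. -/
lemma fprime_unit {β γ x y : K} (h2 : v 2 = 1) (hβ : v β ≤ 1)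
    (hdisc : v (β ^ 2 - 4 * γ) = 1) (hx : v x ≤ 1) (hy : v y < 1)
    (e : y ^ 2 = x ^ 3 + β * x ^ 2 + γ * x) (hcase : v γ = 1 ∨ v x = 1) :
    v (3 * x ^ 2 + 2 * β * x + γ) = 1 := by
  have h3 : v (3 * x + 2 * β) ≤ 1 := by
    have : 3 * x + 2 * β ∈ v.integer := by
      have hxi := mem_int v hx
      have hβi := mem_int v hβ
      clear e hcase hdisc
      aesop
    exact le_one_of_mem v this
  by_cases hx1 : v x < 1
  · have hγ1 : v γ = 1 := by
      rcases hcase with h | h
      · exact h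
      · rw [h] at hx1; exact absurd hx1 (lt_irrefl _)
    have : 3 * x ^ 2 + 2 * β * x + γ = γ + x * (3 * x + 2 * β) := by ring
    rw [this]
    apply (v.map_add_eq_of_lt_left _).trans hγ1
    rw [hγ1, map_mul]
    calc v x * v (3 * x + 2 * β) ≤ v x * 1 := by gcongr
      _ = v x := mul_one _
      _ < 1 := hx1
  · have hx1' : v x = 1 := le_antisymm hx (not_lt.mp hx1)
    have hs : v (x ^ 2 + β * x + γ) < 1 := by
      have : y ^ 2 = x * (x ^ 2 + β * x + γ) := by rw [e]; ring
      have h' := congrArg v this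
      rw [map_pow, map_mul, hx1', one_mul] at h'
      rw [← h']; exact pow_lt_one₀ zero_le hy (by norm_num)
    have h4 : v (4 : K) = 1 := by
      have : (4 : K) = 2 * 2 := by norm_num
      rw [this, map_mul, h2, one_mul]
    have h2xb : v (2 * x + β) = 1 := by
      have : (2 * x + β) ^ 2 = (β ^ 2 - 4 * γ) + 4 * (x ^ 2 + β * x + γ) := by ring
      have h' := congrArg v this
      rw [v.map_add_eq_of_lt_left (by rw [hdisc, map_mul, h4, one_mul]; exact hs), hdisc,
        map_pow] at h'
      exact (pow_eq_one_iff_of_nonneg zero_le (by norm_num)).mp h'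
    have : 3 * x ^ 2 + 2 * β * x + γ = x * (2 * x + β) + (x ^ 2 + β * x + γ) := by ring
    rw [this]
    have hxu : v (x * (2 * x + β)) = 1 := by rw [map_mul, hx1', h2xb, one_mul]
    rw [v.map_add_eq_of_lt_left (by rw [hxu]; exact hs), hxu]

end

end Fermat.Agent.S05
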