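import Mathlib
import Fermat.Agent.S05.ValF2

set_option autoImplicit false

namespace Fermat.Agent.S05

section
variable {G K Γ₀ : Type*} [AddCommGroup G] [Field K] [LinearOrderedCommGroupWithZero Γ₀]
  (D : KummerData G K) (v : Valuation K Γ₀) (τ : G →+ G) (σ : K →+* K)

lemma pow_inj_of_ne_zero {a b : Γ₀} {n : ℕ} (hn : n ≠ 0) (h : a ^ n = b ^ n) : a = b := by
  rcases lt_trichotomy a b with h1 | h1 | h1
  · exact absurd h (ne_of_lt (pow_lt_pow_left₀ h1 zero_le hn))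
  · exact h1
  · exact absurd h.symm (ne_of_lt (pow_lt_pow_left₀ h1 zero_le hn))

lemma val_y_le_one {P : G} (hP : P ≠ 0) (hβ : v D.β ≤ 1) (hγ : v D.γ ≤ 1)
    (hx : v (D.x P) ≤ 1) : v (D.y P) ≤ 1 := by
  by_contra h
  rw [not_le] at h
  have h1 : 1 < v (D.y P) ^ 2 := one_lt_pow₀ h (by norm_num)
  have h2 : v (D.y P ^ 2) ≤ 1 := by
    rw [D.eqn P hP]
    have : D.x P ^ 3 + D.β * D.x P ^ 2 + D.γ * D.x P ∈ v.integer := by
      have hxi := mem_int v hx
      have hβi := mem_int v hβ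
      have hγi := mem_int v hγ
      clear h1 h
      aesop
    exact le_one_of_mem v this
  rw [map_pow] at h2
  exact absurd h2 (not_le.mpr h1)

/-- a point of the form `T - τ T` with negative valuation cannot be torsion. -/
lemma fixed_of_f2 (hβ : v D.β ≤ 1) (hγ : v D.γ ≤ 1) {p : ℕ} (hp : p.Prime)
    (hp2 : p ≠ 2) (hpv : v (p : K) = 1) {T : G} (hT : p • T = 0)
    (h : T = τ T ∨ 1 < v (D.x (T - τ T))) : τ T = T := by
  rcases h with h | h
  · exact h.symm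
  · by_contra hne
    have hR0 : T - τ T ≠ 0 := sub_ne_zero.mpr (Ne.symm hne)
    have hR : p • (T - τ T) = 0 := by
      rw [smul_sub, ← map_nsmul, hT, map_zero, sub_zero]
    exact absurd (val_x_le_one_of_torsion D v hβ hγ hp hp2 hpv hR0 hR) (not_le.mpr h)

/-- integral torsion points with nonsingular reduction are fixed. -/
lemma fixed_of_integral
    (hτx : ∀ P, P ≠ 0 → D.x (τ P) = σ (D.x P)) (hτy : ∀ P, P ≠ 0 → D.y (τ P) = σ (D.y P))
    (hτ0 : ∀ P, P ≠ 0 → τ P ≠ 0)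
    (hσ1 : ∀ a, v a ≤ 1 → v (σ a - a) < 1)
    (h2 : v 2 = 1) {p : ℕ} (hp : p.Prime) (hp2 : p ≠ 2) (hpv : v (p : K) = 1)
    (hβ : v D.β ≤ 1) (hγ : v D.γ ≤ 1) (hdisc : v (D.β ^ 2 - 4 * D.γ) = 1)
    {T : G} (hT0 : T ≠ 0) (hT : p • T = 0) (hx : v (D.x T) ≤ 1)
    (hcase : v D.γ = 1 ∨ v (D.x T) = 1) : τ T = T := by
  apply fixed_of_f2 D v τ hβ hγ hp hp2 hpv hT
  have hy : v (D.y T) ≤ 1 := val_y_le_one D v hT0 hβ hγ hx
  have hεx : v (σ (D.x T) - D.x T) < 1 := hσ1 _ hx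
  have hεy : v (σ (D.y T) - D.y T) < 1 := hσ1 _ hy
  have hxQ : v (D.x (τ T)) ≤ 1 := by
    rw [hτx T hT0]
    have : σ (D.x T) = (σ (D.x T) - D.x T) + D.x T := by ring
    rw [this]; exact v.map_add_le hεx.le hx
  refine f2 D v h2 hβ hT0 (hτ0 T hT0) hx hxQ ?_ ?_ ?_
  · rw [hτx T hT0, v.map_sub_swap]; exact hεx
  · rw [hτy T hT0, v.map_sub_swap]; exact hεy
  · rw [hτx T hT0, hτy T hT0]
    by_cases hy1 : v (D.y T) < 1
    · right
      have hf := fprime_unit v h2 hβ hdisc hx hy1 (D.eqn T hT0) hcase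
      have : D.x T ^ 2 + D.x T * σ (D.x T) + σ (D.x T) ^ 2 + D.β * (D.x T + σ (D.x T)) + D.γ =
          (3 * D.x T ^ 2 + 2 * D.β * D.x T + D.γ) +
          (σ (D.x T) - D.x T) * (3 * D.x T + (σ (D.x T) - D.x T) + D.β) := by ring
      rw [this]
      apply (v.map_add_eq_of_lt_left _).trans hf
      rw [hf, map_mul]
      have h3 : v (3 * D.x T + (σ (D.x T) - D.x T) + D.β) ≤ 1 := by
        have : 3 * D.x T + (σ (D.x T) - D.x T) + D.β ∈ v.integer := by
          have hxi := mem_int v hx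
          have hβi := mem_int v hβ
          have hεi := mem_int v hεx.le
          clear hf this hdisc hcase hεx hεy hxQ hτx hτy
          generalize σ (D.x T) - D.x T = ε at *
          aesop
        exact le_one_of_mem v this
      calc v (σ (D.x T) - D.x T) * v (3 * D.x T + (σ (D.x T) - D.x T) + D.β)
          ≤ v (σ (D.x T) - D.x T) * 1 := by gcongr
        _ = v (σ (D.x T) - D.x T) := mul_one _
        _ < 1 := hεx
    · left
      have hy1' : v (D.y T) = 1 := le_antisymm hy (not_lt.mp hy1)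
      have : D.y T + σ (D.y T) = 2 * D.y T + (σ (D.y T) - D.y T) := by ring
      rw [this]
      have h2y : v (2 * D.y T) = 1 := by rw [map_mul, h2, hy1', one_mul]
      exact (v.map_add_eq_of_lt_left (by rw [h2y]; exact hεy)).trans h2y

/-- valuation of `y` on a non-identity component. -/
lemma val_y_eq_val_x {P : G} (hP : P ≠ 0) (hβ : v D.β = 1) (hγx : v D.γ < v (D.x P))
    (hx1 : v (D.x P) < 1) : v (D.y P) = v (D.x P) := by
  have hxpos : 0 < v (D.x P) := lt_of_le_of_lt zero_le hγx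
  have hs : v (D.x P ^ 2 + D.β * D.x P + D.γ) = v (D.x P) := by
    have hb : v (D.β * D.x P) = v (D.x P) := by rw [map_mul, hβ, one_mul]
    have h1 : v (D.x P ^ 2) < v (D.β * D.x P) := by
      rw [hb, map_pow, sq]
      calc v (D.x P) * v (D.x P) < v (D.x P) * 1 := mul_lt_mul_of_pos_left hx1 hxpos
        _ = v (D.x P) := mul_one _
    have h2 : v (D.x P ^ 2 + D.β * D.x P) = v (D.x P) :=
      (v.map_add_eq_of_lt_right h1).trans hb
    exact (v.map_add_eq_of_lt_left (by rw [h2]; exact hγx)).trans h2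
  have e : D.y P ^ 2 = D.x P * (D.x P ^ 2 + D.β * D.x P + D.γ) := by rw [D.eqn P hP]; ring
  have h3 := congrArg v e
  rw [map_pow, map_mul, hs, ← sq] at h3
  exact pow_inj_of_ne_zero (by norm_num) h3

/-- torsion points on a non-identity component whose valuation is rational are fixed. -/
lemma fixed_of_open
    (hτx : ∀ P, P ≠ 0 → D.x (τ P) = σ (D.x P)) (hτy : ∀ P, P ≠ 0 → D.y (τ P) = σ (D.y P))
    (hτ0 : ∀ P, P ≠ 0 → τ P ≠ 0)
    (hσ1 : ∀ a, v a ≤ 1 → v (σ a - a) < 1)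
    (h2 : v 2 = 1) {p : ℕ} (hp : p.Prime) (hp2 : p ≠ 2) (hpv : v (p : K) = 1)
    (hβ : v D.β = 1) (hγ : v D.γ < 1)
    {T : G} (hT0 : T ≠ 0) (hT : p • T = 0) (hγx : v D.γ < v (D.x T)) (hx1 : v (D.x T) < 1)
    {w : K} (hw : σ w = w) (hwγ : v D.γ = v w ^ p)
    {i : ℕ} (hi : v (D.x T) ^ p = v D.γ ^ (2 * i)) : τ T = T := by
  apply fixed_of_f2 D v τ hβ.le hγ.le hp hp2 hpv hT
  have hxpos : 0 < v (D.x T) := lt_of_le_of_lt zero_le hγx
  have hyx : v (D.y T) = v (D.x T) := val_y_eq_val_x D v hT0 hβ hγx hx1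
  -- the valuation of `x` is that of the `σ`-fixed element `r = w ^ (2 * i)`
  have hr : v (D.x T) = v (w ^ (2 * i)) := by
    apply pow_inj_of_ne_zero hp.ne_zero
    rw [hi, hwγ, map_pow, ← pow_mul, ← pow_mul, mul_comm]
  have hσr : σ (w ^ (2 * i)) = w ^ (2 * i) := by rw [map_pow, hw]
  generalize w ^ (2 * i) = r at hr hσr
  have hr0 : r ≠ 0 := by
    intro h0; rw [h0, map_zero] at hr; rw [hr] at hxpos; exact lt_irrefl _ hxpos
  have key : ∀ a : K, v a = v r → v (σ a - a) < v r := by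
    intro a ha
    have hu : v (a / r) ≤ 1 := by rw [map_div₀, ha, div_self (by rw [← hr]; exact hxpos.ne')]
    have h3 := hσ1 (a / r) hu
    have : σ a - a = r * (σ (a / r) - a / r) := by
      rw [map_div₀, hσr]; field_simp
    rw [this, map_mul]
    calc v r * v (σ (a / r) - a / r) < v r * 1 :=
          mul_lt_mul_of_pos_left h3 (by rw [← hr]; exact hxpos)
      _ = v r := mul_one _
  refine f2_comp D v h2 hβ.le hT0 (hτ0 T hT0) hx1.le hyx ?_ ?_
  · rw [hτx T hT0, v.map_sub_swap, hr]; exact key _ hr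
  · rw [hτy T hT0, v.map_sub_swap, hr]; exact key _ (hyx.trans hr)

/-- torsion points close to the node-side 2-torsion point are fixed. -/
lemma fixed_of_deep
    (hτx : ∀ P, P ≠ 0 → D.x (τ P) = σ (D.x P)) (hτy : ∀ P, P ≠ 0 → D.y (τ P) = σ (D.y P))
    (hτ0 : ∀ P, P ≠ 0 → τ P ≠ 0)
    (hσ1 : ∀ a, v a ≤ 1 → v (σ a - a) < 1)
    (h2 : v 2 = 1) {p : ℕ} (hp : p.Prime) (hp2 : p ≠ 2) (hpv : v (p : K) = 1)
    (hβ : v D.β = 1) (hγ : v D.γ < 1) (hγ0 : D.γ ≠ 0) (hdisc : v (D.β ^ 2 - 4 * D.γ) = 1)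
    {T : G} (hT0 : T ≠ 0) (hT : p • T = 0) (hxγ : v (D.x T) ≤ v D.γ) : τ T = T := by
  have hp3 : 3 ≤ p := by have := hp.two_le; omega
  have hγpos : 0 < v D.γ := v.pos_iff.mpr hγ0
  have hy0 : D.y T ≠ 0 := y_ne_zero_of_torsion D hp hp2 hT0 hT
  have h2T0 : T + T ≠ 0 := by
    rw [← two_nsmul]; exact nsmul_ne_zero_of_lt hp hT0 hT (by norm_num) (by omega)
  have h2T : p • (T + T) = 0 := by rw [smul_add, hT, add_zero]
  have hd := D.dbl_x T hT0 hy0
  have h4 : v (4 : K) = 1 := by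
    have : (4 : K) = 2 * 2 := by norm_num
    rw [this, map_mul, h2, one_mul]
  -- valuation of the numerator
  have hnum : v (D.x T ^ 2 - D.γ) = v D.γ := by
    apply v.map_sub_eq_of_lt_right
    rw [map_pow, sq]
    calc v (D.x T) * v (D.x T) ≤ v D.γ * v D.γ := by gcongr
      _ < v D.γ * 1 := mul_lt_mul_of_pos_left hγ hγpos
      _ = v D.γ := mul_one _
  -- valuation of the denominator
  have hden : v (D.y T) ^ 2 ≤ v D.γ ^ 2 := by
    have e : D.y T ^ 2 = D.x T * (D.x T ^ 2 + D.β * D.x T + D.γ) := by rw [D.eqn T hT0]; ring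
    have h3 := congrArg v e
    rw [map_pow, map_mul] at h3
    rw [h3, sq (v D.γ)]
    have h5 : v (D.x T ^ 2 + D.β * D.x T + D.γ) ≤ v D.γ := by
      refine v.map_add_le (v.map_add_le ?_ ?_) le_rfl
      · rw [map_pow, sq]
        calc v (D.x T) * v (D.x T) ≤ v D.γ * 1 := by gcongr; exact (hxγ.trans hγ.le)
          _ = v D.γ := mul_one _
      · rw [map_mul, hβ, one_mul]; exact hxγ
    gcongr
  have h6 := congrArg v hd
  rw [map_mul, map_mul, h4, one_mul, map_pow, map_pow, hnum] at h6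
  have hx2 : 1 ≤ v (D.x (T + T)) := by
    by_contra hlt
    rw [not_le] at hlt
    have hypos : 0 < v (D.y T) ^ 2 := pow_pos (v.pos_iff.mpr hy0) 2
    have : v (D.x (T + T)) * v (D.y T) ^ 2 < 1 * v (D.y T) ^ 2 :=
      mul_lt_mul_of_pos_right hlt hypos
    rw [h6, one_mul] at this
    exact absurd hden (not_le.mpr this)
  have hx2' : v (D.x (T + T)) = 1 :=
    le_antisymm (val_x_le_one_of_torsion D v hβ.le hγ.le hp hp2 hpv h2T0 h2T) hx2
  have hfix : τ (T + T) = T + T :=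
    fixed_of_integral D v τ σ hτx hτy hτ0 hσ1 h2 hp hp2 hpv hβ.le hγ.le hdisc h2T0 h2T
      hx2'.le (Or.inr hx2')
  obtain ⟨k, hk⟩ : ∃ k, p = 2 * k + 1 := by
    rcases hp.eq_two_or_odd' with h | h
    · exact absurd h hp2
    · exact h
  have hT' : T = (k + 1) • (T + T) := by
    rw [← two_nsmul, ← mul_nsmul]
    have : 2 * (k + 1) = p + 1 := by omega
    rw [this, add_nsmul, hT, zero_add, one_nsmul]
  calc τ T = τ ((k + 1) • (T + T)) := by rw [← hT']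
    _ = (k + 1) • τ (T + T) := map_nsmul τ _ _
    _ = (k + 1) • (T + T) := by rw [hfix]
    _ = T := hT'.symm

/-- Layer B, modulo the valuation statement for torsion points reducing to the node. -/
theorem kummer_fixed_aux
    (hτx : ∀ P, P ≠ 0 → D.x (τ P) = σ (D.x P)) (hτy : ∀ P, P ≠ 0 → D.y (τ P) = σ (D.y P))
    (hτ0 : ∀ P, P ≠ 0 → τ P ≠ 0)
    (hσ1 : ∀ a, v a ≤ 1 → v (σ a - a) < 1)
    (h2 : v 2 = 1) (p : ℕ) (hp : p.Prime) (hp2 : p ≠ 2) (hpv : v (p : K) = 1)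
    (hβ : v D.β ≤ 1) (hγ : v D.γ ≤ 1) (hdisc : v (D.β ^ 2 - 4 * D.γ) = 1) (hγ0 : D.γ ≠ 0)
    (hcase : v D.γ = 1 ∨ (v D.β = 1 ∧ v D.γ < 1 ∧ ∃ w : K, σ w = w ∧ v D.γ = v w ^ p))
    (hH : v D.β = 1 → v D.γ < 1 → ∀ T : G, T ≠ 0 → p • T = 0 → v D.γ < v (D.x T) →
      v (D.x T) < 1 → ∃ i : ℕ, v (D.x T) ^ p = v D.γ ^ (2 * i))
    (T : G) (hT : p • T = 0) : τ T = T := by
  by_cases hT0 : T = 0
  · rw [hT0, map_zero]
  have hx : v (D.x T) ≤ 1 := val_x_le_one_of_torsion D v hβ hγ hp hp2 hpv hT0 hT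
  rcases hcase with hg | ⟨hβ1, hγ1, w, hw, hwγ⟩
  · exact fixed_of_integral D v τ σ hτx hτy hτ0 hσ1 h2 hp hp2 hpv hβ hγ hdisc hT0 hT hx
      (Or.inl hg)
  · rcases lt_or_eq_of_le hx with hx1 | hx1
    · rcases lt_or_ge (v D.γ) (v (D.x T)) with hγx | hγx
      · obtain ⟨i, hi⟩ := hH hβ1 hγ1 T hT0 hT hγx hx1
        exact fixed_of_open D v τ σ hτx hτy hτ0 hσ1 h2 hp hp2 hpv hβ1 hγ1 hT0 hT hγx hx1
          hw hwγ hi
      · exact fixed_of_deep D v τ σ hτx hτy hτ0 hσ1 h2 hp hp2 hpv hβ1 hγ1 hγ0 hdisc hT0 hT hγx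
    · exact fixed_of_integral D v τ σ hτx hτy hτ0 hσ1 h2 hp hp2 hpv hβ hγ hdisc hT0 hT hx
        (Or.inr hx1)

end

end Fermat.Agent.S05
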