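import Mathlib
import Fermat.Agent.S05.ValMain
import Fermat.Agent.S05.MultSeq

set_option autoImplicit false

namespace Fermat.Agent.S05

section cls
variable {Γ₀ : Type*} [LinearOrderedCommGroupWithZero Γ₀]

/-- class of a nonzero element of the value group modulo the subgroup generated by `g ^ 2`. -/
noncomputable def ValEnd.cls (g : Γ₀ˣ) (a : Γ₀) : Γ₀ˣ ⧸ Subgroup.zpowers (g ^ 2) :=
  if h : a = 0 then 1 else QuotientGroup.mk (Units.mk0 a h)

lemma ValEnd.cls_of_ne (g : Γ₀ˣ) {a : Γ₀} (ha : a ≠ 0) :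
    ValEnd.cls g a = QuotientGroup.mk (Units.mk0 a ha) := by
  unfold ValEnd.cls; rw [dif_neg ha]

lemma ValEnd.cls_mul (g : Γ₀ˣ) {a b : Γ₀} (ha : a ≠ 0) (hb : b ≠ 0) :
    ValEnd.cls g (a * b) = ValEnd.cls g a * ValEnd.cls g b := by
  rw [ValEnd.cls_of_ne g ha, ValEnd.cls_of_ne g hb, ValEnd.cls_of_ne g (mul_ne_zero ha hb),
    ← QuotientGroup.mk_mul]
  congr 1
  ext; simp

lemma ValEnd.cls_inv (g : Γ₀ˣ) {a : Γ₀} (ha : a ≠ 0) :
    ValEnd.cls g a⁻¹ = (ValEnd.cls g a)⁻¹ := by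
  rw [ValEnd.cls_of_ne g ha, ValEnd.cls_of_ne g (inv_ne_zero ha), ← QuotientGroup.mk_inv]
  congr 1
  ext; simp

lemma ValEnd.cls_div (g : Γ₀ˣ) {a b : Γ₀} (ha : a ≠ 0) (hb : b ≠ 0) :
    ValEnd.cls g (a / b) = ValEnd.cls g a / ValEnd.cls g b := by
  rw [div_eq_mul_inv, div_eq_mul_inv, ValEnd.cls_mul g ha (inv_ne_zero hb), ValEnd.cls_inv g hb]

lemma ValEnd.cls_pow (g : Γ₀ˣ) {a : Γ₀} (ha : a ≠ 0) (n : ℕ) :
    ValEnd.cls g (a ^ n) = ValEnd.cls g a ^ n := by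
  induction n with
  | zero =>
    rw [pow_zero, pow_zero, ValEnd.cls_of_ne g one_ne_zero]
    have : Units.mk0 (1 : Γ₀) one_ne_zero = 1 := by ext; simp
    rw [this]; rfl
  | succ n ih =>
    rw [pow_succ a n, ValEnd.cls_mul g (pow_ne_zero n ha) ha, ih, pow_succ (ValEnd.cls g a) n]

lemma ValEnd.cls_g_sq (g : Γ₀ˣ) : ValEnd.cls g ((g : Γ₀) * g) = 1 := by
  rw [ValEnd.cls_of_ne g (mul_ne_zero g.ne_zero g.ne_zero)]
  rw [QuotientGroup.eq_one_iff]
  have : Units.mk0 ((g : Γ₀) * g) (mul_ne_zero g.ne_zero g.ne_zero) = g ^ 2 := by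
    ext; simp [sq]
  rw [this]
  exact Subgroup.mem_zpowers _

lemma ValEnd.exists_of_cls_eq_one (g : Γ₀ˣ) {a : Γ₀} (ha : a ≠ 0) (h : ValEnd.cls g a = 1) :
    ∃ j : ℤ, a = ((g : Γ₀) ^ 2) ^ j := by
  rw [ValEnd.cls_of_ne g ha, QuotientGroup.eq_one_iff] at h
  obtain ⟨j, hj⟩ := Subgroup.mem_zpowers_iff.mp h
  refine ⟨j, ?_⟩
  have := congrArg (fun u : Γ₀ˣ => (u : Γ₀)) hj
  simp only [Units.val_zpow_eq_zpow_val, Units.val_pow_eq_pow_val, Units.val_mk0] at this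
  exact this.symm

end cls

section grp
variable {Q : Type*} [CommGroup Q]

/-- equality up to inversion -/
def ValEnd.PM (a b : Q) : Prop := a = b ∨ a = b⁻¹

lemma ValEnd.PM.refl (a : Q) : ValEnd.PM a a := Or.inl rfl

lemma ValEnd.PM.symm {a b : Q} (h : ValEnd.PM a b) : ValEnd.PM b a := by
  rcases h with h | h
  · exact Or.inl h.symm
  · exact Or.inr (by rw [h, inv_inv])

lemma ValEnd.PM.trans {a b c : Q} (h : ValEnd.PM a b) (h' : ValEnd.PM b c) : ValEnd.PM a c := by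
  rcases h with h | h <;> rcases h' with h' | h'
  · exact Or.inl (h.trans h')
  · exact Or.inr (h.trans h')
  · exact Or.inr (by rw [h, h'])
  · exact Or.inl (by rw [h, h', inv_inv])

/-- the combinatorial step: from the classes at `k` and `k + 1` to the class at `k + 2`. -/
lemma ValEnd.step_grp (θ cX cU cV e₁ e₂ : Q) (k : ℕ)
    (hX : ValEnd.PM cX (θ ^ (k + 1))) (hV : ValEnd.PM cV (θ ^ k))
    (h1 : e₁ = cX * θ ∨ e₁ = (cX * θ)⁻¹) (h2 : e₂ = cX / θ ∨ e₂ = θ / cX)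
    (h : (cU = e₁ ∧ cV = e₂) ∨ (cU = e₂ ∧ cV = e₁)) : ValEnd.PM cU (θ ^ (k + 2)) := by
  have h1' : ValEnd.PM e₁ (cX * θ) := h1
  have h2' : ValEnd.PM e₂ (cX / θ) := by
    rcases h2 with h2 | h2
    · exact Or.inl h2
    · exact Or.inr (by rw [h2, inv_div])
  -- the pair `(cX * θ, cX / θ)` is `(θ^(k+2), θ^k)` up to sign and order
  have hpair : (ValEnd.PM (cX * θ) (θ ^ (k + 2)) ∧ ValEnd.PM (cX / θ) (θ ^ k)) ∨
      (ValEnd.PM (cX * θ) (θ ^ k) ∧ ValEnd.PM (cX / θ) (θ ^ (k + 2))) := by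
    rcases hX with hX | hX
    · left
      refine ⟨Or.inl ?_, Or.inl ?_⟩
      · rw [hX]; group
      · rw [hX, div_eq_mul_inv]; group
    · right
      refine ⟨Or.inr ?_, Or.inr ?_⟩
      · rw [hX]; group
      · rw [hX, div_eq_mul_inv]; group
  rcases h with ⟨hU, hV'⟩ | ⟨hU, hV'⟩
  · rcases hpair with ⟨ha, hb⟩ | ⟨ha, hb⟩
    · rw [hU]; exact h1'.trans ha
    · -- cV = e₂ ≈ θ^(k+2) and cV ≈ θ^k
      have h3 : ValEnd.PM (θ ^ k) (θ ^ (k + 2)) := by
        rw [hV'] at hV; exact hV.symm.trans (h2'.trans hb)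
      rw [hU]; exact (h1'.trans ha).trans h3
  · rcases hpair with ⟨ha, hb⟩ | ⟨ha, hb⟩
    · have h3 : ValEnd.PM (θ ^ k) (θ ^ (k + 2)) := by
        rw [hV'] at hV; exact hV.symm.trans (h1'.trans ha)
      rw [hU]; exact (h2'.trans hb).trans h3
    · rw [hU]; exact h2'.trans hb

lemma ValEnd.endgame_grp (θ : Q) (k : ℕ) (h : ValEnd.PM (θ ^ k) (θ ^ (k + 1))) :
    θ ^ (2 * k + 1) = 1 := by
  rcases h with h | h
  · have h1 : θ = 1 := by
      have : θ ^ k * θ = θ ^ k * 1 := by rw [← pow_succ, ← h, mul_one]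
      exact mul_left_cancel this
    rw [h1, one_pow]
  · have : θ ^ (2 * k + 1) = θ ^ k * θ ^ (k + 1) := by
      rw [← pow_add]; congr 1; omega
    rw [this, h, inv_mul_cancel]

end grp

section main
variable {G K Γ₀ : Type*} [AddCommGroup G] [Field K] [LinearOrderedCommGroupWithZero Γ₀]

/-- clipped valuation of the abscissa of the double of a point on a non-identity component. -/
lemma ValEnd.dbl_val (v : Valuation K Γ₀) {γ x y X2 : K} (h2 : v 2 = 1)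
    (hγx : v γ < v x) (hx1 : v x < 1) (hy : v y = v x)
    (h : X2 * (4 * y ^ 2) = (x ^ 2 - γ) ^ 2) :
    MultSeq.clip (v γ) (v X2) = v x ^ 2 ∨ MultSeq.clip (v γ) (v X2) = v γ * v γ / v x ^ 2 := by
  have hxpos : 0 < v x := lt_of_le_of_lt zero_le hγx
  have hx2pos : 0 < v x ^ 2 := pow_pos hxpos 2
  have hg1 : v γ ≤ 1 := (hγx.trans hx1).le
  have h4 : v (4 : K) = 1 := by
    have : (4 : K) = 2 * 2 := by norm_num
    rw [this, map_mul, h2, one_mul]
  have h5 := congrArg v h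
  rw [map_mul, map_mul, h4, one_mul, map_pow, map_pow, hy] at h5
  have hx21 : v x ^ 2 ≤ 1 := pow_le_one₀ zero_le hx1.le
  rcases lt_trichotomy (v γ) (v x ^ 2) with hlt | heq | hgt
  · left
    have h6 : v (x ^ 2 - γ) = v x ^ 2 := by
      rw [← map_pow]; exact v.map_sub_eq_of_lt_left (by rw [map_pow]; exact hlt)
    rw [h6] at h5
    have h7 : v X2 = v x ^ 2 := by
      have : v X2 * v x ^ 2 = v x ^ 2 * v x ^ 2 := by rw [h5, sq (v x ^ 2)]
      exact mul_right_cancel₀ hx2pos.ne' this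
    rw [h7]; exact MultSeq.clip_of_mem hlt.le hx21
  · left
    have h6 : v (x ^ 2 - γ) ≤ v γ := by
      refine v.map_sub_le ?_ le_rfl
      rw [map_pow, heq]
    have h7 : v X2 ≤ v γ := by
      by_contra hc
      rw [not_le] at hc
      have h8 : v γ * v x ^ 2 < v X2 * v x ^ 2 := mul_lt_mul_of_pos_right hc hx2pos
      rw [h5, ← heq, ← sq] at h8
      exact absurd (pow_le_pow_left₀ zero_le h6 2) (not_le.mpr h8)
    rw [MultSeq.clip_of_le hg1 h7, heq]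
  · right
    have h6 : v (x ^ 2 - γ) = v γ :=
      v.map_sub_eq_of_lt_right (by rw [map_pow]; exact hgt)
    rw [h6] at h5
    have h7 : v X2 = v γ * v γ / v x ^ 2 := by
      rw [eq_div_iff hx2pos.ne', h5, sq]
    rw [h7]
    apply MultSeq.clip_of_mem
    · rw [le_div_iff₀ hx2pos]
      have : 0 ≤ v γ := zero_le
      gcongr
    · rw [div_le_iff₀ hx2pos, one_mul, sq]
      have := hγx.le
      gcongr

/-- torsion points on a non-identity component have valuation commensurable with that of `γ`. -/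
theorem ValEnd.torsion_val (D : KummerData G K) (v : Valuation K Γ₀) (h2 : v 2 = 1)
    (hβ : v D.β = 1) (hγ : v D.γ < 1) (hγ0 : D.γ ≠ 0) {p : ℕ} (hp : p.Prime) (hp2 : p ≠ 2)
    {T : G} (hT0 : T ≠ 0) (hT : p • T = 0) (hγx : v D.γ < v (D.x T)) (hx1 : v (D.x T) < 1) :
    ∃ i : ℕ, v (D.x T) ^ p = v D.γ ^ (2 * i) := by
  have hp3 : 3 ≤ p := by have := hp.two_le; omega
  have hN0 : v D.γ ≠ 0 := (v.ne_zero_iff).mpr hγ0
  have hμpos : 0 < v (D.x T) := lt_of_le_of_lt zero_le hγx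
  have hμ0 : v (D.x T) ≠ 0 := hμpos.ne'
  have hy0 : D.y T ≠ 0 := y_ne_zero_of_torsion D hp hp2 hT0 hT
  have hyx : v (D.y T) = v (D.x T) := val_y_eq_val_x D v hT0 hβ hγx hx1
  obtain ⟨g, hg⟩ : ∃ g : Γ₀ˣ, (g : Γ₀) = v D.γ := ⟨Units.mk0 _ hN0, rfl⟩
  have hc0 : ∀ k : ℕ, MultSeq.clip (v D.γ) (v (D.x (k • T))) ≠ 0 :=
    fun k => MultSeq.clip_ne_zero hN0
  have hc1 : MultSeq.clip (v D.γ) (v (D.x T)) = v (D.x T) :=
    MultSeq.clip_of_mem hγx.le hx1.le
  have key : ∀ k : ℕ, 1 ≤ k → k + 1 ≤ p - 1 →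
      ValEnd.PM (ValEnd.cls g (MultSeq.clip (v D.γ) (v (D.x (k • T)))))
        (ValEnd.cls g (v (D.x T)) ^ k) ∧
      ValEnd.PM (ValEnd.cls g (MultSeq.clip (v D.γ) (v (D.x ((k + 1) • T)))))
        (ValEnd.cls g (v (D.x T)) ^ (k + 1)) := by
    intro k hk
    induction k, hk using Nat.le_induction with
    | base =>
      intro _
      refine ⟨?_, ?_⟩
      · rw [one_nsmul, hc1, pow_one]; exact ValEnd.PM.refl _
      · have e2 : (1 + 1) • T = T + T := by rw [one_add_one_eq_two, two_nsmul]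
        rw [e2]
        rcases ValEnd.dbl_val v h2 hγx hx1 hyx (D.dbl_x T hT0 hy0) with h | h
        · rw [h, ValEnd.cls_pow g hμ0]; exact ValEnd.PM.refl _
        · rw [h, ValEnd.cls_div g (mul_ne_zero hN0 hN0) (pow_ne_zero 2 hμ0), ← hg,
            ValEnd.cls_g_sq, one_div, ValEnd.cls_pow g hμ0]
          exact Or.inr rfl
    | succ k hk ih =>
      intro hk2
      obtain ⟨hk0, hk1⟩ := ih (by omega)
      refine ⟨hk1, ?_⟩
      have hP0 : (k + 1) • T ≠ 0 := nsmul_ne_zero_of_lt hp hT0 hT (by omega) (by omega)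
      have hne : D.x ((k + 1) • T) ≠ D.x T := by
        have := x_nsmul_ne D hp hT0 hT (i := 1) (j := k + 1) (by norm_num) (by omega) (by omega)
        simpa using this
      have hsub : (k + 1) • T - T = k • T := by rw [succ_nsmul]; abel
      have hadd : (k + 1) • T + T = (k + 1 + 1) • T := (succ_nsmul T (k + 1)).symm
      have hP := D.prod_x hP0 hT0 hne
      have hS := D.sum_x hP0 hT0 hne
      rw [hsub, hadd] at hP hS
      have hS' : (D.x ((k + 1 + 1) • T) + D.x (k • T)) * (D.x ((k + 1) • T) - D.x T) ^ 2 =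
          2 * ((D.x ((k + 1) • T) + D.x T) * (D.x ((k + 1) • T) * D.x T + D.γ) +
            2 * D.β * D.x ((k + 1) • T) * D.x T) := by
        rw [hS]; ring
      obtain ⟨e₁, e₂, he₁, he₂, hee⟩ := MultSeq.hstep v hβ h2 hγ0 hγx hx1 hne hP hS'
      have hcX0 := hc0 (k + 1)
      have hcμ0 : MultSeq.clip (v D.γ) (v (D.x ((k + 1) • T))) * v (D.x T) ≠ 0 :=
        mul_ne_zero hcX0 hμ0
      refine ValEnd.step_grp (ValEnd.cls g (v (D.x T))) _ _ _ (ValEnd.cls g e₁)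
        (ValEnd.cls g e₂) k hk1 hk0 ?_ ?_ ?_
      · rcases he₁ with h | h
        · left; rw [h, ValEnd.cls_mul g hcX0 hμ0]
        · right
          rw [h, ValEnd.cls_div g (mul_ne_zero hN0 hN0) hcμ0, ← hg, ValEnd.cls_g_sq, one_div,
            hg, ValEnd.cls_mul g hcX0 hμ0]
      · rcases he₂ with h | h
        · left; rw [h, ValEnd.cls_div g hcX0 hμ0]
        · right; rw [h, ValEnd.cls_div g hμ0 hcX0]
      · rcases hee with ⟨h, h'⟩ | ⟨h, h'⟩
        · left; exact ⟨by rw [h], by rw [h']⟩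
        · right; exact ⟨by rw [h], by rw [h']⟩
  -- endgame
  obtain ⟨k0, hk0⟩ : ∃ k0, p = 2 * k0 + 1 := by
    rcases hp.eq_two_or_odd' with h | h
    · exact absurd h hp2
    · exact h
  have hk01 : 1 ≤ k0 := by omega
  obtain ⟨ha, hb⟩ := key k0 hk01 (by omega)
  have hneg : (k0 + 1) • T = -(k0 • T) := by
    rw [eq_neg_iff_add_eq_zero, ← add_nsmul]
    have : k0 + 1 + k0 = p := by omega
    rw [this]; exact hT
  rw [hneg, D.x_neg] at hb
  have hθp : ValEnd.cls g (v (D.x T)) ^ p = 1 := by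
    have := ValEnd.endgame_grp _ k0 (ha.symm.trans hb)
    rw [hk0]; exact this
  rw [← ValEnd.cls_pow g hμ0] at hθp
  obtain ⟨j, hj⟩ := ValEnd.exists_of_cls_eq_one g (pow_ne_zero p hμ0) hθp
  rw [hg] at hj
  have hlt1 : v (D.x T) ^ p < 1 := pow_lt_one₀ zero_le hx1 hp.ne_zero
  rcases le_or_gt 0 j with hj0 | hj0
  · lift j to ℕ using hj0
    rw [zpow_natCast, ← pow_mul] at hj
    exact ⟨j, hj⟩
  · exfalso
    obtain ⟨n, rfl⟩ : ∃ n : ℕ, j = -(n : ℤ) := ⟨j.natAbs, by omega⟩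
    rw [zpow_neg, zpow_natCast] at hj
    have h1 : (v D.γ ^ 2) ^ n ≤ 1 := pow_le_one₀ zero_le (pow_le_one₀ zero_le hγ.le)
    have h3 : 0 < (v D.γ ^ 2) ^ n := pow_pos (pow_pos (zero_lt_iff.mpr hN0) 2) n
    have h4 : 1 ≤ ((v D.γ ^ 2) ^ n)⁻¹ := (one_le_inv₀ h3).mpr h1
    rw [← hj] at h4
    exact absurd h4 (not_le.mpr hlt1)

end main

end Fermat.Agent.S05
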