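import Mathlib
import Fermat.Agent.S05.ValF1
import Fermat.Agent.S05.MultSeq

set_option autoImplicit false

namespace Fermat.Agent.S05.MultSeq

open Valuation

variable {K : Type*} [Field K] {Γ₀ : Type*} [LinearOrderedCommGroupWithZero Γ₀]
  (v : Valuation K Γ₀)

/-- if `a` is `θ ^ (j + 1)` up to inversion and also `θ ^ j` up to inversion, then
`θ ^ (2 * j + 1) = 1` -/
theorem pm_end {Q : Type*} [CommGroup Q] {θ a : Q} {j : ℕ}
    (h1 : pm a (θ ^ (j + 1))) (h0 : pm a (θ ^ j)) : θ ^ (2 * j + 1) = 1 := by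
  have e : θ ^ (2 * j + 1) = θ ^ (j + 1) * θ ^ j := by
    rw [← pow_add]; congr 1; omega
  have one : θ ^ (j + 1) = θ ^ j → θ ^ (2 * j + 1) = 1 := by
    intro h'
    have h : θ ^ j * θ = θ ^ j * 1 := by rw [← pow_succ, mul_one, h']
    have hθ : θ = 1 := mul_left_cancel h
    rw [hθ, one_pow]
  rcases h1 with h1 | h1 <;> rcases h0 with h0 | h0
  · exact one (h1.symm.trans h0)
  · have h : θ ^ (j + 1) = (θ ^ j)⁻¹ := h1.symm.trans h0
    rw [e, h, inv_mul_cancel]
  · have h : θ ^ j = (θ ^ (j + 1))⁻¹ := h0.symm.trans h1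
    rw [e, h, mul_inv_cancel]
  · exact one (inv_injective (h1.symm.trans h0))

/-- valuation of the cubic at an interior point -/
theorem val_cubic {β γ X : K} (hβ : v β = 1) (hγt : v γ < v X) (ht1 : v X < 1) :
    v (X ^ 3 + β * X ^ 2 + γ * X) = v X * v X := by
  have ht0 : 0 < v X := lt_of_le_of_lt zero_le hγt
  have e : X ^ 3 + β * X ^ 2 + γ * X = X * (X ^ 2 + β * X + γ) := by ring
  have hb : v (β * X) = v X := by rw [map_mul, hβ, one_mul]
  have h1 : v (X ^ 2) < v (β * X) := by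
    rw [hb, map_pow, sq]
    calc v X * v X < v X * 1 := mul_lt_mul_of_pos_left ht1 ht0
      _ = v X := mul_one _
  have h2' : v (X ^ 2 + β * X) = v X := (v.map_add_eq_of_lt_right h1).trans hb
  have h3 : v (X ^ 2 + β * X + γ) = v X :=
    (v.map_add_eq_of_lt_left (by rw [h2']; exact hγt)).trans h2'
  rw [e, map_mul, h3]

/-- the component rule for doubling an interior point -/
theorem dup_clip {β γ X Ysq W : K} (hβ : v β = 1) (h2 : v 2 = 1) (hγ0 : γ ≠ 0)
    (hγt : v γ < v X) (ht1 : v X < 1)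
    (hY : Ysq = X ^ 3 + β * X ^ 2 + γ * X)
    (hW : W * (4 * Ysq) = (X ^ 2 - γ) ^ 2) :
    clip (v γ) (v W) = v X * v X ∨ clip (v γ) (v W) = v γ * v γ / (v X * v X) := by
  have hg0 : v γ ≠ 0 := (v.ne_zero_iff).mpr hγ0
  have ht0 : v X ≠ 0 := ne_of_gt (lt_of_le_of_lt zero_le hγt)
  have htt0 : v X * v X ≠ 0 := mul_ne_zero ht0 ht0
  have htt1 : v X * v X ≤ 1 := by
    calc v X * v X ≤ 1 * 1 := by
          have := ht1.le
          gcongr
      _ = 1 := one_mul _
  have hg1 : v γ ≤ 1 := (hγt.trans ht1).le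
  have h4 : v (4 : K) = 1 := by
    have : (4 : K) = 2 * 2 := by norm_num
    rw [this, map_mul, h2, one_mul]
  have hYv : v Ysq = v X * v X := by rw [hY]; exact val_cubic v hβ hγt ht1
  have hWv : v W * (v X * v X) = v (X ^ 2 - γ) ^ 2 := by
    have h := congrArg v hW
    rw [map_mul, map_mul, h4, one_mul, hYv, map_pow] at h
    exact h
  have hX2 : v (X ^ 2) = v X * v X := by rw [map_pow, sq]
  rcases lt_trichotomy (v γ) (v X * v X) with h | h | h
  · left
    have hE : v (X ^ 2 - γ) = v X * v X := by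
      rw [v.map_sub_eq_of_lt_left (by rw [hX2]; exact h), hX2]
    rw [hE, sq] at hWv
    have hW' : v W = v X * v X := mul_right_cancel₀ htt0 hWv
    rw [hW']
    exact clip_of_mem h.le htt1
  · left
    have hE : v (X ^ 2 - γ) ≤ v γ := by
      refine (v.map_sub _ _).trans (le_of_eq ?_)
      rw [hX2, ← h, max_self]
    have hW' : v W ≤ v γ := by
      have h5 : v W * (v X * v X) ≤ v γ * (v X * v X) := by
        rw [hWv, sq]
        calc v (X ^ 2 - γ) * v (X ^ 2 - γ) ≤ v γ * v γ := by gcongr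
          _ = v γ * (v X * v X) := by rw [← h]
      exact le_of_mul_le_mul_right h5 (pos_of_ne htt0)
    rw [clip_of_le hg1 hW', h]
  · right
    have hE : v (X ^ 2 - γ) = v γ := by
      rw [v.map_sub_eq_of_lt_right (by rw [hX2]; exact h)]
    rw [hE, sq] at hWv
    have hW' : v W = v γ * v γ / (v X * v X) := by
      rw [eq_div_iff htt0]; exact hWv
    rw [hW']
    apply clip_of_mem
    · rw [le_div_iff₀ (pos_of_ne htt0)]
      have := h.le
      gcongr
    · rw [div_le_iff₀ (pos_of_ne htt0), one_mul]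
      have h3 : v γ ≤ v X := hγt.le
      gcongr

/-- **Node torsion**: a point of odd prime order `p` on a non-identity component of the
node has `v (x T) ^ p ∈ v γ ^ (2 ℕ)`. -/
theorem torsion_val_interior {G : Type*} [AddCommGroup G] (D : KummerData G K)
    (h2 : v 2 = 1) (hβ : v D.β = 1) (hγ0 : D.γ ≠ 0)
    {p : ℕ} (hp : p.Prime) (hp2 : p ≠ 2) {T : G} (hT0 : T ≠ 0) (hT : p • T = 0)
    (hγx : v D.γ < v (D.x T)) (hx1 : v (D.x T) < 1) :
    ∃ i : ℕ, v (D.x T) ^ p = v D.γ ^ (2 * i) := by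
  have hp3 : 3 ≤ p := by have := hp.two_le; omega
  have hg0 : v D.γ ≠ 0 := (v.ne_zero_iff).mpr hγ0
  have ht0 : v (D.x T) ≠ 0 := ne_of_gt (lt_of_le_of_lt zero_le hγx)
  have hg1 : v D.γ < 1 := hγx.trans hx1
  have hc0 : ∀ x : Γ₀, clip (v D.γ) x ≠ 0 := fun x => clip_ne_zero hg0
  -- main induction
  have main : ∀ k : ℕ,
      (k + 1 < p → pm (cl (v D.γ) hg0 (clip (v D.γ) (v (D.x ((k + 1) • T)))))
        (cl (v D.γ) hg0 (v (D.x T)) ^ (k + 1))) ∧
      (k + 2 < p → pm (cl (v D.γ) hg0 (clip (v D.γ) (v (D.x ((k + 2) • T)))))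
        (cl (v D.γ) hg0 (v (D.x T)) ^ (k + 2))) := by
    intro k
    induction k with
    | zero =>
      constructor
      · intro _
        left
        rw [zero_add, one_nsmul, pow_one, clip_of_mem hγx.le hx1.le]
      · intro _
        have hy0 : D.y T ≠ 0 := y_ne_zero_of_torsion D hp hp2 hT0 hT
        have hd := D.dbl_x T hT0 hy0
        have hdc := dup_clip v hβ h2 hγ0 hγx hx1 (D.eqn T hT0) hd
        rw [zero_add, two_nsmul]
        rcases hdc with h | h
        · left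
          rw [h, cl_mul _ hg0 ht0 ht0, sq]
        · right
          rw [h, cl_div _ hg0 (mul_ne_zero hg0 hg0) (mul_ne_zero ht0 ht0), cl_gg,
            cl_mul _ hg0 ht0 ht0, sq, one_div]
    | succ k ih =>
      refine ⟨fun h => ih.2 (by omega), fun h => ?_⟩
      have h1 := ih.2 (by omega)
      have h0 := ih.1 (by omega)
      have hP0 : (k + 2) • T ≠ 0 := nsmul_ne_zero_of_lt hp hT0 hT (by omega) (by omega)
      have hxne : D.x ((k + 2) • T) ≠ D.x T := by
        have h3 := x_nsmul_ne D hp hT0 hT (i := 1) (j := k + 2) (by omega) (by omega) (by omega)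
        rwa [one_nsmul] at h3
      have hprod := D.prod_x hP0 hT0 hxne
      have hsum := D.sum_x hP0 hT0 hxne
      have e1 : (k + 2) • T + T = (k + 1 + 2) • T := (succ_nsmul T (k + 2)).symm
      have e2 : (k + 2) • T - T = (k + 1) • T := by
        rw [show (k + 2) • T = (k + 1) • T + T from succ_nsmul T (k + 1), add_sub_cancel_right]
      rw [e1, e2] at hprod hsum
      obtain ⟨e₁, e₂, he1, he2, hh⟩ :=
        hstep v hβ h2 hγ0 hγx hx1 hxne hprod (by rw [hsum]; ring)
      have hX0 := hc0 (v (D.x ((k + 2) • T)))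
      refine pm_step (k := k + 1) (ε₁ := cl (v D.γ) hg0 e₁) (ε₂ := cl (v D.γ) hg0 e₂)
        h1 h0 ?_ ?_ ?_
      · rcases he1 with he1 | he1
        · left
          rw [he1, cl_mul _ hg0 hX0 ht0]
        · right
          rw [he1, cl_div _ hg0 (mul_ne_zero hg0 hg0) (mul_ne_zero hX0 ht0), cl_gg,
            cl_mul _ hg0 hX0 ht0, one_div]
      · rcases he2 with he2 | he2
        · left
          rw [he2, cl_div _ hg0 hX0 ht0]
        · right
          rw [he2, cl_div _ hg0 ht0 hX0, inv_div]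
      · rcases hh with ⟨hU, hV⟩ | ⟨hU, hV⟩
        · left
          exact ⟨by rw [hU], by rw [hV]⟩
        · right
          exact ⟨by rw [hU], by rw [hV]⟩
  -- endgame
  obtain ⟨j, hj⟩ : ∃ j, p = 2 * j + 1 := by
    rcases hp.eq_two_or_odd' with h | h
    · exact absurd h hp2
    · exact h
  obtain ⟨j', rfl⟩ : ∃ j', j = j' + 1 := ⟨j - 1, by omega⟩
  have hA := (main j').2 (by omega)
  have hB := (main j').1 (by omega)
  have hxeq : D.x ((j' + 2) • T) = D.x ((j' + 1) • T) := by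
    have h3 : (j' + 2) • T = -((j' + 1) • T) := by
      rw [eq_neg_iff_add_eq_zero, ← add_nsmul]
      have h4 : j' + 2 + (j' + 1) = p := by omega
      rw [h4, hT]
    rw [h3, D.x_neg]
  rw [hxeq] at hA
  have hθ : cl (v D.γ) hg0 (v (D.x T)) ^ (2 * (j' + 1) + 1) = 1 := pm_end hA hB
  rw [← hj, ← cl_pow _ hg0 ht0] at hθ
  obtain ⟨m, hm⟩ := exists_zpow_of_cl_eq_one _ hg0 (pow_ne_zero p ht0) hθ
  have hgg0 : 0 < v D.γ * v D.γ := pos_of_ne (mul_ne_zero hg0 hg0)
  have hgg1 : v D.γ * v D.γ < 1 := by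
    calc v D.γ * v D.γ < 1 * 1 := by
          have := pos_of_ne hg0
          gcongr
      _ = 1 := one_mul _
  have htp1 : v (D.x T) ^ p < 1 := pow_lt_one₀ zero_le hx1 (by omega)
  rcases le_or_gt m 0 with hm0 | hm0
  · exfalso
    have h5 : 1 ≤ (v D.γ * v D.γ) ^ m := by
      obtain ⟨n, rfl⟩ : ∃ n : ℕ, m = -(n : ℤ) := ⟨(-m).toNat, by omega⟩
      rw [zpow_neg, zpow_natCast]
      exact (one_le_inv₀ (pow_pos hgg0 n)).mpr (pow_le_one₀ zero_le hgg1.le)
    rw [← hm] at h5
    exact absurd htp1 (not_lt.mpr h5)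
  · obtain ⟨n, rfl⟩ : ∃ n : ℕ, m = (n : ℤ) := ⟨m.toNat, by omega⟩
    refine ⟨n, ?_⟩
    rw [hm, zpow_natCast, pow_mul, sq]

end Fermat.Agent.S05.MultSeq
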