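import Mathlib
import Fermat.Agent.S05.Defs

set_option autoImplicit false

namespace Fermat.Agent.S05

namespace ValNode

section Algebra

variable {G : Type*} [AddCommGroup G] {K : Type*} [Field K] (D : KummerData G K)

theorem add_x {P Q : G} (hP : P ≠ 0) (hQ : Q ≠ 0) (hx : D.x P ≠ D.x Q) :
    D.x (P + Q) * (D.x P - D.x Q) ^ 2 =
      (D.y P - D.y Q) ^ 2 - (D.β + D.x P + D.x Q) * (D.x P - D.x Q) ^ 2 := by
  have h := D.sub_x P (-Q) hP (neg_ne_zero.mpr hQ) (by rwa [D.x_neg])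
  rw [D.x_neg, D.y_neg, sub_neg_eq_add] at h
  rw [h]; ring

theorem sum_x {P Q : G} (hP : P ≠ 0) (hQ : Q ≠ 0) (hx : D.x P ≠ D.x Q) :
    (D.x (P + Q) + D.x (P - Q)) * (D.x P - D.x Q) ^ 2 =
      2 * (D.x P + D.x Q) * (D.x P * D.x Q + D.γ) + 4 * D.β * (D.x P * D.x Q) := by
  have h1 := add_x D hP hQ hx
  have h2 := D.sub_x P Q hP hQ hx
  have e1 := D.eqn P hP
  have e2 := D.eqn Q hQ
  linear_combination h1 + h2 + 2 * e1 + 2 * e2

theorem prod_x {P Q : G} (hP : P ≠ 0) (hQ : Q ≠ 0) (hx : D.x P ≠ D.x Q) :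
    D.x (P + Q) * D.x (P - Q) * (D.x P - D.x Q) ^ 2 = (D.x P * D.x Q - D.γ) ^ 2 := by
  have h1 := add_x D hP hQ hx
  have h2 := D.sub_x P Q hP hQ hx
  have e1 := D.eqn P hP
  have e2 := D.eqn Q hQ
  have hd : (D.x P - D.x Q) ^ 2 ≠ 0 := pow_ne_zero 2 (sub_ne_zero.mpr hx)
  apply mul_right_cancel₀ hd
  linear_combination (D.x (P - Q) * (D.x P - D.x Q) ^ 2) * h1 +
    ((D.y P - D.y Q) ^ 2 - (D.β + D.x P + D.x Q) * (D.x P - D.x Q) ^ 2) * h2 +
    (D.y P ^ 2 + (D.x P ^ 3 + D.β * D.x P ^ 2 + D.γ * D.x P) - 2 * D.y Q ^ 2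
      - 2 * (D.β + D.x P + D.x Q) * (D.x P - D.x Q) ^ 2) * e1 +
    (D.y Q ^ 2 + (D.x Q ^ 3 + D.β * D.x Q ^ 2 + D.γ * D.x Q)
      - 2 * (D.x P ^ 3 + D.β * D.x P ^ 2 + D.γ * D.x P)
      - 2 * (D.β + D.x P + D.x Q) * (D.x P - D.x Q) ^ 2) * e2

/-- Points with the same `x` are equal or opposite (characteristic not 2 is not needed). -/
theorem eq_or_eq_neg_of_x_eq {P Q : G} (hP : P ≠ 0) (hQ : Q ≠ 0) (hx : D.x P = D.x Q) :
    P = Q ∨ P = -Q := by
  have e1 := D.eqn P hP
  have e2 := D.eqn Q hQ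
  have hy : (D.y P - D.y Q) * (D.y P + D.y Q) = 0 := by
    rw [hx] at e1
    linear_combination e1 - e2
  rcases mul_eq_zero.mp hy with h | h
  · left
    exact D.inj P Q hP hQ hx (sub_eq_zero.mp h)
  · right
    refine D.inj P (-Q) hP (neg_ne_zero.mpr hQ) (by rw [D.x_neg, hx]) ?_
    rw [D.y_neg]
    linear_combination h

theorem two_nsmul_eq_zero_of_y_eq_zero {P : G} (hP : P ≠ 0) (hy : D.y P = 0) : P + P = 0 := by
  have : P = -P := D.inj P (-P) hP (neg_ne_zero.mpr hP) (D.x_neg P).symm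
    (by rw [D.y_neg, hy, neg_zero])
  exact add_eq_zero_iff_eq_neg.mpr this

end Algebra

section Clip

variable {Γ₀ : Type*} [LinearOrderedCommGroupWithZero Γ₀]

/-- clip a valuation into the interval `[n, 1]`. -/
def clip (n c : Γ₀) : Γ₀ := min 1 (max c n)

theorem clip_of_one_le {n c : Γ₀} (h : 1 ≤ c) : clip n c = 1 :=
  min_eq_left (le_trans h (le_max_left _ _))

theorem clip_of_le {n c : Γ₀} (hn : n ≤ 1) (h : c ≤ n) : clip n c = n := by
  unfold clip
  rw [max_eq_right h, min_eq_right hn]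

theorem clip_of_mem {n c : Γ₀} (h1 : n ≤ c) (h2 : c ≤ 1) : clip n c = c := by
  unfold clip
  rw [max_eq_left h1, min_eq_right h2]

theorem clip_le_one (n c : Γ₀) : clip n c ≤ 1 := min_le_left _ _

theorem le_clip {n : Γ₀} (hn : n ≤ 1) (c : Γ₀) : n ≤ clip n c :=
  le_min hn (le_max_right _ _)

end Clip

section Quad

variable {K : Type*} [Field K] {Γ₀ : Type*} [LinearOrderedCommGroupWithZero Γ₀]
  (v : Valuation K Γ₀)

/-- If `v r₁ ≠ v r₂`, the larger one is `v (r₁ + r₂)`; basic consequence used below. -/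
theorem quad_lt_aux {r1 r2 : K} {c : Γ₀} (h1 : c < v r1) (h2 : v r2 < v r1) :
    c < v (r1 + r2) := by
  rw [v.map_add_eq_of_lt_left h2]; exact h1

/-- Q1: product of valuation `≥ 1` and sum dominated by the product: both roots are `≥ 1`. -/
theorem quad_one_le {r1 r2 : K} (hM : 1 ≤ v (r1 * r2)) (hS : v (r1 + r2) ≤ v (r1 * r2)) :
    1 ≤ v r1 ∧ 1 ≤ v r2 := by
  rw [v.map_mul] at hM hS
  have key : ∀ {s t : K}, 1 ≤ v s * v t → v (s + t) ≤ v s * v t → 1 ≤ v t := by
    intro s t hM hS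
    by_contra hlt
    push Not at hlt
    have ht0 : 0 < v s := by
      rcases eq_or_lt_of_le (zero_le (a := v s)) with h | h
      · rw [← h, zero_mul] at hM
        exact absurd hM (not_le.mpr zero_lt_one)
      · exact h
    have h1 : v s * v t < v s := mul_lt_of_lt_one_right ht0 hlt
    have h2 : v t < v s := lt_of_lt_of_le hlt (le_trans hM h1.le)
    have h3 : v (s + t) = v s := v.map_add_eq_of_lt_left h2
    rw [h3] at hS
    exact absurd hS (not_le.mpr h1)
  refine ⟨?_, key hM hS⟩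
  rw [mul_comm] at hM hS
  rw [add_comm] at hS
  exact key hM hS

/-- Q3: `v S ≤ c` and `v M ≤ c²`: both roots have valuation `≤ c`. -/
theorem quad_le {r1 r2 : K} {c : Γ₀} (hS : v (r1 + r2) ≤ c) (hM : v (r1 * r2) ≤ c * c) :
    v r1 ≤ c ∧ v r2 ≤ c := by
  rw [v.map_mul] at hM
  have key : ∀ {s t : K}, v (s + t) ≤ c → v s * v t ≤ c * c → v s ≤ c := by
    intro s t hS hM
    by_contra hlt
    push Not at hlt
    have hs0 : 0 < v s := lt_of_le_of_lt zero_le hlt
    have h2 : v t < v s := by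
      by_contra h
      push Not at h
      have : c * c < v s * v t := by
        calc c * c ≤ c * v s := by gcongr
          _ < v s * v s := by gcongr
          _ ≤ v s * v t := by gcongr
      exact absurd hM (not_le.mpr this)
    have h3 : v (s + t) = v s := v.map_add_eq_of_lt_left h2
    rw [h3] at hS
    exact absurd hS (not_le.mpr hlt)
  refine ⟨key hS hM, ?_⟩
  rw [mul_comm] at hM
  rw [add_comm] at hS
  exact key hS hM

/-- Q2: `v M = c²` and `v S ≤ c`: both roots have valuation exactly `c`. -/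
theorem quad_eq {r1 r2 : K} {c : Γ₀} (hS : v (r1 + r2) ≤ c) (hM : v (r1 * r2) = c * c) :
    v r1 = c ∧ v r2 = c := by
  obtain ⟨h1, h2⟩ := quad_le v hS hM.le
  rw [v.map_mul] at hM
  rcases eq_or_lt_of_le (zero_le (a := c)) with hc | hc
  · subst hc
    exact ⟨le_antisymm h1 zero_le, le_antisymm h2 zero_le⟩
  constructor
  · by_contra h
    have hlt : v r1 < c := lt_of_le_of_ne h1 h
    have : v r1 * v r2 < c * c := by
      calc v r1 * v r2 ≤ v r1 * c := by gcongr
        _ < c * c := by gcongr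
    exact absurd hM this.ne
  · by_contra h
    have hlt : v r2 < c := lt_of_le_of_ne h2 h
    have : v r1 * v r2 < c * c := by
      calc v r1 * v r2 ≤ c * v r2 := by gcongr
        _ < c * c := by gcongr
    exact absurd hM this.ne

/-- Q4: `v M < (v S)²`: the roots have valuations `v S` and `v M / v S`. -/
theorem quad_split {r1 r2 : K} (h : v (r1 * r2) < v (r1 + r2) * v (r1 + r2)) :
    (v r1 = v (r1 + r2) ∧ v r2 * v (r1 + r2) = v (r1 * r2)) ∨
      (v r2 = v (r1 + r2) ∧ v r1 * v (r1 + r2) = v (r1 * r2)) := by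
  rcases lt_trichotomy (v r1) (v r2) with h12 | h12 | h12
  · right
    have h3 : v (r1 + r2) = v r2 := v.map_add_eq_of_lt_right h12
    exact ⟨h3.symm, by rw [h3, v.map_mul]⟩
  · exfalso
    have h3 : v (r1 + r2) ≤ v r1 := v.map_add_le le_rfl h12.symm.le
    have : v (r1 + r2) * v (r1 + r2) ≤ v (r1 * r2) := by
      rw [v.map_mul, ← h12]
      gcongr
    exact absurd h (not_lt.mpr this)
  · left
    have h3 : v (r1 + r2) = v r1 := v.map_add_eq_of_lt_left h12
    exact ⟨h3.symm, by rw [h3, v.map_mul, mul_comm]⟩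

end Quad

section Pair

variable {K : Type*} [Field K] {Γ₀ : Type*} [LinearOrderedCommGroupWithZero Γ₀]
  (v : Valuation K Γ₀)

theorem val_four (h2 : v 2 = 1) : v 4 = 1 := by
  have : (4 : K) = 2 * 2 := by norm_num
  rw [this, v.map_mul, h2, one_mul]

/-- The shape of the addition rule for clipped valuations. -/
def RuleConcl (n hP hQ h1 h2 : Γ₀) : Prop :=
  ∃ s t : Γ₀, ((h1 = s ∧ h2 = t) ∨ (h1 = t ∧ h2 = s)) ∧
    (s = hP * hQ ∨ s * (hP * hQ) = n ^ 2) ∧ (t * hQ = hP ∨ t * hP = hQ)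

theorem RuleConcl.swap {n hP hQ h1 h2 : Γ₀} (h : RuleConcl n hP hQ h1 h2) :
    RuleConcl n hQ hP h1 h2 := by
  obtain ⟨s, t, hst, hs, ht⟩ := h
  refine ⟨s, t, hst, ?_, ht.symm⟩
  rw [mul_comm hQ hP]; exact hs

theorem pair_rule_aux {β γ x1 x2 r1 r2 : K} (h2 : v 2 = 1) (hβ : v β = 1) (hγ1 : v γ < 1)
    (hγ0 : γ ≠ 0) (hne : x1 ≠ x2)
    (hM : r1 * r2 * (x1 - x2) ^ 2 = (x1 * x2 - γ) ^ 2)
    (hS : (r1 + r2) * (x1 - x2) ^ 2 = 2 * (x1 + x2) * (x1 * x2 + γ) + 4 * β * (x1 * x2))
    (hab : v x2 ≤ v x1) :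
    RuleConcl (v γ) (clip (v γ) (v x1)) (clip (v γ) (v x2)) (clip (v γ) (v r1))
      (clip (v γ) (v r2)) := by
  have hn0 : 0 < v γ := zero_lt_iff.mpr ((Valuation.ne_zero_iff v).mpr hγ0)
  have hd0 : 0 < v (x1 - x2) :=
    zero_lt_iff.mpr ((Valuation.ne_zero_iff v).mpr (sub_ne_zero.mpr hne))
  have hd20 : 0 < v (x1 - x2) ^ 2 := pow_pos hd0 2
  have hMv : v (r1 * r2) * v (x1 - x2) ^ 2 = v (x1 * x2 - γ) ^ 2 := by
    rw [← v.map_pow, ← v.map_mul, hM, v.map_pow]
  have hSv : v (r1 + r2) * v (x1 - x2) ^ 2 =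
      v (2 * (x1 + x2) * (x1 * x2 + γ) + 4 * β * (x1 * x2)) := by
    rw [← v.map_pow, ← v.map_mul, hS]
  have ht3 : v (4 * β * (x1 * x2)) = v x1 * v x2 := by
    rw [v.map_mul, v.map_mul, v.map_mul, val_four v h2, hβ, one_mul, one_mul]
  have ht12 : v (2 * (x1 + x2) * (x1 * x2 + γ)) = v (x1 + x2) * v (x1 * x2 + γ) := by
    rw [v.map_mul, v.map_mul, h2, one_mul]
  have he : v (x1 + x2) ≤ v x1 := v.map_add_le le_rfl hab
  have hdle : v (x1 - x2) ≤ v x1 := v.map_sub_le le_rfl hab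
  have hx12 : v (x1 * x2) = v x1 * v x2 := v.map_mul _ _
  have hu' : v (x1 * x2 + γ) ≤ max (v x1 * v x2) (v γ) := by
    rw [← hx12]; exact v.map_add _ _
  have hu : v (x1 * x2 - γ) ≤ max (v x1 * v x2) (v γ) := by
    rw [← hx12]; exact v.map_sub _ _
  have hW : v (r1 + r2) * v (x1 - x2) ^ 2 ≤
      max (v (x1 + x2) * v (x1 * x2 + γ)) (v x1 * v x2) := by
    rw [hSv, ← ht12, ← ht3]; exact v.map_add _ _
  set a := v x1 with ha_def
  set b := v x2 with hb_def
  set n := v γ with hn_def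
  set d := v (x1 - x2) with hd_def
  by_cases hb1 : 1 ≤ b
  · -- Case 1: both outside the node
    have ha1 : 1 ≤ a := le_trans hb1 hab
    have hab1 : 1 ≤ a * b := one_le_mul_of_one_le_of_one_le ha1 hb1
    have hnab : n < a * b := lt_of_lt_of_le hγ1 hab1
    have hu1 : v (x1 * x2 - γ) = a * b := by
      rw [← hx12]; exact v.map_sub_eq_of_lt_left (by rw [hx12]; exact hnab)
    have hu1' : v (x1 * x2 + γ) = a * b := by
      rw [← hx12]; exact v.map_add_eq_of_lt_left (by rw [hx12]; exact hnab)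
    rw [hu1] at hMv
    rw [hu1'] at hW
    have hd2 : d ^ 2 ≤ (a * b) ^ 2 := by
      have : d ≤ a * b := le_trans hdle (le_mul_of_one_le_right zero_le hb1)
      gcongr
    have hM1 : 1 ≤ v (r1 * r2) := by
      by_contra h
      push Not at h
      have : v (r1 * r2) * d ^ 2 < d ^ 2 := mul_lt_of_lt_one_left hd20 h
      rw [hMv] at this
      exact absurd hd2 (not_le.mpr this)
    have hSM : v (r1 + r2) ≤ v (r1 * r2) := by
      have h1 : v (x1 + x2) * (a * b) ≤ (a * b) ^ 2 := by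
        rw [sq]
        have : v (x1 + x2) ≤ a * b := le_trans he (le_mul_of_one_le_right zero_le hb1)
        gcongr
      have h2' : a * b ≤ (a * b) ^ 2 := by
        rw [sq]; exact le_mul_of_one_le_right zero_le hab1
      have h3 : v (r1 + r2) * d ^ 2 ≤ v (r1 * r2) * d ^ 2 := by
        rw [hMv]; exact le_trans hW (max_le h1 h2')
      exact le_of_mul_le_mul_right h3 hd20
    obtain ⟨hR1, hR2⟩ := quad_one_le v hM1 hSM
    refine ⟨1, 1, Or.inl ⟨clip_of_one_le hR1, clip_of_one_le hR2⟩, Or.inl ?_, Or.inl ?_⟩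
    · rw [clip_of_one_le ha1, clip_of_one_le hb1, one_mul]
    · rw [clip_of_one_le ha1, clip_of_one_le hb1, one_mul]
  push Not at hb1
  have hn1 : n ≤ 1 := hγ1.le
  by_cases ha1 : 1 ≤ a
  · -- `x1` outside the node, `x2` strictly inside the unit disc
    have hlt : b < a := lt_of_lt_of_le hb1 ha1
    have hd : d = a := v.map_sub_eq_of_lt_left hlt
    have hE : v (x1 + x2) = a := v.map_add_eq_of_lt_left hlt
    have ha0 : 0 < a := lt_of_lt_of_le zero_lt_one ha1
    have ha20 : 0 < a ^ 2 := pow_pos ha0 2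
    rw [hd] at hMv hW
    rw [hE] at hW
    by_cases hbn : b ≤ n
    · -- Case 3
      have hmax : max (a * b) n ≤ a * n :=
        max_le (by gcongr) (le_mul_of_one_le_left zero_le ha1)
      have hM' : v (r1 * r2) ≤ n * n := by
        have h1 : v (r1 * r2) * a ^ 2 ≤ (n * n) * a ^ 2 := by
          rw [hMv]
          calc v (x1 * x2 - γ) ^ 2 ≤ (a * n) ^ 2 := by
                have := le_trans hu hmax
                gcongr
            _ = (n * n) * a ^ 2 := by (first | ac_rfl | (simp only [sq]; ac_rfl))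
        exact le_of_mul_le_mul_right h1 ha20
      have hS' : v (r1 + r2) ≤ n := by
        have h1 : v (r1 + r2) * a ^ 2 ≤ n * a ^ 2 := by
          refine le_trans hW (max_le ?_ ?_)
          · calc a * v (x1 * x2 + γ) ≤ a * (a * n) := by
                  have := le_trans hu' hmax
                  gcongr
              _ = n * a ^ 2 := by (first | ac_rfl | (simp only [sq]; ac_rfl))
          · calc a * b ≤ a * n := by gcongr
              _ ≤ a * (a * n) := by
                  have : n ≤ a * n := le_mul_of_one_le_left zero_le ha1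
                  gcongr
              _ = n * a ^ 2 := by (first | ac_rfl | (simp only [sq]; ac_rfl))
        exact le_of_mul_le_mul_right h1 ha20
      obtain ⟨hR1, hR2⟩ := quad_le v hS' hM'
      refine ⟨n, n, Or.inl ⟨clip_of_le hn1 hR1, clip_of_le hn1 hR2⟩, Or.inl ?_, Or.inr ?_⟩
      · rw [clip_of_one_le ha1, clip_of_le hn1 hbn, one_mul]
      · rw [clip_of_one_le ha1, clip_of_le hn1 hbn, mul_one]
    · -- Case 2
      push Not at hbn
      have hnab : n < a * b := lt_of_lt_of_le hbn (le_mul_of_one_le_left zero_le ha1)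
      have hu1 : v (x1 * x2 - γ) = a * b := by
        rw [← hx12]; exact v.map_sub_eq_of_lt_left (by rw [hx12]; exact hnab)
      have hu1' : v (x1 * x2 + γ) = a * b := by
        rw [← hx12]; exact v.map_add_eq_of_lt_left (by rw [hx12]; exact hnab)
      rw [hu1] at hMv
      rw [hu1'] at hW
      have hM' : v (r1 * r2) = b * b := by
        have h1 : v (r1 * r2) * a ^ 2 = (b * b) * a ^ 2 := by
          rw [hMv]; (first | ac_rfl | (simp only [sq]; ac_rfl))
        exact mul_right_cancel₀ ha20.ne' h1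
      have hS' : v (r1 + r2) ≤ b := by
        have h1 : v (r1 + r2) * a ^ 2 ≤ b * a ^ 2 := by
          refine le_trans hW (max_le ?_ ?_)
          · exact le_of_eq (by (first | ac_rfl | (simp only [sq]; ac_rfl)))
          · calc a * b ≤ a * (a * b) := by
                  have : b ≤ a * b := le_mul_of_one_le_left zero_le ha1
                  gcongr
              _ = b * a ^ 2 := by (first | ac_rfl | (simp only [sq]; ac_rfl))
        exact le_of_mul_le_mul_right h1 ha20
      obtain ⟨hR1, hR2⟩ := quad_eq v hS' hM'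
      have hcb : clip n b = b := clip_of_mem hbn.le hb1.le
      refine ⟨b, b, Or.inl ⟨by rw [hR1, hcb], by rw [hR2, hcb]⟩, Or.inl ?_, Or.inr ?_⟩
      · rw [clip_of_one_le ha1, hcb, one_mul]
      · rw [clip_of_one_le ha1, hcb, mul_one]
  push Not at ha1
  by_cases han : a ≤ n
  · -- Case 7
    have hbn : b ≤ n := le_trans hab han
    have habn : a * b < n :=
      lt_of_le_of_lt (mul_le_mul' han hbn) (mul_lt_of_lt_one_left hn0 hγ1)
    have hu7 : v (x1 * x2 - γ) = n := by
      rw [hn_def]; exact v.map_sub_eq_of_lt_right (by rw [hx12]; exact habn)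
    have hu7' : v (x1 * x2 + γ) = n := by
      rw [hn_def]; exact v.map_add_eq_of_lt_right (by rw [hx12]; exact habn)
    rw [hu7] at hMv
    rw [hu7'] at hW
    have hdn : d ^ 2 ≤ n ^ 2 := by
      have : d ≤ n := le_trans hdle han
      gcongr
    have hM1 : 1 ≤ v (r1 * r2) := by
      by_contra h
      push Not at h
      have : v (r1 * r2) * d ^ 2 < d ^ 2 := mul_lt_of_lt_one_left hd20 h
      rw [hMv] at this
      exact absurd hdn (not_le.mpr this)
    have hSM : v (r1 + r2) ≤ v (r1 * r2) := by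
      have h3 : v (r1 + r2) * d ^ 2 ≤ v (r1 * r2) * d ^ 2 := by
        rw [hMv]
        refine le_trans hW (max_le ?_ ?_)
        · rw [sq]
          have : v (x1 + x2) ≤ n := le_trans he han
          gcongr
        · rw [sq]; exact mul_le_mul' han hbn
      exact le_of_mul_le_mul_right h3 hd20
    obtain ⟨hR1, hR2⟩ := quad_one_le v hM1 hSM
    refine ⟨1, 1, Or.inl ⟨clip_of_one_le hR1, clip_of_one_le hR2⟩, Or.inr ?_, Or.inl ?_⟩
    · rw [clip_of_le hn1 han, clip_of_le hn1 hbn, one_mul, sq]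
    · rw [clip_of_le hn1 han, clip_of_le hn1 hbn, one_mul]
  push Not at han
  have ha0 : 0 < a := lt_trans hn0 han
  have hca : clip n a = a := clip_of_mem han.le ha1.le
  by_cases hbn : b ≤ n
  · -- Case 6
    have hlt : b < a := lt_of_le_of_lt hbn han
    have hd : d = a := v.map_sub_eq_of_lt_left hlt
    have hE : v (x1 + x2) = a := v.map_add_eq_of_lt_left hlt
    have ha20 : 0 < a ^ 2 := pow_pos ha0 2
    rw [hd] at hMv hW
    rw [hE] at hW
    have habn : a * b < n :=
      lt_of_le_of_lt (mul_le_mul' le_rfl hbn) (mul_lt_of_lt_one_left hn0 ha1)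
    have hu7 : v (x1 * x2 - γ) = n := by
      rw [hn_def]; exact v.map_sub_eq_of_lt_right (by rw [hx12]; exact habn)
    have hu7' : v (x1 * x2 + γ) = n := by
      rw [hn_def]; exact v.map_add_eq_of_lt_right (by rw [hx12]; exact habn)
    rw [hu7] at hMv
    rw [hu7'] at hW
    have hc : n / a * a = n := div_mul_cancel₀ n ha0.ne'
    have hM' : v (r1 * r2) = n / a * (n / a) := by
      have h1 : v (r1 * r2) * a ^ 2 = (n / a * (n / a)) * a ^ 2 := by
        rw [hMv]
        calc n ^ 2 = (n / a * a) ^ 2 := by rw [hc]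
          _ = (n / a * (n / a)) * a ^ 2 := by (first | ac_rfl | (simp only [sq]; ac_rfl))
      exact mul_right_cancel₀ ha20.ne' h1
    have hS' : v (r1 + r2) ≤ n / a := by
      have h1 : v (r1 + r2) * a ^ 2 ≤ n / a * a ^ 2 := by
        have h2' : n / a * a ^ 2 = a * n := by
          calc n / a * a ^ 2 = (n / a * a) * a := by (first | ac_rfl | (simp only [sq]; ac_rfl))
            _ = a * n := by rw [hc, mul_comm]
        rw [h2']
        exact le_trans hW (max_le le_rfl (mul_le_mul' le_rfl hbn))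
      exact le_of_mul_le_mul_right h1 ha20
    obtain ⟨hR1, hR2⟩ := quad_eq v hS' hM'
    have hc1 : n ≤ n / a := by
      have : n * a ≤ n / a * a := by
        rw [hc]; exact mul_le_of_le_one_right zero_le ha1.le
      exact le_of_mul_le_mul_right this ha0
    have hc2 : n / a ≤ 1 := by
      have : n / a * a ≤ 1 * a := by rw [hc, one_mul]; exact han.le
      exact le_of_mul_le_mul_right this ha0
    have hcc : clip n (n / a) = n / a := clip_of_mem hc1 hc2
    refine ⟨n / a, n / a, Or.inl ⟨by rw [hR1, hcc], by rw [hR2, hcc]⟩, Or.inr ?_, Or.inr ?_⟩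
    · rw [hca, clip_of_le hn1 hbn, ← mul_assoc, hc, sq]
    · rw [hca, clip_of_le hn1 hbn, hc]
  -- Cases 4 and 5: both strictly between `n` and `1`
  push Not at hbn
  have hb0 : 0 < b := lt_trans hn0 hbn
  have hcb : clip n b = b := clip_of_mem hbn.le hb1.le
  have hab0 : 0 < a * b := mul_pos ha0 hb0
  have hd1 : d < 1 := lt_of_le_of_lt hdle ha1
  have hwt : v (x1 + x2) * v (x1 * x2 + γ) < a * b := by
    calc v (x1 + x2) * v (x1 * x2 + γ) ≤ a * max (a * b) n := mul_le_mul' he hu'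
      _ < a * b := by
          rcases le_total (a * b) n with h | h
          · rw [max_eq_right h]; gcongr
          · rw [max_eq_left h]; exact mul_lt_of_lt_one_left hab0 ha1
  have hw : v (2 * (x1 + x2) * (x1 * x2 + γ) + 4 * β * (x1 * x2)) = a * b := by
    rw [v.map_add_eq_of_lt_right (by rw [ht12, ht3]; exact hwt), ht3]
  rw [hw] at hSv
  have hσ0 : 0 < v (r1 + r2) := by
    rcases eq_or_lt_of_le (zero_le (a := v (r1 + r2))) with h | h
    · rw [← h, zero_mul] at hSv
      exact absurd hSv hab0.ne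
    · exact h
  -- (ii) `u * d < a * b`
  have hud : v (x1 * x2 - γ) * d < a * b := by
    rcases le_total (a * b) n with h | h
    · calc v (x1 * x2 - γ) * d ≤ n * a := mul_le_mul' (le_trans hu (max_le h le_rfl)) hdle
        _ < b * a := by gcongr
        _ = a * b := mul_comm _ _
    · calc v (x1 * x2 - γ) * d ≤ (a * b) * d :=
            mul_le_mul' (le_trans hu (max_le le_rfl h)) le_rfl
        _ < a * b := mul_lt_of_lt_one_right hab0 hd1
  -- (iii)
  have hsplit : v (r1 * r2) < v (r1 + r2) * v (r1 + r2) := by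
    have h1 : v (r1 * r2) * (d ^ 2 * d ^ 2) < v (r1 + r2) * v (r1 + r2) * (d ^ 2 * d ^ 2) := by
      calc v (r1 * r2) * (d ^ 2 * d ^ 2) = (v (r1 * r2) * d ^ 2) * d ^ 2 := by ac_rfl
        _ = (v (x1 * x2 - γ) * d) ^ 2 := by rw [hMv]; (first | ac_rfl | (simp only [sq]; ac_rfl))
        _ < (a * b) ^ 2 := pow_lt_pow_left₀ hud zero_le (by norm_num)
        _ = (v (r1 + r2) * d ^ 2) ^ 2 := by rw [hSv]
        _ = v (r1 + r2) * v (r1 + r2) * (d ^ 2 * d ^ 2) := by (first | ac_rfl | (simp only [sq]; ac_rfl))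
    exact lt_of_mul_lt_mul_right h1 zero_le
  -- (vi) the root of valuation `σ`
  have hσt : clip n (v (r1 + r2)) * a = b := by
    rcases eq_or_lt_of_le hab with h | h
    · -- `b = a`
      have h1 : 1 ≤ v (r1 + r2) := by
        by_contra hlt
        push Not at hlt
        have h2 : v (r1 + r2) * d ^ 2 < d ^ 2 := mul_lt_of_lt_one_left hd20 hlt
        rw [hSv] at h2
        have h3 : d ^ 2 ≤ a * b := by
          rw [sq]; exact mul_le_mul' hdle (by rw [h]; exact hdle)
        exact absurd h3 (not_le.mpr h2)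
      rw [clip_of_one_le h1, one_mul, h]
    · -- `b < a`
      have hd : d = a := v.map_sub_eq_of_lt_left h
      rw [hd] at hSv
      have h1 : v (r1 + r2) * a = b := by
        have : (v (r1 + r2) * a) * a = b * a := by
          calc (v (r1 + r2) * a) * a = v (r1 + r2) * a ^ 2 := by (first | ac_rfl | (simp only [sq]; ac_rfl))
            _ = b * a := by rw [hSv, mul_comm]
        exact mul_right_cancel₀ ha0.ne' this
      have h2 : v (r1 + r2) ≤ 1 := by
        have : v (r1 + r2) * a ≤ 1 * a := by rw [h1, one_mul]; exact h.le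
        exact le_of_mul_le_mul_right this ha0
      have h3 : n ≤ v (r1 + r2) := by
        have : n * a ≤ v (r1 + r2) * a := by
          rw [h1]
          exact le_trans (mul_le_of_le_one_right zero_le ha1.le) hbn.le
        exact le_of_mul_le_mul_right this ha0
      rw [clip_of_mem h3 h2, h1]
  -- (iv)/(v) the other root
  have hother : ∀ R : Γ₀, R * v (r1 + r2) = v (r1 * r2) →
      (clip n R = a * b ∨ clip n R * (a * b) = n ^ 2) := by
    intro R hR
    have hRab : R * (a * b) = v (x1 * x2 - γ) ^ 2 := by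
      rw [← hMv, ← hR, ← hSv]; ac_rfl
    rcases lt_trichotomy (a * b) n with h | h | h
    · right
      have hu7 : v (x1 * x2 - γ) = n := by
        rw [hn_def]; exact v.map_sub_eq_of_lt_right (by rw [hx12]; exact h)
      rw [hu7] at hRab
      have h1 : R ≤ 1 := by
        have : R * (a * b) ≤ 1 * (a * b) := by
          rw [hRab, one_mul, sq]; exact mul_le_mul' han.le hbn.le
        exact le_of_mul_le_mul_right this hab0
      have h2 : n ≤ R := by
        have : n * (a * b) ≤ R * (a * b) := by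
          rw [hRab, sq]; exact mul_le_mul' le_rfl h.le
        exact le_of_mul_le_mul_right this hab0
      rw [clip_of_mem h2 h1, hRab]
    · left
      have hu7 : v (x1 * x2 - γ) ≤ n := le_trans hu (max_le h.le le_rfl)
      have h1 : R ≤ n := by
        have : R * (a * b) ≤ n * (a * b) := by
          rw [hRab, h, sq]; exact mul_le_mul' hu7 hu7
        exact le_of_mul_le_mul_right this hab0
      rw [clip_of_le hn1 h1, h]
    · left
      have hu1 : v (x1 * x2 - γ) = a * b := by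
        rw [← hx12]; exact v.map_sub_eq_of_lt_left (by rw [hx12]; exact h)
      rw [hu1] at hRab
      have h1 : R = a * b := by
        have : R * (a * b) = (a * b) * (a * b) := by rw [hRab, sq]
        exact mul_right_cancel₀ hab0.ne' this
      have h2 : a * b ≤ 1 := by
        calc a * b ≤ 1 * 1 := mul_le_mul' ha1.le hb1.le
          _ = 1 := one_mul 1
      rw [h1, clip_of_mem h.le h2]
  rcases quad_split v hsplit with ⟨h1, h2⟩ | ⟨h1, h2⟩
  · refine ⟨clip n (v r2), clip n (v r1), Or.inr ⟨rfl, rfl⟩, ?_, Or.inr ?_⟩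
    · rw [hca, hcb]; exact hother _ h2
    · rw [hca, hcb, h1]; exact hσt
  · refine ⟨clip n (v r1), clip n (v r2), Or.inl ⟨rfl, rfl⟩, ?_, Or.inr ?_⟩
    · rw [hca, hcb]; exact hother _ h2
    · rw [hca, hcb, h1]; exact hσt

theorem pair_rule {β γ x1 x2 r1 r2 : K} (h2 : v 2 = 1) (hβ : v β = 1) (hγ1 : v γ < 1)
    (hγ0 : γ ≠ 0) (hne : x1 ≠ x2)
    (hM : r1 * r2 * (x1 - x2) ^ 2 = (x1 * x2 - γ) ^ 2)
    (hS : (r1 + r2) * (x1 - x2) ^ 2 = 2 * (x1 + x2) * (x1 * x2 + γ) + 4 * β * (x1 * x2)) :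
    RuleConcl (v γ) (clip (v γ) (v x1)) (clip (v γ) (v x2)) (clip (v γ) (v r1))
      (clip (v γ) (v r2)) := by
  rcases le_total (v x2) (v x1) with hab | hab
  · exact pair_rule_aux v h2 hβ hγ1 hγ0 hne hM hS hab
  · have hM' : r1 * r2 * (x2 - x1) ^ 2 = (x2 * x1 - γ) ^ 2 := by linear_combination hM
    have hS' : (r1 + r2) * (x2 - x1) ^ 2 =
        2 * (x2 + x1) * (x2 * x1 + γ) + 4 * β * (x2 * x1) := by linear_combination hS
    exact (pair_rule_aux v h2 hβ hγ1 hγ0 (Ne.symm hne) hM' hS' hab).swap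

end Pair

section Dbl

variable {K : Type*} [Field K] {Γ₀ : Type*} [LinearOrderedCommGroupWithZero Γ₀]
  (v : Valuation K Γ₀)

/-- Doubling rule. -/
theorem dbl_rule {β γ x y r : K} (h2 : v 2 = 1) (hβ : v β = 1) (hγ1 : v γ < 1)
    (hγ0 : γ ≠ 0) (hy : y ≠ 0) (heq : y ^ 2 = x ^ 3 + β * x ^ 2 + γ * x)
    (hr : r * (4 * y ^ 2) = (x ^ 2 - γ) ^ 2) :
    clip (v γ) (v r) = clip (v γ) (v x) * clip (v γ) (v x) ∨
      clip (v γ) (v r) * (clip (v γ) (v x) * clip (v γ) (v x)) = v γ ^ 2 := by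
  have hn0 : 0 < v γ := zero_lt_iff.mpr ((Valuation.ne_zero_iff v).mpr hγ0)
  have hn1 : v γ ≤ 1 := hγ1.le
  have hy20 : 0 < v (y ^ 2) :=
    zero_lt_iff.mpr ((Valuation.ne_zero_iff v).mpr (pow_ne_zero 2 hy))
  have hyv : v (y ^ 2) = v x * v (x ^ 2 + β * x + γ) := by
    rw [heq, ← v.map_mul]; congr 1; ring
  have hrv : v r * v (y ^ 2) = v (x ^ 2 - γ) ^ 2 := by
    have : v (r * (4 * y ^ 2)) = v r * v (y ^ 2) := by
      rw [v.map_mul, v.map_mul, val_four v h2, one_mul]
    rw [← this, hr, v.map_pow]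
  have hx2 : v (x ^ 2) = v x * v x := by rw [v.map_pow, sq]
  have hbx : v (β * x) = v x := by rw [v.map_mul, hβ, one_mul]
  have hu : v (x ^ 2 - γ) ≤ max (v x * v x) (v γ) := by
    rw [← hx2]; exact v.map_sub _ _
  set a := v x with ha_def
  set n := v γ with hn_def
  have ha0 : 0 < a := by
    rcases eq_or_lt_of_le (zero_le (a := a)) with h | h
    · rw [hyv, ← h, zero_mul] at hy20
      exact absurd hy20 (lt_irrefl _)
    · exact h
  by_cases ha1 : 1 ≤ a
  · -- outside the node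
    left
    have hna : n < a * a := lt_of_lt_of_le hγ1 (one_le_mul_of_one_le_of_one_le ha1 ha1)
    have hu1 : v (x ^ 2 - γ) = a * a := by
      rw [← hx2]; exact v.map_sub_eq_of_lt_left (by rw [hx2]; exact hna)
    rw [hu1] at hrv
    have hq : v (x ^ 2 + β * x + γ) ≤ a * a := by
      refine v.map_add_le (v.map_add_le hx2.le ?_) hna.le
      rw [hbx]; exact le_mul_of_one_le_left zero_le ha1
    have hy3 : v (y ^ 2) ≤ (a * a) ^ 2 := by
      rw [hyv]
      calc a * v (x ^ 2 + β * x + γ) ≤ a * (a * a) := mul_le_mul' le_rfl hq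
        _ ≤ (a * a) * (a * a) := mul_le_mul' (le_mul_of_one_le_left zero_le ha1) le_rfl
        _ = (a * a) ^ 2 := (sq _).symm
    have hr1 : 1 ≤ v r := by
      by_contra h
      push Not at h
      have : v r * v (y ^ 2) < v (y ^ 2) := mul_lt_of_lt_one_left hy20 h
      rw [hrv] at this
      exact absurd hy3 (not_le.mpr this)
    rw [clip_of_one_le hr1, clip_of_one_le ha1, one_mul]
  push Not at ha1
  by_cases han : a ≤ n
  · -- near the 2-torsion point
    right
    have haan : a * a < n :=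
      lt_of_le_of_lt (mul_le_mul' han han) (mul_lt_of_lt_one_left hn0 hγ1)
    have hu7 : v (x ^ 2 - γ) = n := by
      rw [hn_def]; exact v.map_sub_eq_of_lt_right (by rw [hx2]; exact haan)
    rw [hu7] at hrv
    have hq : v (x ^ 2 + β * x + γ) ≤ n := by
      refine v.map_add_le (v.map_add_le ?_ ?_) le_rfl
      · rw [hx2]; exact haan.le
      · rw [hbx]; exact han
    have hy3 : v (y ^ 2) ≤ n ^ 2 := by
      rw [hyv]
      calc a * v (x ^ 2 + β * x + γ) ≤ n * n := mul_le_mul' han hq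
        _ = n ^ 2 := (sq n).symm
    have hr1 : 1 ≤ v r := by
      by_contra h
      push Not at h
      have : v r * v (y ^ 2) < v (y ^ 2) := mul_lt_of_lt_one_left hy20 h
      rw [hrv] at this
      exact absurd hy3 (not_le.mpr this)
    rw [clip_of_one_le hr1, clip_of_le hn1 han, one_mul, sq]
  push Not at han
  have hca : clip n a = a := clip_of_mem han.le ha1.le
  have hq : v (x ^ 2 + β * x + γ) = a := by
    have h1 : v (x ^ 2 + β * x) = a := by
      rw [v.map_add_eq_of_lt_right (by rw [hx2, hbx]; exact mul_lt_of_lt_one_left ha0 ha1), hbx]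
    rw [v.map_add_eq_of_lt_left (by rw [h1]; exact han), h1]
  rw [hq] at hyv
  rw [hyv] at hrv
  have haa0 : 0 < a * a := mul_pos ha0 ha0
  rw [hca]
  rcases lt_trichotomy (a * a) n with h | h | h
  · right
    have hu7 : v (x ^ 2 - γ) = n := by
      rw [hn_def]; exact v.map_sub_eq_of_lt_right (by rw [hx2]; exact h)
    rw [hu7] at hrv
    have h1 : v r ≤ 1 := by
      have : v r * (a * a) ≤ 1 * (a * a) := by
        rw [hrv, one_mul, sq]; exact mul_le_mul' han.le han.le
      exact le_of_mul_le_mul_right this haa0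
    have h2' : n ≤ v r := by
      have : n * (a * a) ≤ v r * (a * a) := by
        rw [hrv, sq]; exact mul_le_mul' le_rfl h.le
      exact le_of_mul_le_mul_right this haa0
    rw [clip_of_mem h2' h1, hrv]
  · left
    have hu7 : v (x ^ 2 - γ) ≤ n := le_trans hu (max_le h.le le_rfl)
    have h1 : v r ≤ n := by
      have : v r * (a * a) ≤ n * (a * a) := by
        rw [hrv, h, sq]; exact mul_le_mul' hu7 hu7
      exact le_of_mul_le_mul_right this haa0
    rw [clip_of_le hn1 h1, h]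
  · left
    have hu1 : v (x ^ 2 - γ) = a * a := by
      rw [← hx2]; exact v.map_sub_eq_of_lt_left (by rw [hx2]; exact h)
    rw [hu1] at hrv
    have h1 : v r = a * a := by
      have : v r * (a * a) = (a * a) * (a * a) := by rw [hrv, sq]
      exact mul_right_cancel₀ haa0.ne' this
    have h2' : a * a ≤ 1 := by
      calc a * a ≤ 1 * 1 := mul_le_mul' ha1.le ha1.le
        _ = 1 := one_mul 1
    rw [h1, clip_of_mem h.le h2']

/-- The case `y = 0` of the doubling rule: the clipped valuation of `x` is `1` or `n`. -/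
theorem dbl_rule_zero {β γ x : K} (hβ : v β = 1) (hγ1 : v γ < 1) (hγ0 : γ ≠ 0)
    (heq : x ^ 3 + β * x ^ 2 + γ * x = 0) :
    clip (v γ) (v x) = 1 ∨ clip (v γ) (v x) = v γ := by
  have hn0 : 0 < v γ := zero_lt_iff.mpr ((Valuation.ne_zero_iff v).mpr hγ0)
  have hn1 : v γ ≤ 1 := hγ1.le
  have hfac : x * (x ^ 2 + β * x + γ) = 0 := by rw [← heq]; ring
  have hx2 : v (x ^ 2) = v x * v x := by rw [v.map_pow, sq]
  have hbx : v (β * x) = v x := by rw [v.map_mul, hβ, one_mul]
  rcases mul_eq_zero.mp hfac with h | h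
  · right
    rw [h, v.map_zero]; exact clip_of_le hn1 zero_le
  · by_cases ha1 : 1 ≤ v x
    · left; exact clip_of_one_le ha1
    push Not at ha1
    by_cases han : v x ≤ v γ
    · right; exact clip_of_le hn1 han
    push Not at han
    exfalso
    have ha0 : 0 < v x := lt_trans hn0 han
    have h1 : v (x ^ 2 + β * x) = v x := by
      rw [v.map_add_eq_of_lt_right (by rw [hx2, hbx]; exact mul_lt_of_lt_one_left ha0 ha1), hbx]
    have hq : v (x ^ 2 + β * x + γ) = v x := by
      rw [v.map_add_eq_of_lt_left (by rw [h1]; exact han), h1]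
    rw [h, v.map_zero] at hq
    exact absurd hq ha0.ne

end Dbl

section InvRel

variable {Q : Type*} [CommGroup Q]

/-- equality up to inversion -/
def InvRel (a b : Q) : Prop := a = b ∨ a = b⁻¹

theorem InvRel.refl (a : Q) : InvRel a a := Or.inl rfl

theorem InvRel.symm {a b : Q} (h : InvRel a b) : InvRel b a := by
  rcases h with rfl | rfl
  · exact Or.inl rfl
  · exact Or.inr (inv_inv b).symm

theorem InvRel.trans {a b c : Q} (h1 : InvRel a b) (h2 : InvRel b c) : InvRel a c := by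
  rcases h1 with rfl | rfl <;> rcases h2 with rfl | rfl
  · exact Or.inl rfl
  · exact Or.inr rfl
  · exact Or.inr rfl
  · exact Or.inl (inv_inv c)

theorem InvRel.inv_left (a : Q) : InvRel a⁻¹ a := Or.inr rfl

end InvRel

section Cls

variable {Γ₀ : Type*} [LinearOrderedCommGroupWithZero Γ₀]

/-- the subgroup of the unit group generated by `n ^ 2` -/
def sqSubgroup (n : Γ₀) (hn : n ≠ 0) : Subgroup Γ₀ˣ :=
  Subgroup.zpowers (Units.mk0 (n ^ 2) (pow_ne_zero 2 hn))

open Classical in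
/-- class of a nonzero element modulo powers of `n ^ 2` (junk value `1` at `0`) -/
noncomputable def cls (n : Γ₀) (hn : n ≠ 0) (g : Γ₀) : Γ₀ˣ ⧸ sqSubgroup n hn :=
  if h : g = 0 then 1 else ((Units.mk0 g h : Γ₀ˣ) : Γ₀ˣ ⧸ sqSubgroup n hn)

theorem cls_of_ne (n : Γ₀) (hn : n ≠ 0) {g : Γ₀} (h : g ≠ 0) :
    cls n hn g = ((Units.mk0 g h : Γ₀ˣ) : Γ₀ˣ ⧸ sqSubgroup n hn) := dif_neg h

theorem cls_mul (n : Γ₀) (hn : n ≠ 0) {g g' : Γ₀} (hg : g ≠ 0) (hg' : g' ≠ 0) :
    cls n hn (g * g') = cls n hn g * cls n hn g' := by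
  rw [cls_of_ne n hn hg, cls_of_ne n hn hg', cls_of_ne n hn (mul_ne_zero hg hg'),
    ← QuotientGroup.mk_mul]
  congr 1
  exact Units.ext rfl

theorem cls_one (n : Γ₀) (hn : n ≠ 0) : cls n hn 1 = 1 := by
  rw [cls_of_ne n hn one_ne_zero]
  have : (Units.mk0 (1 : Γ₀) one_ne_zero) = 1 := Units.ext rfl
  rw [this]; rfl

theorem cls_sq (n : Γ₀) (hn : n ≠ 0) : cls n hn (n ^ 2) = 1 := by
  rw [cls_of_ne n hn (pow_ne_zero 2 hn), QuotientGroup.eq_one_iff]
  exact Subgroup.mem_zpowers _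

theorem cls_pow (n : Γ₀) (hn : n ≠ 0) {g : Γ₀} (hg : g ≠ 0) (j : ℕ) :
    cls n hn (g ^ j) = cls n hn g ^ j := by
  induction j with
  | zero => rw [pow_zero, pow_zero, cls_one]
  | succ j ih => rw [pow_succ, pow_succ, cls_mul n hn (pow_ne_zero j hg) hg, ih]

theorem exists_zpow_of_cls_eq_one (n : Γ₀) (hn : n ≠ 0) {g : Γ₀} (hg : g ≠ 0)
    (h : cls n hn g = 1) : ∃ k : ℤ, g = (n ^ 2) ^ k := by
  rw [cls_of_ne n hn hg, QuotientGroup.eq_one_iff] at h
  obtain ⟨k, hk⟩ := Subgroup.mem_zpowers_iff.mp h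
  refine ⟨k, ?_⟩
  have := congrArg Units.val hk
  rw [Units.val_zpow_eq_zpow_val] at this
  exact this.symm

end Cls

section Main

variable {G : Type*} [AddCommGroup G] {K : Type*} [Field K] {Γ₀ : Type*}
  [LinearOrderedCommGroupWithZero Γ₀] (D : KummerData G K) (v : Valuation K Γ₀)

open Classical in
/-- clipped valuation of the `x`-coordinate of a point (`1` at the origin) -/
noncomputable def hv (P : G) : Γ₀ := if P = 0 then 1 else clip (v D.γ) (v (D.x P))

theorem hv_zero : hv D v 0 = 1 := if_pos rfl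

theorem hv_of_ne {P : G} (h : P ≠ 0) : hv D v P = clip (v D.γ) (v (D.x P)) := if_neg h

theorem hv_neg (P : G) : hv D v (-P) = hv D v P := by
  by_cases h : P = 0
  · subst h; rw [neg_zero]
  · rw [hv_of_ne D v h, hv_of_ne D v (neg_ne_zero.mpr h), D.x_neg]

theorem hv_pos (hγ1 : v D.γ < 1) (hγ0 : D.γ ≠ 0) (P : G) : 0 < hv D v P := by
  have hn0 : 0 < v D.γ := zero_lt_iff.mpr ((Valuation.ne_zero_iff v).mpr hγ0)
  by_cases h : P = 0
  · subst h; rw [hv_zero]; exact zero_lt_one
  · rw [hv_of_ne D v h]; exact lt_of_lt_of_le hn0 (le_clip hγ1.le _)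

theorem dbl_hv (h2 : v 2 = 1) (hβ : v D.β = 1) (hγ1 : v D.γ < 1) (hγ0 : D.γ ≠ 0) {P : G}
    (hP : P ≠ 0) :
    hv D v (P + P) = hv D v P * hv D v P ∨
      hv D v (P + P) * (hv D v P * hv D v P) = v D.γ ^ 2 := by
  have h20 : (2 : K) ≠ 0 := by
    intro h
    rw [h, v.map_zero] at h2
    exact zero_ne_one h2
  by_cases hy : D.y P = 0
  · have hPP : P + P = 0 := two_nsmul_eq_zero_of_y_eq_zero D hP hy
    have heq : D.x P ^ 3 + D.β * D.x P ^ 2 + D.γ * D.x P = 0 := by
      have := D.eqn P hP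
      rw [hy] at this
      rw [← this]; ring
    rw [hPP, hv_zero, hv_of_ne D v hP]
    rcases dbl_rule_zero v hβ hγ1 hγ0 heq with h | h
    · left; rw [h, one_mul]
    · right; rw [h, one_mul, sq]
  · have hPP : P + P ≠ 0 := by
      intro h
      have h1 : P = -P := add_eq_zero_iff_eq_neg.mp h
      have h3 : D.y P = -D.y P := by
        conv_lhs => rw [h1]
        exact D.y_neg P
      have h4 : 2 * D.y P = 0 := by linear_combination h3
      rcases mul_eq_zero.mp h4 with h5 | h5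
      · exact h20 h5
      · exact hy h5
    rw [hv_of_ne D v hPP, hv_of_ne D v hP]
    exact dbl_rule v h2 hβ hγ1 hγ0 hy (D.eqn P hP) (D.dbl_x P hP hy)

/-- The addition rule for clipped valuations, for arbitrary points. -/
theorem rule (h2 : v 2 = 1) (hβ : v D.β = 1) (hγ1 : v D.γ < 1) (hγ0 : D.γ ≠ 0) (P Q : G) :
    RuleConcl (v D.γ) (hv D v P) (hv D v Q) (hv D v (P + Q)) (hv D v (P - Q)) := by
  by_cases hP : P = 0
  · subst hP
    refine ⟨hv D v Q, hv D v Q, Or.inl ⟨by rw [zero_add], by rw [zero_sub, hv_neg]⟩,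
      Or.inl ?_, Or.inr ?_⟩
    · rw [hv_zero, one_mul]
    · rw [hv_zero, mul_one]
  by_cases hQ : Q = 0
  · subst hQ
    refine ⟨hv D v P, hv D v P, Or.inl ⟨by rw [add_zero], by rw [sub_zero]⟩,
      Or.inl ?_, Or.inl ?_⟩
    · rw [hv_zero, mul_one]
    · rw [hv_zero, mul_one]
  by_cases hx : D.x P = D.x Q
  · rcases eq_or_eq_neg_of_x_eq D hP hQ hx with h | h
    · subst h
      exact ⟨hv D v (P + P), 1, Or.inl ⟨rfl, by rw [sub_self, hv_zero]⟩,
        dbl_hv D v h2 hβ hγ1 hγ0 hP, Or.inl (one_mul _)⟩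
    · subst h
      refine ⟨hv D v (Q + Q), 1, Or.inr ⟨by rw [neg_add_cancel, hv_zero], ?_⟩, ?_,
        Or.inl ?_⟩
      · have : -Q - Q = -(Q + Q) := by abel
        rw [this, hv_neg]
      · rw [hv_neg]; exact dbl_hv D v h2 hβ hγ1 hγ0 hQ
      · rw [hv_neg, one_mul]
  · have hadd : P + Q ≠ 0 := by
      intro h
      have : P = -Q := add_eq_zero_iff_eq_neg.mp h
      exact hx (by rw [this, D.x_neg])
    have hsub : P - Q ≠ 0 := by
      intro h
      have : P = Q := sub_eq_zero.mp h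
      exact hx (by rw [this])
    rw [hv_of_ne D v hP, hv_of_ne D v hQ, hv_of_ne D v hadd, hv_of_ne D v hsub]
    exact pair_rule v h2 hβ hγ1 hγ0 hx (prod_x D hP hQ hx) (sum_x D hP hQ hx)

/-- The addition rule in the quotient by powers of `n ^ 2`, up to inversion. -/
theorem rule_cls (h2 : v 2 = 1) (hβ : v D.β = 1) (hγ1 : v D.γ < 1) (hγ0 : D.γ ≠ 0)
    (hn : v D.γ ≠ 0) (P Q : G) :
    (InvRel (cls (v D.γ) hn (hv D v (P + Q)))
        (cls (v D.γ) hn (hv D v P) * cls (v D.γ) hn (hv D v Q)) ∧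
      InvRel (cls (v D.γ) hn (hv D v (P - Q)))
        (cls (v D.γ) hn (hv D v P) * (cls (v D.γ) hn (hv D v Q))⁻¹)) ∨
    (InvRel (cls (v D.γ) hn (hv D v (P + Q)))
        (cls (v D.γ) hn (hv D v P) * (cls (v D.γ) hn (hv D v Q))⁻¹) ∧
      InvRel (cls (v D.γ) hn (hv D v (P - Q)))
        (cls (v D.γ) hn (hv D v P) * cls (v D.γ) hn (hv D v Q))) := by
  obtain ⟨s, t, hst, hs, ht⟩ := rule D v h2 hβ hγ1 hγ0 P Q
  have hP0 : hv D v P ≠ 0 := (hv_pos D v hγ1 hγ0 P).ne'
  have hQ0 : hv D v Q ≠ 0 := (hv_pos D v hγ1 hγ0 Q).ne'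
  have hs0 : s ≠ 0 := by
    rcases hst with ⟨h, _⟩ | ⟨_, h⟩
    · rw [← h]; exact (hv_pos D v hγ1 hγ0 _).ne'
    · rw [← h]; exact (hv_pos D v hγ1 hγ0 _).ne'
  have ht0 : t ≠ 0 := by
    rcases hst with ⟨_, h⟩ | ⟨h, _⟩
    · rw [← h]; exact (hv_pos D v hγ1 hγ0 _).ne'
    · rw [← h]; exact (hv_pos D v hγ1 hγ0 _).ne'
  have hs' : InvRel (cls (v D.γ) hn s)
      (cls (v D.γ) hn (hv D v P) * cls (v D.γ) hn (hv D v Q)) := by
    rcases hs with h | h
    · left; rw [h, cls_mul _ hn hP0 hQ0]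
    · right
      have h1 := congrArg (cls (v D.γ) hn) h
      rw [cls_mul _ hn hs0 (mul_ne_zero hP0 hQ0), cls_mul _ hn hP0 hQ0, cls_sq] at h1
      exact eq_inv_of_mul_eq_one_left h1
  have ht' : InvRel (cls (v D.γ) hn t)
      (cls (v D.γ) hn (hv D v P) * (cls (v D.γ) hn (hv D v Q))⁻¹) := by
    rcases ht with h | h
    · left
      have h1 := congrArg (cls (v D.γ) hn) h
      rw [cls_mul _ hn ht0 hQ0] at h1
      exact eq_mul_inv_of_mul_eq h1
    · right
      have h1 := congrArg (cls (v D.γ) hn) h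
      rw [cls_mul _ hn ht0 hP0] at h1
      rw [mul_inv_rev, inv_inv]
      exact eq_mul_inv_of_mul_eq h1
  rcases hst with ⟨h1, h2'⟩ | ⟨h1, h2'⟩
  · left; rw [h1, h2']; exact ⟨hs', ht'⟩
  · right; rw [h1, h2']; exact ⟨ht', hs'⟩

/-- Multiples of a point: the class of the clipped valuation of `j • T` is the `j`-th power of
the class of `T`, up to inversion. -/
theorem cls_nsmul (h2 : v 2 = 1) (hβ : v D.β = 1) (hγ1 : v D.γ < 1) (hγ0 : D.γ ≠ 0)
    (hn : v D.γ ≠ 0) (T : G) (j : ℕ) :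
    InvRel (cls (v D.γ) hn (hv D v (j • T))) (cls (v D.γ) hn (hv D v T) ^ j) ∧
      InvRel (cls (v D.γ) hn (hv D v ((j + 1) • T))) (cls (v D.γ) hn (hv D v T) ^ (j + 1)) := by
  induction j with
  | zero =>
    refine ⟨?_, ?_⟩
    · rw [zero_smul, hv_zero, cls_one, pow_zero]; exact InvRel.refl _
    · rw [zero_add, one_smul, pow_one]; exact InvRel.refl _
  | succ j ih =>
    obtain ⟨ih0, ih1⟩ := ih
    refine ⟨ih1, ?_⟩
    set g := cls (v D.γ) hn (hv D v T) with hg
    have hadd : (j + 1) • T + T = (j + 1 + 1) • T := (succ_nsmul T (j + 1)).symm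
    have hsub : (j + 1) • T - T = j • T := by rw [succ_nsmul, add_sub_cancel_right]
    have hr := rule_cls D v h2 hβ hγ1 hγ0 hn ((j + 1) • T) T
    rw [hadd, hsub, ← hg] at hr
    have e1 : g ^ (j + 1) * g = g ^ (j + 1 + 1) := (pow_succ g (j + 1)).symm
    have e2 : g ^ (j + 1) * g⁻¹ = g ^ j := by rw [pow_succ, mul_inv_cancel_right]
    have e3 : (g ^ (j + 1))⁻¹ * g = (g ^ j)⁻¹ := by
      rw [pow_succ, mul_inv_rev, mul_comm g⁻¹, inv_mul_cancel_right]
    have e4 : (g ^ (j + 1))⁻¹ * g⁻¹ = (g ^ (j + 1 + 1))⁻¹ := by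
      rw [pow_succ g (j + 1), mul_inv_rev, mul_comm]
    rcases hr with ⟨hA1, hA2⟩ | ⟨hB1, hB2⟩
    · rcases ih1 with e | e
      · rw [e, e1] at hA1; exact hA1
      · rw [e, e3] at hA1
        rw [e, e4] at hA2
        -- `c((j+2)T) ≈ g^j`, `c(jT) ≈ g^(j+2)`
        have h1 : InvRel (g ^ j) (g ^ (j + 1 + 1)) :=
          ih0.symm.trans (hA2.trans (InvRel.inv_left _))
        exact (hA1.trans (InvRel.inv_left _)).trans h1
    · rcases ih1 with e | e
      · rw [e, e2] at hB1
        rw [e, e1] at hB2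
        exact hB1.trans (ih0.symm.trans hB2)
      · rw [e, e4] at hB1
        exact hB1.trans (InvRel.inv_left _)

end Main

end ValNode

/-- **Valuations of torsion points reducing to the node.**  On `y² = x³ + βx² + γx` with `β` a
unit and `γ` in the maximal ideal, a point of odd order `p` whose `x`-coordinate lies in the
maximal ideal satisfies `v(x)^p ∈ v(γ)^(2ℕ)`. -/
theorem ValNode.torsion_val {G : Type*} [AddCommGroup G] {K : Type*} [Field K] {Γ₀ : Type*}
    [LinearOrderedCommGroupWithZero Γ₀] (D : KummerData G K) (v : Valuation K Γ₀)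
    (h2 : v 2 = 1) (hβ : v D.β = 1) (hγ : v D.γ < 1) (hγ0 : D.γ ≠ 0) {p : ℕ} (hp : Odd p)
    {T : G} (hT : p • T = 0) (hT0 : T ≠ 0) (hx : v (D.x T) < 1) :
    ∃ i : ℕ, v (D.x T) ^ p = v D.γ ^ (2 * i) := by
  have hn : v D.γ ≠ 0 := (Valuation.ne_zero_iff v).mpr hγ0
  have hn0 : 0 < v D.γ := zero_lt_iff.mpr hn
  have hn20 : 0 < v D.γ ^ 2 := pow_pos hn0 2
  have hn21 : v D.γ ^ 2 < 1 := pow_lt_one₀ zero_le hγ (by norm_num)
  have hcl := (cls_nsmul D v h2 hβ hγ hγ0 hn T p).1
  rw [hT, hv_zero, cls_one] at hcl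
  have hT0' : hv D v T ≠ 0 := (hv_pos D v hγ hγ0 T).ne'
  have hone : cls (v D.γ) hn (hv D v T ^ p) = 1 := by
    rw [cls_pow _ hn hT0']
    rcases hcl with h | h
    · exact h.symm
    · exact inv_eq_one.mp h.symm
  obtain ⟨k, hk⟩ := exists_zpow_of_cls_eq_one _ hn (pow_ne_zero p hT0') hone
  have hp1 : p ≠ 0 := by
    rintro rfl
    exact absurd hp (by decide)
  rw [hv_of_ne D v hT0] at hk
  by_cases hxn : v (D.x T) ≤ v D.γ
  · -- impossible: the class would have order two
    exfalso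
    rw [clip_of_le hγ.le hxn] at hk
    have h1 : v D.γ ^ (p : ℤ) = v D.γ ^ (2 * k) := by
      rw [zpow_natCast, hk, ← zpow_natCast, ← zpow_mul]
      norm_num
    have h3 : (p : ℤ) = 2 * k := (zpow_right_inj₀ hn0 hγ.ne).mp h1
    obtain ⟨m, hm⟩ := hp
    omega
  · push Not at hxn
    rw [clip_of_mem hxn.le hx.le] at hk
    have hlt : v (D.x T) ^ p < 1 := pow_lt_one₀ zero_le hx hp1
    rw [hk] at hlt
    have hk0 : 0 < k := (zpow_lt_one_iff_right_of_lt_one₀ hn20 hn21).mp hlt
    refine ⟨k.toNat, ?_⟩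
    rw [hk, pow_mul, ← zpow_natCast (v D.γ ^ 2) k.toNat, Int.toNat_of_nonneg hk0.le]

end Fermat.Agent.S05
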